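import Fermat.Agent.S36.Unr.PhiInf

/-!
# S36 / Unr / CuspAlg : the algebra behind `CuspIn`        (helper67)

* `exists_pow_mul_isIntegralElem_frac` : `r` integral over `ℤ[σ]`, `σ = φ a / φ b` ⟹ `(φ b)^k r` integral over `φ(R)`.
* `phiInf_series` : `phiInf` transported to `B((q))`, `q ↦ q^N`.
* `frob_eval₂` : `Fr c = c^l` ⟹ `Fr (p(c)) = p(c)^l` for `p ∈ ℤ[X]`, in characteristic `l`.
* coprimality / primitivity of `(X, P)` and `(X^(D-1), P.reverse)`.
-/

set_option autoImplicit false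

open ModularCurve Polynomial

namespace Fermat.Agent.S36.Unr

open Fermat.Agent.S28 Fermat.Agent.S28.Build

/-- evaluation of an integral polynomial. -/
noncomputable abbrev evZ {F : Type*} [CommRing F] (σ : F) : ℤ[X] →+* F :=
  eval₂RingHom (Int.castRingHom F) σ

theorem exists_pow_mul_isIntegralElem_frac {R F : Type*} [CommRing R] [CommRing F] (φ : R →+* F)
    (a b : R) (σ r : F) (hσ : σ * φ b = φ a) (P : ℤ[X][X]) (hP : P.Monic)
    (hr : P.eval₂ (evZ σ) r = 0) : ∃ k : ℕ, φ.IsIntegralElem (φ b ^ k * r) := by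
  classical
  set d : ℕ := P.support.sup fun n => (P.coeff n).natDegree with hd
  have hdeg : ∀ n, (P.coeff n).natDegree ≤ d := by
    intro n
    by_cases hn : n ∈ P.support
    · exact Finset.le_sup (f := fun n => (P.coeff n).natDegree) hn
    · rw [notMem_support_iff.1 hn, natDegree_zero]
      exact Nat.zero_le _
  have key : ∀ c : ℤ[X], c.natDegree ≤ d → evZ σ c * φ b ^ d ∈ Set.range φ := by
    intro c hc
    refine ⟨∑ k ∈ Finset.range (d + 1), (c.coeff k : R) * a ^ k * b ^ (d - k), ?_⟩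
    rw [map_sum, coe_eval₂RingHom, eval₂_eq_sum_range' _ (Nat.lt_succ_of_le hc), Finset.sum_mul]
    refine Finset.sum_congr rfl fun k hk => ?_
    have hk' : k ≤ d := Nat.lt_succ_iff.1 (Finset.mem_range.1 hk)
    have e1 : φ b ^ d = φ b ^ k * φ b ^ (d - k) := by rw [← pow_add, Nat.add_sub_cancel' hk']
    rw [map_mul, map_mul, map_pow, map_pow, map_intCast, ← hσ, e1, mul_pow, eq_intCast]
    ring
  set pS := P.map (evZ σ) with hpS
  have hpSm : pS.Monic := hP.map _
  set qS := pS.scaleRoots (φ b ^ d) with hqS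
  have hqSm : qS.Monic := (monic_scaleRoots_iff _).2 hpSm
  have hrootS : eval₂ (RingHom.id _) r pS = 0 := by
    rw [hpS, eval₂_map, RingHom.id_comp]
    exact hr
  have hrootq : eval₂ (RingHom.id _) (φ b ^ d * r) qS = 0 :=
    scaleRoots_eval₂_eq_zero (RingHom.id _) hrootS
  have hlift : qS ∈ lifts φ := by
    rw [lifts_iff_coeff_lifts]
    intro i
    rw [hqS, coeff_scaleRoots]
    rcases lt_trichotomy i pS.natDegree with hi | hi | hi
    · obtain ⟨g, hg⟩ := key (P.coeff i) (hdeg i)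
      refine ⟨g * b ^ (d * (pS.natDegree - i - 1)), ?_⟩
      have e2 : pS.natDegree - i = 1 + (pS.natDegree - i - 1) := by omega
      rw [map_mul, hg, map_pow, hpS, coeff_map]
      conv_rhs => rw [← hpS, e2, pow_add, pow_one, ← pow_mul]
      ring
    · refine ⟨1, ?_⟩
      rw [hi, Nat.sub_self, pow_zero, mul_one, map_one]
      exact hpSm.coeff_natDegree.symm
    · refine ⟨0, ?_⟩
      rw [coeff_eq_zero_of_natDegree_lt hi, zero_mul, map_zero]
  obtain ⟨q, hq, -, hqm⟩ := lifts_and_natDegree_eq_and_monic hlift hqSm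
  refine ⟨d, q, hqm, ?_⟩
  rw [← hq, eval₂_map, RingHom.id_comp] at hrootq
  exact hrootq

/-- `phiInf` over any ring, after `q ↦ q^N`. -/
theorem phiInf_series (B : Type*) [CommRing B] (N l : ℕ) [NeZero N] [NeZero l] [NeZero (l * N)]
    (hl : l.Prime) (σ : LaurentSeries B) (hσ : σ * qExpand B N (jqModC B) = 1) :
    ∃ P : ℤ[X][X], P.Monic ∧ P.eval₂ (evZ σ) (qExpand B (l * N) (jqModC B) * σ ^ l) = 0 := by
  have : Fact l.Prime := ⟨hl⟩
  obtain ⟨P, hP, hroot⟩ := PhiInf.phiInf l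
  refine ⟨P, hP, ?_⟩
  set θ : LaurentSeries ℤ →+* LaurentSeries B :=
    (qExpand B N).comp (coeffMap (Int.castRingHom B)) with hθ
  have hθJ : θ (J ℤ) = qExpand B N (jqModC B) := by
    rw [hθ, RingHom.comp_apply, coeffMap_J]
  have hθs : θ (PhiInf.sJ ℤ) = σ := by
    have h1 : θ (PhiInf.sJ ℤ) * qExpand B N (jqModC B) = 1 := by
      rw [← hθJ, ← map_mul, PhiInf.sJ_mul_J, map_one]
    calc θ (PhiInf.sJ ℤ) = θ (PhiInf.sJ ℤ) * (σ * qExpand B N (jqModC B)) := by rw [hσ, mul_one]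
      _ = (θ (PhiInf.sJ ℤ) * qExpand B N (jqModC B)) * σ := by ring
      _ = σ := by rw [h1, one_mul]
  have hθV : θ (V ℤ l (J ℤ)) = qExpand B (l * N) (jqModC B) := by
    rw [hθ, RingHom.comp_apply, coeffMap_V, coeffMap_J]
    exact (qExpand_qExpand l N (jqModC B)).trans (qExpand_congr (mul_comm N l) _)
  have hcomp : θ.comp (evAt (PhiInf.sJ ℤ)) = evZ σ := by
    apply Polynomial.ringHom_ext
    · intro a
      simp
    · simp [hθs]
  have h2 := congrArg θ hroot
  rw [eval_map, hom_eval₂, hcomp, map_zero, map_mul, map_pow, hθV, hθs] at h2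
  exact h2

/-- Frobenius and integral polynomials. -/
theorem frob_eval₂ {R : Type*} [CommRing R] (l : ℕ) (hl : l.Prime) (hR : (l : R) = 0)
    (Fr : R →+* R) (c : R) (hc : Fr c = c ^ l) (p : ℤ[X]) : Fr (evZ c p) = evZ c p ^ l := by
  rcases subsingleton_or_nontrivial R with h | h
  · exact Subsingleton.elim _ _
  have : Fact l.Prime := ⟨hl⟩
  have : CharP R l := (CharP.charP_iff_prime_eq_zero hl).2 hR
  have h1 : Fr.comp (evZ c) = (frobenius R l).comp (evZ c) := by
    apply Polynomial.ringHom_ext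
    · intro a
      simp
    · simp [hc, frobenius_def]
  exact RingHom.congr_fun h1 p

section Poly

variable {A : Type*} [CommRing A]

theorem isCoprime_X_of_isUnit (Q : A[X]) (h : IsUnit (Q.coeff 0)) : IsCoprime X Q := by
  obtain ⟨c, hc⟩ := h.exists_left_inv
  refine ⟨- (C c * Q.divX), C c, ?_⟩
  have h1 : Q.divX * X + C (Q.coeff 0) = Q := divX_mul_X_add Q
  calc -(C c * Q.divX) * X + C c * Q = C c * (Q - Q.divX * X) := by ring
    _ = C c * C (Q.coeff 0) := by rw [sub_eq_iff_eq_add'.2 h1.symm]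
    _ = 1 := by rw [← C_mul, hc, C_1]

theorem not_C_dvd_of_coeff_one {π : A} (hπ : ¬ IsUnit π) (Q : A[X]) (n : ℕ) (h : Q.coeff n = 1) :
    ¬ C π ∣ Q := by
  intro hd
  have := (C_dvd_iff_dvd_coeff π Q).1 hd n
  rw [h] at this
  exact hπ (isUnit_of_dvd_one this)

end Poly

end Fermat.Agent.S36.Unr
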