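import Fermat.Agent.S36.Unr.Extra
import Fermat.Agent.S36.Unr.CuspAlg

/-!
# S36 / Unr / CuspEx : existence of the data `CuspIn` (input of `Chart.Extra.unr1/unr2`)        (helper67)

`tq ∈ K((q))` the expansion of the coordinate `t` of the chart.  `pa, pb ∈ ℤ[X]` coprime over `A`, primitive, with `pa(tq) * j(q^N) = pb(tq)`.
Then `a₀ = pa(t)`, `b₀ = pb(t)`, and `m = b₀^k j(q^{lN}) / j(q^N)^l ∈ M1` for some `k` (`PhiInf.phiInf`).

* `exists_cuspIn`      : general `pa`, `pb`;
* `exists_cuspIn_x`    : `tq = X0`,   `P(X0) = j(q^N) X0`:  `pa = X`, `pb = P`;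
* `exists_cuspIn_inv`  : `tq = X0⁻¹`, `P(X0) = j(q^N) X0`:  `pa = X^(deg P - 1)`, `pb = P.reverse`.
-/

set_option autoImplicit false
set_option linter.unusedSectionVars false

open Polynomial ModularCurve

namespace Fermat.Agent.S36.Unr

open Fermat.Agent.Crux.G Fermat.Agent.Crux.G.QLink Fermat.Agent.S36.Val Fermat.Agent.S36.R
  Fermat.Agent.S36.Mod Fermat.Agent.S24

variable {l N : ℕ} [NeZero N] [NeZero l] {K : Type} [Field K] [Algebra K Kb]
    {Ω O κ Ω1 O1 ι μ : Type*} [Field Ω] [CommRing O] [Field κ] [Field Ω1] [CommRing O1] [Fintype ι]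
    [Fintype μ]
variable {A E : Type*} [CommRing A] [IsDomain A] [IsDiscreteValuationRing A] [Field E] [CharZero E]
    [Algebra A E] [Algebra E (FK K N)] [Algebra E (FK K (N * l))] [Algebra E (FK K (N * l * l))]
    [Algebra A (FK K N)] [Algebra A (FK K (N * l))] [Algebra A (FK K (N * l * l))]
    [IsScalarTower A E (FK K N)] [IsScalarTower A E (FK K (N * l))]
    [IsScalarTower A E (FK K (N * l * l))]
    [FiniteDimensional E (FK K N)] [FiniteDimensional E (FK K (N * l))]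
    [FiniteDimensional E (FK K (N * l * l))]
variable {S : Setup l K (FK K N) (FK K (N * l)) (FK K (N * l * l)) Ω O κ Ω1 O1 ι μ} {i₀ : ι}
    {b0 : FK K N →+* FK K (N * l)} {w1 : FK K (N * l) →+* FK K (N * l)}
    {w2 : FK K (N * l * l) →+* FK K (N * l * l)} {π : A} {t : E} (D : QData S i₀ b0 w1 w2 π t)

/-- the inclusion `F_K(M) → K((q))`. -/
noncomputable def valF (K : Type) [Field K] (M : ℕ) : FK K M →+* LaurentSeries K :=
  (modularFunctionFieldFullC K M).val.toRingHom

theorem valF_apply (M : ℕ) (f : FK K M) : valF K M f = (f : LaurentSeries K) := rfl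

theorem valF_injective (M : ℕ) : Function.Injective (valF K M) := Subtype.val_injective

theorem valF_comp_evZ (M : ℕ) (σ : FK K M) : (valF K M).comp (evZ σ) = evZ (valF K M σ) := by
  apply Polynomial.ringHom_ext
  · intro a
    simp
  · simp

omit [NeZero N] [NeZero l] [Algebra K Kb] in
theorem setup_char (S : Setup l K (FK K N) (FK K (N * l)) (FK K (N * l * l)) Ω O κ Ω1 O1 ι μ) :
    (l : κ) = 0 := by
  obtain ⟨c, hc⟩ := S.hlϖ
  rw [← map_natCast S.red, hc, map_mul, S.P.red_unif, zero_mul]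

include D in
theorem rho0_psi (p : ℤ[X]) :
    D.chart.ρ0 (psiMx A (FK K N) t (p.map (Int.castRingHom A)))
      = evZ (D.chart.ρ0 (psiMx A (FK K N) t X)) p := by
  have h : (D.chart.ρ0.comp (psiMx A (FK K N) t)).comp (mapRingHom (Int.castRingHom A))
      = evZ (D.chart.ρ0 (psiMx A (FK K N) t X)) := by
    apply Polynomial.ringHom_ext
    · intro a
      simp
    · simp
  exact RingHom.congr_fun h p

include D in
theorem fr_t : D.chart.Fr (D.chart.ρ0 (psiMx A (FK K N) t X))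
    = D.chart.ρ0 (psiMx A (FK K N) t X) ^ l := by
  obtain ⟨c, h1, h2, -⟩ := D.res_t
  have hc : D.chart.r0 (psiMx A (FK K N) t X) = c :=
    (resHom_eq_iff _ _ _ _ _).2 (by rw [coe_psiMx, aeval_X]; exact h1)
  apply Subtype.ext
  rw [D.chart.coe_Fr, Subring.coe_pow, D.chart.coe_ρ0, hc, h2]

include D in
theorem rho0_ne (s : A[X]) (hs : ¬ C π ∣ s) : D.chart.ρ0 (psiMx A (FK K N) t s) ≠ 0 := by
  obtain ⟨c, hc, h1⟩ := D.res_s s hs
  have h2 : D.chart.r0 (psiMx A (FK K N) t s) = c := (resHom_eq_iff _ _ _ _ _).2 h1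
  intro h0
  apply hc
  rw [← h2, ← D.chart.coe_ρ0, h0]
  rfl

include D in
theorem fr_psi (hl : l.Prime) (p : ℤ[X]) :
    D.chart.Fr (D.chart.ρ0 (psiMx A (FK K N) t (p.map (Int.castRingHom A))))
      = D.chart.ρ0 (psiMx A (FK K N) t (p.map (Int.castRingHom A))) ^ l := by
  rw [rho0_psi D]
  refine frob_eval₂ l hl ?_ _ _ (fr_t D) p
  apply Subtype.ext
  rw [SubringClass.coe_natCast, setup_char S]
  rfl

theorem jdK_ne_zero (M d : ℕ) [NeZero d] (hd : d ∣ M) : jdK K M d hd ≠ 0 := by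
  intro h0
  have h3 : qExpand K d (jqModC K) = 0 := congrArg Subtype.val h0
  have h4 : jqModC K = 0 := (map_eq_zero (qExpand K d)).1 h3
  exact S28.transcendental_jqModC K (h4 ▸ isAlgebraic_zero)

/-- `phiInf` in `F_K(N l)`. -/
theorem phiInf_FK (hl : l.Prime) :
    ∃ P : ℤ[X][X], P.Monic ∧ P.eval₂ (evZ (jdK K (N * l) N (Dvd.intro _ rfl))⁻¹)
      (jdK K (N * l) (l * N) (by rw [mul_comm]) * ((jdK K (N * l) N (Dvd.intro _ rfl))⁻¹) ^ l)
        = 0 := by
  have hne := jdK_ne_zero (K := K) (N * l) N (Dvd.intro _ rfl)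
  have hσ : valF K (N * l) (jdK K (N * l) N (Dvd.intro _ rfl))⁻¹ * qExpand K N (jqModC K) = 1 := by
    have h1 : valF K (N * l) (jdK K (N * l) N (Dvd.intro _ rfl)) = qExpand K N (jqModC K) := rfl
    rw [← h1, ← map_mul, inv_mul_cancel₀ hne, map_one]
  obtain ⟨P, hP, hroot⟩ := phiInf_series K N l hl _ hσ
  refine ⟨P, hP, ?_⟩
  apply valF_injective
  rw [hom_eval₂, valF_comp_evZ, map_zero, map_mul, map_pow]
  exact hroot

include D in
/-- (H). -/
theorem exists_rel (hl : l.Prime)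
    (ha0 : ∀ f : FK K N, ((S.a0 f : FK K (N * l)) : LaurentSeries K) = f)
    (hb0 : ∀ f : FK K N, ((b0 f : FK K (N * l)) : LaurentSeries K)
      = qExpand K l (f : LaurentSeries K))
    (pa pb : A[X])
    (hjN : ((psiMx A (FK K N) t pa : (Mx A (FK K N) t).toSubring) : FK K N) * jdK K N N dvd_rfl
      = (psiMx A (FK K N) t pb : (Mx A (FK K N) t).toSubring)) :
    ∃ (k : ℕ) (m : (Mx A (FK K (N * l)) t).toSubring),
      m * (D.chart.β (psiMx A (FK K N) t pa) * D.chart.α (psiMx A (FK K N) t pb) ^ l)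
        = D.chart.α (psiMx A (FK K N) t pb) ^ k
          * (D.chart.β (psiMx A (FK K N) t pb) * D.chart.α (psiMx A (FK K N) t pa) ^ l) := by
  obtain ⟨P, hP, hroot⟩ := phiInf_FK (K := K) (N := N) (l := l) hl
  have hne := jdK_ne_zero (K := K) (N * l) N (Dvd.intro _ rfl)
  have a0_jd : S.a0 (jdK K N N dvd_rfl) = jdK K (N * l) N (Dvd.intro _ rfl) :=
    Subtype.ext (ha0 _)
  have b0_jd : b0 (jdK K N N dvd_rfl) = jdK K (N * l) (l * N) (by rw [mul_comm]) := by
    apply Subtype.ext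
    rw [hb0]
    exact qExpand_qExpand N l (jqModC K)
  set j1 := jdK K (N * l) N (Dvd.intro _ rfl) with hj1
  set j2 := jdK K (N * l) (l * N) (by rw [mul_comm]) with hj2
  set φ1 : A[X] →+* FK K (N * l) :=
    (algebraMap E (FK K (N * l))).comp ((aeval t : A[X] →ₐ[A] E) : A[X] →+* E) with hφ1
  have hα : ∀ p : A[X], ((D.chart.α (psiMx A (FK K N) t p) : (Mx A (FK K (N * l)) t).toSubring) :
      FK K (N * l)) = φ1 p := by
    intro p
    rw [D.chart.coe_α, coe_psiMx, D.a0_E]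
    rfl
  have h1 : φ1 pa * j1 = φ1 pb := by
    rw [← hα, ← hα, D.chart.coe_α, D.chart.coe_α, ← a0_jd, ← map_mul, hjN]
  have h2 : ((D.chart.β (psiMx A (FK K N) t pa) : (Mx A (FK K (N * l)) t).toSubring) :
      FK K (N * l)) * j2 = (D.chart.β (psiMx A (FK K N) t pb) : (Mx A (FK K (N * l)) t).toSubring) := by
    rw [D.chart.coe_β, D.chart.coe_β, ← b0_jd, ← map_mul, hjN]
  have hσ : j1⁻¹ * φ1 pb = φ1 pa := by
    rw [← h1, mul_comm (φ1 pa), ← mul_assoc, inv_mul_cancel₀ hne, one_mul]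
  obtain ⟨k, hk⟩ := exists_pow_mul_isIntegralElem_frac φ1 pa pb j1⁻¹ (j2 * j1⁻¹ ^ l) hσ P hP hroot
  refine ⟨k, ⟨φ1 pb ^ k * (j2 * j1⁻¹ ^ l), hk⟩, ?_⟩
  apply Subtype.ext
  simp only [Subring.coe_mul, Subring.coe_pow, hα]
  rw [← h2, ← hσ]
  ring

include D in
/-- **existence of `CuspIn`.** -/
theorem exists_cuspIn (hl : l.Prime)
    (ha0 : ∀ f : FK K N, ((S.a0 f : FK K (N * l)) : LaurentSeries K) = f)
    (hb0 : ∀ f : FK K N, ((b0 f : FK K (N * l)) : LaurentSeries K)
      = qExpand K l (f : LaurentSeries K))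
    (hal : ∀ f : FK K (N * l), ((S.al f : FK K (N * l * l)) : LaurentSeries K) = f)
    (pa pb : ℤ[X])
    (hj : evZ ((algebraMap E (FK K N) t : FK K N) : LaurentSeries K) pa * qExpand K N (jqModC K)
      = evZ ((algebraMap E (FK K N) t : FK K N) : LaurentSeries K) pb)
    (hcop : IsCoprime (pa.map (Int.castRingHom A)) (pb.map (Int.castRingHom A)))
    (hpa : ¬ C π ∣ pa.map (Int.castRingHom A)) (hpb : ¬ C π ∣ pb.map (Int.castRingHom A)) :
    ∃ (a₀ b₀ : (Mx A (FK K N) t).toSubring) (k : ℕ) (m : (Mx A (FK K (N * l)) t).toSubring),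
      CuspIn D a₀ b₀ k m := by
  have hval : ∀ p : ℤ[X], valF K N (psiMx A (FK K N) t (p.map (Int.castRingHom A)) :
      (Mx A (FK K N) t).toSubring) = evZ ((algebraMap E (FK K N) t : FK K N) : LaurentSeries K) p := by
    intro p
    have h : (((valF K N).comp (Mx A (FK K N) t).toSubring.subtype).comp
        (psiMx A (FK K N) t)).comp (mapRingHom (Int.castRingHom A))
        = evZ ((algebraMap E (FK K N) t : FK K N) : LaurentSeries K) := by
      apply Polynomial.ringHom_ext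
      · intro a
        simp
      · simp only [RingHom.comp_apply, coe_mapRingHom, Polynomial.map_X, coe_eval₂RingHom, eval₂_X]
        show valF K N ((psiMx A (FK K N) t X : (Mx A (FK K N) t).toSubring) : FK K N) = _
        rw [coe_psiMx, aeval_X]
        rfl
    exact RingHom.congr_fun h p
  have hjN : ((psiMx A (FK K N) t (pa.map (Int.castRingHom A)) : (Mx A (FK K N) t).toSubring) :
      FK K N) * jdK K N N dvd_rfl
      = (psiMx A (FK K N) t (pb.map (Int.castRingHom A)) : (Mx A (FK K N) t).toSubring) := by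
    apply valF_injective
    rw [map_mul, hval, hval, ← hj]
    rfl
  obtain ⟨k, m, hrel⟩ := exists_rel D hl ha0 hb0 _ _ hjN
  refine ⟨_, _, k, m, ⟨ha0, hb0, hal, hjN, ?_, hrel, fr_psi D hl pa, fr_psi D hl pb,
    rho0_ne D _ hpa, rho0_ne D _ hpb⟩⟩
  intro z hz ha hb
  obtain ⟨u, v, huv⟩ := hcop
  apply hz.ne_top
  rw [Ideal.eq_top_iff_one, ← map_one (psiMx A (FK K N) t), ← huv, map_add, map_mul, map_mul]
  exact z.add_mem (z.mul_mem_left _ ha) (z.mul_mem_left _ hb)

include D in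
/-- the chart `t = x`, `P(x) = j(q^N) x`. -/
theorem exists_cuspIn_x (hl : l.Prime)
    (ha0 : ∀ f : FK K N, ((S.a0 f : FK K (N * l)) : LaurentSeries K) = f)
    (hb0 : ∀ f : FK K N, ((b0 f : FK K (N * l)) : LaurentSeries K)
      = qExpand K l (f : LaurentSeries K))
    (hal : ∀ f : FK K (N * l), ((S.al f : FK K (N * l * l)) : LaurentSeries K) = f)
    (P : ℤ[X]) (hP : P.Monic) (hP0 : IsUnit ((P.eval 0 : ℤ) : A))
    (hid : evZ ((algebraMap E (FK K N) t : FK K N) : LaurentSeries K) P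
      = qExpand K N (jqModC K) * ((algebraMap E (FK K N) t : FK K N) : LaurentSeries K)) :
    ∃ (a₀ b₀ : (Mx A (FK K N) t).toSubring) (k : ℕ) (m : (Mx A (FK K (N * l)) t).toSubring),
      CuspIn D a₀ b₀ k m := by
  refine exists_cuspIn D hl ha0 hb0 hal X P ?_ ?_ ?_ ?_
  · rw [hid, coe_eval₂RingHom, eval₂_X, mul_comm]
  · rw [Polynomial.map_X]
    apply isCoprime_X_of_isUnit
    rw [coeff_map, coeff_zero_eq_eval_zero, eq_intCast]
    exact hP0
  · rw [Polynomial.map_X]
    exact not_C_dvd_of_coeff_one D.hπ.not_isUnit _ 1 coeff_X_one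
  · refine not_C_dvd_of_coeff_one D.hπ.not_isUnit _ P.natDegree ?_
    rw [coeff_map, hP.coeff_natDegree, map_one]

include D in
/-- the chart `t = x⁻¹`, `P(x) = j(q^N) x`. -/
theorem exists_cuspIn_inv (hl : l.Prime)
    (ha0 : ∀ f : FK K N, ((S.a0 f : FK K (N * l)) : LaurentSeries K) = f)
    (hb0 : ∀ f : FK K N, ((b0 f : FK K (N * l)) : LaurentSeries K)
      = qExpand K l (f : LaurentSeries K))
    (hal : ∀ f : FK K (N * l), ((S.al f : FK K (N * l * l)) : LaurentSeries K) = f)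
    (P : ℤ[X]) (hP : P.Monic) (hdeg : 1 ≤ P.natDegree) (X0 : LaurentSeries K)
    (hX0 : ((algebraMap E (FK K N) t : FK K N) : LaurentSeries K) * X0 = 1)
    (hid : evZ X0 P = qExpand K N (jqModC K) * X0) :
    ∃ (a₀ b₀ : (Mx A (FK K N) t).toSubring) (k : ℕ) (m : (Mx A (FK K (N * l)) t).toSubring),
      CuspIn D a₀ b₀ k m := by
  refine exists_cuspIn D hl ha0 hb0 hal (X ^ (P.natDegree - 1)) P.reverse ?_ ?_ ?_ ?_
  · set tq := ((algebraMap E (FK K N) t : FK K N) : LaurentSeries K) with htq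
    let _ : Invertible X0 := ⟨tq, hX0, by rw [mul_comm]; exact hX0⟩
    have h1 : eval₂ (Int.castRingHom (LaurentSeries K)) tq P.reverse * X0 ^ P.natDegree
        = eval₂ (Int.castRingHom (LaurentSeries K)) X0 P :=
      eval₂_reverse_mul_pow (Int.castRingHom (LaurentSeries K)) X0 P
    have h2 : eval₂ (Int.castRingHom (LaurentSeries K)) X0 P = qExpand K N (jqModC K) * X0 := hid
    have e : P.natDegree = (P.natDegree - 1) + 1 := by omega
    have h3 : tq ^ P.natDegree * X0 ^ P.natDegree = 1 := by rw [← mul_pow, hX0, one_pow]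
    rw [coe_eval₂RingHom, eval₂_pow, eval₂_X]
    calc tq ^ (P.natDegree - 1) * qExpand K N (jqModC K)
        = tq ^ (P.natDegree - 1) * (tq * X0) * qExpand K N (jqModC K) := by rw [hX0, mul_one]
      _ = tq ^ ((P.natDegree - 1) + 1) * (qExpand K N (jqModC K) * X0) := by rw [pow_succ]; ring
      _ = tq ^ P.natDegree * (eval₂ (Int.castRingHom (LaurentSeries K)) tq P.reverse
            * X0 ^ P.natDegree) := by rw [← e, h1, h2]
      _ = eval₂ (Int.castRingHom (LaurentSeries K)) tq P.reverse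
            * (tq ^ P.natDegree * X0 ^ P.natDegree) := by ring
      _ = eval₂ (Int.castRingHom (LaurentSeries K)) tq P.reverse := by rw [h3, mul_one]
  · rw [Polynomial.map_pow, Polynomial.map_X]
    apply IsCoprime.pow_left
    apply isCoprime_X_of_isUnit
    rw [coeff_map, coeff_zero_reverse, hP.leadingCoeff, map_one]
    exact isUnit_one
  · rw [Polynomial.map_pow, Polynomial.map_X]
    exact not_C_dvd_of_coeff_one D.hπ.not_isUnit _ (P.natDegree - 1) (coeff_X_pow_self _)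
  · refine not_C_dvd_of_coeff_one D.hπ.not_isUnit _ 0 ?_
    rw [coeff_map, coeff_zero_reverse, hP.leadingCoeff, map_one]

end Fermat.Agent.S36.Unr
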