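import Mathlib

/-!
# S36 / Unr / CuspNode : no node at a cusp; detection of the cusps of type `∞`

The content of `Unr/NoCuspNode.lean` (helper67), restated WITHOUT `R.Tower` (the tower of a chart needs `unr1`, `unr2`, which are proved with this file).

`σ = a₀ / b₀` (`= 1 / j_N`), `a₀, b₀ ∈ M0`;  `r = (β b₀ / β a₀) * (α a₀ / α b₀) ^ l` (`= j_{N l} / j_N ^ l`).
`CuspDat l α β ρ0 ρ1 Fr a₀ b₀ k m` :  `m = (α b₀) ^ k * r ∈ M1`, and the reductions of `a₀`, `b₀` are `≠ 0` and `𝔽_l`-rational (`Fr x = x ^ l`).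
-/

set_option autoImplicit false

namespace Fermat.Agent.S36.Unr

variable {M0 M1 R : Type*} [CommRing M0] [CommRing M1] [CommRing R] [IsDomain R]

/-- see the header. -/
structure CuspDat (l : ℕ) (α β : M0 →+* M1) (ρ0 : M0 →+* R) (ρ1 : Fin 2 → M1 →+* R) (Fr : R →+* R)
    (a₀ b₀ : M0) (k : ℕ) (m : M1) : Prop where
  r0α : ∀ f, ρ1 0 (α f) = ρ0 f
  r0β : ∀ f, ρ1 0 (β f) = Fr (ρ0 f)
  r1α : ∀ f, ρ1 1 (α f) = Fr (ρ0 f)
  r1β : ∀ f, ρ1 1 (β f) = ρ0 f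
  rel : m * (β a₀ * α b₀ ^ l) = α b₀ ^ k * (β b₀ * α a₀ ^ l)
  fr_a : Fr (ρ0 a₀) = ρ0 a₀ ^ l
  fr_b : Fr (ρ0 b₀) = ρ0 b₀ ^ l
  a_ne : ρ0 a₀ ≠ 0
  b_ne : ρ0 b₀ ≠ 0

namespace CuspDat

variable {l : ℕ} {α β : M0 →+* M1} {ρ0 : M0 →+* R} {ρ1 : Fin 2 → M1 →+* R} {Fr : R →+* R}
  {a₀ b₀ : M0} {k : ℕ} {m : M1}

theorem rho_inf (h : CuspDat l α β ρ0 ρ1 Fr a₀ b₀ k m) : ρ1 0 m = ρ0 b₀ ^ k := by
  have h1 := congrArg (ρ1 0) h.rel
  simp only [map_mul, map_pow, h.r0α, h.r0β, h.fr_a, h.fr_b] at h1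
  have h2 : ρ0 a₀ ^ l * ρ0 b₀ ^ l ≠ 0 :=
    mul_ne_zero (pow_ne_zero _ h.a_ne) (pow_ne_zero _ h.b_ne)
  apply mul_right_cancel₀ h2
  linear_combination h1

theorem sub_mem_ker (h : CuspDat l α β ρ0 ρ1 Fr a₀ b₀ k m) :
    m - α b₀ ^ k ∈ RingHom.ker (ρ1 0) := by
  rw [RingHom.mem_ker, map_sub, h.rho_inf, map_pow, h.r0α, sub_self]

/-- type `∞`. -/
theorem not_mem (h : CuspDat l α β ρ0 ρ1 Fr a₀ b₀ k m) (z : Ideal M1) (hz : z.IsPrime)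
    (h0 : RingHom.ker (ρ1 0) ≤ z) (hb : α b₀ ∉ z) : m ∉ z := by
  intro hm
  have h1 := z.sub_mem hm (h0 h.sub_mem_ker)
  rw [sub_sub_cancel] at h1
  exact hb (hz.mem_of_pow_mem k h1)

theorem rho_zero (h : CuspDat l α β ρ0 ρ1 Fr a₀ b₀ k m) (hl : 2 ≤ l) :
    ρ1 1 m * ρ0 b₀ ^ (l * l) = ρ0 b₀ ^ (l * k + 1) * ρ0 a₀ ^ (l * l - 1) := by
  have h1 := congrArg (ρ1 1) h.rel
  simp only [map_mul, map_pow, h.r1α, h.r1β, h.fr_a, h.fr_b] at h1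
  apply mul_right_cancel₀ h.a_ne
  have e : l * l = (l * l - 1) + 1 := by
    have : 1 ≤ l * l := Nat.mul_pos (by omega) (by omega)
    omega
  have h2 : ρ0 a₀ ^ (l * l - 1) * ρ0 a₀ = (ρ0 a₀ ^ l) ^ l := by
    rw [← pow_succ, ← e, pow_mul]
  rw [mul_assoc (ρ0 b₀ ^ (l * k + 1)), h2, pow_succ, pow_mul, pow_mul]
  linear_combination h1

theorem alpha_sub_beta_pow_mem (h : CuspDat l α β ρ0 ρ1 Fr a₀ b₀ k m) {x : M0}
    (hx : Fr (ρ0 x) = ρ0 x ^ l) : α x - β x ^ l ∈ RingHom.ker (ρ1 1) := by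
  rw [RingHom.mem_ker, map_sub, map_pow, h.r1α, h.r1β, hx, sub_self]

/-- no node at a cusp. -/
theorem mem_of_node (h : CuspDat l α β ρ0 ρ1 Fr a₀ b₀ k m) (hl : 2 ≤ l) (z : Ideal M1)
    (hz : z.IsPrime) (h0 : RingHom.ker (ρ1 0) ≤ z) (h1 : RingHom.ker (ρ1 1) ≤ z)
    (ha : α a₀ ∈ z) : α b₀ ∈ z := by
  by_contra hb
  have hm := h.not_mem z hz h0 hb
  have hβa : β a₀ ∈ z := by
    have h2 := z.sub_mem ha (h1 (h.alpha_sub_beta_pow_mem h.fr_a))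
    rw [sub_sub_cancel] at h2
    exact hz.mem_of_pow_mem l h2
  have hβb : β b₀ ∉ z := by
    intro h2
    apply hb
    have h3 := z.add_mem (h1 (h.alpha_sub_beta_pow_mem h.fr_b))
      (z.pow_mem_of_mem h2 l (by omega))
    rwa [sub_add_cancel] at h3
  have hker : m * β b₀ ^ (l * l) - β b₀ ^ (l * k + 1) * β a₀ ^ (l * l - 1)
      ∈ RingHom.ker (ρ1 1) := by
    rw [RingHom.mem_ker, map_sub, map_mul, map_mul, map_pow, map_pow, map_pow, h.r1β, h.r1β,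
      h.rho_zero hl, sub_self]
  have hpos : 0 < l * l - 1 := by
    have : 4 ≤ l * l := Nat.mul_le_mul hl hl
    omega
  have h4 : m * β b₀ ^ (l * l) ∈ z := by
    have h5 := z.add_mem (h1 hker) (z.mul_mem_left (β b₀ ^ (l * k + 1))
      (z.pow_mem_of_mem hβa (l * l - 1) hpos))
    rwa [sub_add_cancel] at h5
  rcases hz.mem_or_mem h4 with h5 | h5
  · exact hm h5
  · exact hβb (hz.mem_of_pow_mem _ h5)

end CuspDat

end Fermat.Agent.S36.Unr
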