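import Fermat.Agent.S36.Unr.Inst
import Fermat.Agent.S36.Unr.CuspNode

/-!
# S36 / Unr / Extra : the fields `unr1`, `unr2` of `Chart.Extra` for the chart of a `QData` over `F_K(N) ⊆ F_K(N l) ⊆ F_K(N l l)`

INPUT (besides `D : QData ..` and "`S.a0`, `S.al`, `b0` are `q ↦ q`, `q ↦ q`, `q ↦ q^l` on expansions"):
`a₀, b₀ ∈ M0` with `a₀ j_N = b₀`, never both in a prime of `M0` (`hchart`), with `𝔽_l`-rational nonzero reductions, and `m ∈ M1`, `k` with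
`m * (β a₀ * α b₀ ^ l) = α b₀ ^ k * (β b₀ * α a₀ ^ l)`   (i.e. `b₀ ^ k * j_{N l} / j_N ^ l ∈ M1`).
-/

set_option autoImplicit false

open Polynomial ModularCurve

namespace Fermat.Agent.S36.Unr

open Fermat.Agent.Crux.G Fermat.Agent.Crux.G.QLink Fermat.Agent.S36.Val Fermat.Agent.S36.R
  Fermat.Agent.S36.Mod Fermat.Agent.S24

variable {l N : ℕ} [NeZero N] [NeZero l] {K : Type} [Field K] [Algebra K Kb]
    {Ω O κ Ω1 O1 ι μ : Type*} [Field Ω] [CommRing O] [Field κ] [Field Ω1] [CommRing O1] [Fintype ι]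
    [Fintype μ]
variable {A E : Type*} [CommRing A] [IsDomain A] [IsDiscreteValuationRing A] [Field E] [CharZero E]
    [Algebra A E] [Algebra E (FK K N)] [Algebra E (FK K (N * l))] [Algebra E (FK K (N * l * l))]
    [Algebra A (FK K N)] [Algebra A (FK K (N * l))] [Algebra A (FK K (N * l * l))]
    [IsScalarTower A E (FK K N)] [IsScalarTower A E (FK K (N * l))]
    [IsScalarTower A E (FK K (N * l * l))]
    [FiniteDimensional E (FK K N)] [FiniteDimensional E (FK K (N * l))]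
    [FiniteDimensional E (FK K (N * l * l))]
variable {S : Setup l K (FK K N) (FK K (N * l)) (FK K (N * l * l)) Ω O κ Ω1 O1 ι μ} {i₀ : ι}
    {b0 : FK K N →+* FK K (N * l)} {w1 : FK K (N * l) →+* FK K (N * l)}
    {w2 : FK K (N * l * l) →+* FK K (N * l * l)} {π : A} {t : E} (D : QData S i₀ b0 w1 w2 π t)

/-- the input data at the cusps. -/
structure CuspIn (D : QData S i₀ b0 w1 w2 π t) (a₀ b₀ : (Mx A (FK K N) t).toSubring) (k : ℕ)
    (m : (Mx A (FK K (N * l)) t).toSubring) : Prop where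
  ha0 : ∀ f : FK K N, ((S.a0 f : FK K (N * l)) : LaurentSeries K) = f
  hb0 : ∀ f : FK K N, ((b0 f : FK K (N * l)) : LaurentSeries K) = qExpand K l (f : LaurentSeries K)
  hal : ∀ f : FK K (N * l), ((S.al f : FK K (N * l * l)) : LaurentSeries K) = f
  hjN : (a₀ : FK K N) * jdK K N N dvd_rfl = (b₀ : FK K N)
  hchart : ∀ z : Ideal (Mx A (FK K N) t).toSubring, z.IsPrime → a₀ ∈ z → b₀ ∉ z
  rel : m * (D.chart.β a₀ * D.chart.α b₀ ^ l) = D.chart.α b₀ ^ k * (D.chart.β b₀ * D.chart.α a₀ ^ l)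
  fr_a : D.chart.Fr (D.chart.ρ0 a₀) = D.chart.ρ0 a₀ ^ l
  fr_b : D.chart.Fr (D.chart.ρ0 b₀) = D.chart.ρ0 b₀ ^ l
  a_ne : D.chart.ρ0 a₀ ≠ 0
  b_ne : D.chart.ρ0 b₀ ≠ 0

namespace CuspIn

variable {D} {a₀ b₀ : (Mx A (FK K N) t).toSubring} {k : ℕ}
    {m : (Mx A (FK K (N * l)) t).toSubring} (h : CuspIn D a₀ b₀ k m)

include h

theorem cuspDat : CuspDat l D.chart.α D.chart.β D.chart.ρ0 D.chart.ρ1 D.chart.Fr a₀ b₀ k m where
  r0α := D.chart.r1_0_α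
  r0β := D.chart.r1_0_β
  r1α := D.chart.r1_1_α
  r1β := D.chart.r1_1_β
  rel := h.rel
  fr_a := h.fr_a
  fr_b := h.fr_b
  a_ne := h.a_ne
  b_ne := h.b_ne

theorem a0_jd : S.a0 (jdK K N N dvd_rfl) = jdK K (N * l) N (Dvd.intro _ rfl) :=
  Subtype.ext (h.ha0 _)

theorem b0_jd : b0 (jdK K N N dvd_rfl) = jdK K (N * l) (l * N) (by rw [mul_comm]) := by
  apply Subtype.ext
  rw [h.hb0]
  exact qExpand_qExpand N l (jqModC K)

/-- **`Chart.Extra.unr1`.** -/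
theorem unr1 (hl : 2 ≤ l) (h49 : 4 ∣ N ∨ 9 ∣ N) :
    ∀ z : Ideal (Mx A (FK K (N * l)) t).toSubring, z.IsMaximal → (D.chart.m1 hl).Thru z 0 →
      (D.chart.m1 hl).Thru z 1 →
    ∀ 𝔮 : Ideal (Mx A (FK K N) t).toSubring, 𝔮.IsPrime → 𝔮 ≤ z.comap D.chart.α →
      D.chart.pi ∉ 𝔮 →
      ∀ y : (Mx A (FK K (N * l)) t).toSubring, y ^ 2 ∈ 𝔮.map D.chart.α →
        ∃ s, s ∉ 𝔮 ∧ D.chart.α s * y ∈ 𝔮.map D.chart.α := by
  intro z hz h0 h1 𝔮 h𝔮 hle hπ y hy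
  have hzp : z.IsPrime := hz.isPrime
  have ha : a₀ ∉ 𝔮 := by
    intro ha
    have h2 : D.chart.α a₀ ∈ z := hle ha
    have h3 : D.chart.α b₀ ∈ z := h.cuspDat.mem_of_node hl z hzp h0 h1 h2
    exact h.hchart (z.comap D.chart.α) (Ideal.comap_isPrime _ _) h2 h3
  exact unr1_of D h.ha0 h49 𝔮 h𝔮 hπ N dvd_rfl a₀ b₀ ha h.hjN y hy

/-- **`Chart.Extra.unr2`.** -/
theorem unr2 (hl : l.Prime) (hcop : Nat.Coprime N l) (h49 : 4 ∣ N ∨ 9 ∣ N) :
    ∀ z : Ideal (Mx A (FK K (N * l)) t).toSubring, z.IsMaximal →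
      (D.chart.m1 hl.two_le).Thru z 0 → ¬ (D.chart.m1 hl.two_le).Thru z 1 →
    ∀ 𝔮 : Ideal (Mx A (FK K (N * l)) t).toSubring, 𝔮.IsPrime → 𝔮 ≤ z →
      D.chart.α D.chart.pi ∉ 𝔮 →
      ∀ y : (Mx A (FK K (N * l * l)) t).toSubring, y ^ 2 ∈ 𝔮.map D.chart.p1 →
        ∃ s, s ∉ 𝔮 ∧ D.chart.p1 s * y ∈ 𝔮.map D.chart.p1 := by
  intro z hz h0 _ 𝔮 h𝔮 hle hπ y hy
  have hzp : z.IsPrime := hz.isPrime
  have hj1 : ((D.chart.α a₀ : (Mx A (FK K (N * l)) t).toSubring) : FK K (N * l))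
      * jdK K (N * l) N (Dvd.intro _ rfl) = (D.chart.α b₀ : (Mx A (FK K (N * l)) t).toSubring) := by
    rw [D.chart.coe_α, D.chart.coe_α, ← h.a0_jd, ← map_mul, h.hjN]
  by_cases ha : D.chart.α a₀ ∈ 𝔮
  · have hb : D.chart.α b₀ ∉ z := fun hb =>
      h.hchart (z.comap D.chart.α) (Ideal.comap_isPrime _ _) (hle ha) hb
    have hm : m ∉ 𝔮 := fun hm => h.cuspDat.not_mem z hzp h0 hb (hle hm)
    have hj2 : ((D.chart.β a₀ : (Mx A (FK K (N * l)) t).toSubring) : FK K (N * l))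
        * jdK K (N * l) (l * N) (by rw [mul_comm])
        = (D.chart.β b₀ : (Mx A (FK K (N * l)) t).toSubring) := by
      rw [D.chart.coe_β, D.chart.coe_β, ← h.b0_jd, ← map_mul, h.hjN]
    have ha0ne : (a₀ : FK K N) ≠ 0 := by
      intro h0'
      apply h.a_ne
      have : a₀ = 0 := Subtype.ext h0'
      rw [this, map_zero]
    have hαa : ((D.chart.α a₀ : (Mx A (FK K (N * l)) t).toSubring) : FK K (N * l)) ≠ 0 := by
      rw [D.chart.coe_α]; exact (_root_.map_ne_zero _).2 ha0ne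
    have hβa : ((D.chart.β a₀ : (Mx A (FK K (N * l)) t).toSubring) : FK K (N * l)) ≠ 0 := by
      rw [D.chart.coe_β]; exact (_root_.map_ne_zero _).2 ha0ne
    have hrel := congrArg (Subtype.val : (Mx A (FK K (N * l)) t).toSubring → FK K (N * l)) h.rel
    simp only [Subring.coe_mul, Subring.coe_pow] at hrel
    refine unr2_of_inf D hl hcop h.hal h49 𝔮 h𝔮 hπ N (by rw [mul_comm]) m (D.chart.α b₀ ^ k) hm
      ?_ y hy
    rw [Subring.coe_pow]
    apply mul_left_cancel₀ (mul_ne_zero hβa (pow_ne_zero l hαa))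
    generalize ((D.chart.α a₀ : (Mx A (FK K (N * l)) t).toSubring) : FK K (N * l)) = X at *
    generalize ((D.chart.α b₀ : (Mx A (FK K (N * l)) t).toSubring) : FK K (N * l)) = Y at *
    generalize ((D.chart.β a₀ : (Mx A (FK K (N * l)) t).toSubring) : FK K (N * l)) = U at *
    generalize ((D.chart.β b₀ : (Mx A (FK K (N * l)) t).toSubring) : FK K (N * l)) = V at *
    calc U * X ^ l * ((m : FK K (N * l)) * jdK K (N * l) N _ ^ l)
        = (m : FK K (N * l)) * (U * (X * jdK K (N * l) N _) ^ l) := by ring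
      _ = Y ^ k * (V * X ^ l) := by rw [hj1, hrel]
      _ = U * X ^ l * (Y ^ k * jdK K (N * l) (l * N) _) := by rw [← hj2]; ring
  · exact unr2_of_nc D h.hal h49 𝔮 h𝔮 hπ N (Dvd.intro _ rfl) _ _ ha hj1 y hy

end CuspIn

end Fermat.Agent.S36.Unr
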