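import Fermat.Agent.S36.Unr.Soft
import Fermat.Agent.ES.Defs

/-!
# S36 / Unr / Bridge : the soft lemma for Laurent series, and series fixed by `T ↦ ξ T`

* `soft_laurent` : `Unr.soft` for `ι : B → 𝕂((T))` with `ι(B) ⊆ 𝕂[[T]]`, `twist ξ` (`ES.twist`) instead of `rescale ξ`.
  PROOF.  Every `x : 𝕂((T))` with `0 ≤ x.order` is `HahnSeries.ofPowerSeries ℤ 𝕂 p` for a unique `p` (`exists_ofPowerSeries`:
  `p := PowerSeries.mk fun n => x.coeff n`; `HahnSeries.ofPowerSeries_apply_coeff`/`PowerSeries.coeff_coe`, coefficients of negative index vanish by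
  `HahnSeries.coeff_eq_zero_of_lt_order`).  Define `ι' : B →+* 𝕂⟦X⟧` by choice; it is a ring hom because `ofPowerSeries` is an injective ring hom
  (`HahnSeries.ofPowerSeries_injective`).  Dictionary: `(ι r).coeff n = coeff n (ι' r)` for `n : ℕ`; `constantCoeff (ι' r) = (ι r).coeff 0`;
  `(ι h).order = e` ⟹ `X^e ∣ ι' h` (`PowerSeries.X_pow_dvd_iff`) and `coeff e (ι' h) ≠ 0` (`HahnSeries.coeff_order_ne_zero`);
  `ofPowerSeries (rescale ξ p) = twist ξ (ofPowerSeries p)` (coefficientwise; `zpow_natCast`).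
* `dvd_order_of_twist_eq` : `twist ξ x = x`, `ξ` a primitive `e`-th root of unity ⟹ `e ∣ x.order`
  (`x = 0`: `order = 0`; otherwise the coefficient at `n = x.order` is `≠ 0` and `ξ^n * c = c`, so `ξ^n = 1`: `IsPrimitiveRoot.zpow_eq_one_iff_dvd`).
-/

set_option autoImplicit false

namespace Fermat.Agent.S36.Unr

open Fermat.Agent.ES

variable {𝕂 : Type*} [Field 𝕂]

/-- the power series with the coefficients of non-negative index of `x`. -/
noncomputable def Bridge_toPS (x : LaurentSeries 𝕂) : PowerSeries 𝕂 :=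
  PowerSeries.mk fun n => x.coeff n

theorem Bridge_coeff_toPS (x : LaurentSeries 𝕂) (n : ℕ) :
    PowerSeries.coeff n (Bridge_toPS x) = x.coeff n := by
  rw [Bridge_toPS, PowerSeries.coeff_mk]

theorem Bridge_ofPS_toPS (x : LaurentSeries 𝕂) (hx : 0 ≤ x.order) :
    HahnSeries.ofPowerSeries ℤ 𝕂 (Bridge_toPS x) = x := by
  ext i
  have h := PowerSeries.coeff_coe (Bridge_toPS x) i
  rw [h]
  split_ifs with hi
  · exact (HahnSeries.coeff_eq_zero_of_lt_order (lt_of_lt_of_le hi hx)).symm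
  · rw [Bridge_coeff_toPS, Int.natCast_natAbs, abs_of_nonneg (not_lt.1 hi)]

theorem exists_ofPowerSeries (x : LaurentSeries 𝕂) (hx : 0 ≤ x.order) :
    ∃ p : PowerSeries 𝕂, HahnSeries.ofPowerSeries ℤ 𝕂 p = x := by
  exact ⟨_, Bridge_ofPS_toPS x hx⟩

theorem ofPowerSeries_rescale (ξ : 𝕂ˣ) (p : PowerSeries 𝕂) :
    HahnSeries.ofPowerSeries ℤ 𝕂 (PowerSeries.rescale (ξ : 𝕂) p)
      = twist ξ (HahnSeries.ofPowerSeries ℤ 𝕂 p) := by
  ext i
  have h1 := PowerSeries.coeff_coe (PowerSeries.rescale (ξ : 𝕂) p) i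
  have h2 := PowerSeries.coeff_coe p i
  rw [twist_coeff, h1, h2]
  split_ifs with hi
  · rw [mul_zero]
  · obtain ⟨n, rfl⟩ := Int.eq_ofNat_of_zero_le (not_lt.1 hi)
    rw [PowerSeries.coeff_rescale, Int.natAbs_natCast, zpow_natCast, Units.val_pow_eq_pow_val]

theorem dvd_order_of_twist_eq (ξ : 𝕂ˣ) (e : ℕ) (hξ : IsPrimitiveRoot ξ e) (x : LaurentSeries 𝕂)
    (hx : twist ξ x = x) : (e : ℤ) ∣ x.order := by
  by_cases hx0 : x = 0
  · rw [hx0, HahnSeries.order_zero]
    exact dvd_zero _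
  · have hc : x.coeff x.order ≠ 0 := fun h => hx0 (HahnSeries.coeff_order_eq_zero.1 h)
    have h1 := congrArg (fun y : LaurentSeries 𝕂 => y.coeff x.order) hx
    simp only [twist_coeff] at h1
    have h2 : ((ξ ^ x.order : 𝕂ˣ) : 𝕂) = 1 := mul_right_cancel₀ hc (by rw [h1, one_mul])
    have h3 : ξ ^ x.order = 1 := Units.ext h2
    exact (hξ.zpow_eq_one_iff_dvd _).1 h3

/-- **Soft lemma**, Laurent series form. -/
theorem soft_laurent [CharZero 𝕂] {B : Type*} [CommRing B] (ι : B →+* LaurentSeries 𝕂)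
    (hι : ∀ r, 0 ≤ (ι r).order) (h : B) (e : ℕ) (he0 : 0 < e) (he : (ι h).order = e)
    (hker : ∀ r : B, (ι r).coeff 0 = 0 → ∃ s r' : B, (ι s).coeff 0 ≠ 0 ∧ s * r = h * r')
    (halg : ∀ r : B, IsAlgebraic ℚ ((ι r).coeff 0))
    (u : B) (hu : ι u ≠ 0) (hu0 : (ι u).coeff 0 = 0)
    (ξ : 𝕂ˣ) (hξ : ξ ^ e = 1) (huξ : twist ξ (ι u) = ι u) (r : B) :
    twist ξ (ι r) = ι r := by
  have hinj := HahnSeries.ofPowerSeries_injective (Γ := ℤ) (R := 𝕂)
  have hof : ∀ r, HahnSeries.ofPowerSeries ℤ 𝕂 (Bridge_toPS (ι r)) = ι r :=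
    fun r => Bridge_ofPS_toPS _ (hι r)
  let ι' : B →+* PowerSeries 𝕂 :=
    { toFun := fun r => Bridge_toPS (ι r)
      map_one' := hinj (by rw [hof, map_one, map_one])
      map_mul' := fun a b => hinj (by rw [hof, map_mul, map_mul, hof, hof])
      map_zero' := hinj (by rw [hof, map_zero, map_zero])
      map_add' := fun a b => hinj (by rw [hof, map_add, map_add, hof, hof]) }
  have hι' : ∀ r, ι' r = Bridge_toPS (ι r) := fun _ => rfl
  have hof' : ∀ r, HahnSeries.ofPowerSeries ℤ 𝕂 (ι' r) = ι r := hof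
  have hcoeff : ∀ r (n : ℕ), PowerSeries.coeff n (ι' r) = (ι r).coeff n :=
    fun r n => Bridge_coeff_toPS _ n
  have hconst : ∀ r, PowerSeries.constantCoeff (ι' r) = (ι r).coeff 0 := by
    intro r
    rw [← PowerSeries.coeff_zero_eq_constantCoeff_apply, hcoeff, Nat.cast_zero]
  have hh0 : ι h ≠ 0 := by
    intro h0
    rw [h0, HahnSeries.order_zero] at he
    have : (e : ℤ) = 0 := he.symm
    omega
  have key := soft ι' h e he0
    (by
      rw [PowerSeries.X_pow_dvd_iff]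
      intro m hm
      rw [hcoeff]
      exact HahnSeries.coeff_eq_zero_of_lt_order (by rw [he]; exact_mod_cast hm))
    (by
      rw [hcoeff, ← he]
      exact fun h0 => hh0 (HahnSeries.coeff_order_eq_zero.1 h0))
    (by
      intro r hr
      rw [hconst] at hr
      obtain ⟨s, r', hs, hsr⟩ := hker r hr
      exact ⟨s, r', by rw [hconst]; exact hs, hsr⟩)
    (by
      intro r
      rw [hconst]
      exact halg r)
    u
    (by
      intro h0
      apply hu
      rw [← hof' u, h0, map_zero])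
    (by rw [hconst]; exact hu0)
    (ξ : 𝕂)
    (by rw [← Units.val_pow_eq_pow_val, hξ, Units.val_one])
    (hinj (by rw [ofPowerSeries_rescale, hof', huξ]))
    r
  rw [← hof' r, ← ofPowerSeries_rescale, key]

end Fermat.Agent.S36.Unr
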