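import Fermat.Agent.Crux.G.Emb

/-!
# S36 / Unr / Center : one embedding of a package is centred at a given discrete valuation ring

SETTING.  `E0 ⊆ F1 ⊆ F2` fields of characteristic `0`, `[F2 : E0] < ∞`.  A PACKAGE: `σ a : F2 → 𝕂((T))`, `a ∈ X`, pairwise distinct,
`#X = [F2 : E0]`, all equal to `ι0` on `E0`.  `B` a discrete valuation ring with fraction field `F1`, compatible with `ι0`:
(`hcmp`) an element of `E0` which lies in the maximal ideal of `B` has positive order under `ι0`.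

`exists_centered` : there is `a` with `σ a (B) ⊆ 𝕂[[T]]`, `σ a (𝔪_B) ⊆ T 𝕂[[T]]`.

## PROOF
(0) `e ∈ E0`, `0 ≤ ord (ι0 e)`  ⟹  `e ∈ B`.  [`B` is a valuation ring of `F1` (`IsDiscreteValuationRing` ⟹ `ValuationRing`;
    `ValuationRing.isInteger_or_isInteger B (x : F1)`): if `e ∉ B` then `e ≠ 0`, `e⁻¹ = b ∈ B`, `b` is not a unit (else `e ∈ B`), so `b ∈ 𝔪_B`,
    `b ≠ 0`; `hcmp e⁻¹ b` gives `0 < ord (ι0 e⁻¹) = - ord (ι0 e)`: contradiction.]
(1) for `Y ∈ 𝔪_B`, `Y ≠ 0` there is `a` with `0 < ord (σ a Y)`.  [Otherwise `u := (Y : F2)⁻¹` has `0 ≤ ord (σ a u)` for all `a`;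
    `G.Emb.coeff_order_nonneg ι0 hcard σ hσ hι0 u _ i` : the coefficients of `minpoly E0 u` have order `≥ 0`, so they lie in `B` by (0); so `minpoly E0 u`
    is the image of a monic polynomial of `B[X]` (`Polynomial.lifts_and_natDegree_eq_and_monic`), `u` is integral over `B`; `u` is the image of
    `(Y : F1)⁻¹`, which is therefore integral over `B` (`isIntegral_algebraMap_iff (algebraMap F1 F2).injective`), so it lies in `B`
    (`IsIntegrallyClosed.isIntegral_iff`): `Y` is a unit.  Contradiction.]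
(2) `p a := {Y ∈ 𝔪_B | Y = 0 ∨ 0 < ord (σ a Y)}` are additive subgroups (`ℤ`-submodules) of `𝔪_B` which cover it:
    `Submodule.exists_finiteIndex_of_cover` (Mathlib `GroupTheory/CosetCover.lean`) gives `a` such that `p a` has finite index `n ≠ 0`; then `n • Y ∈ p a` for all
    `Y ∈ 𝔪_B` (`AddSubgroup.nsmul_index_mem`), and `σ a (n • Y) = (n : 𝕂((T))) * σ a Y` has the same order as `σ a Y` (`(n : 𝕂((T))) = C n`, `n ≠ 0` in `𝕂`,
    `HahnSeries.order_mul`, `HahnSeries.order_C`).  So `σ a` is positive on `𝔪_B ∖ 0`.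
(3) for `b : B`, `g` a uniformiser: `b ^ n * g ∈ 𝔪_B` for all `n`, so `0 < n * ord (σ a b) + ord (σ a g)` for all `n`: `0 ≤ ord (σ a b)`.
-/

set_option autoImplicit false

open Polynomial IsLocalRing

namespace Fermat.Agent.S36.Unr

open Fermat.Agent.Crux.G

variable {𝕂 : Type*} [Field 𝕂] [CharZero 𝕂]
variable {E0 F1 F2 : Type*} [Field E0] [Field F1] [Field F2] [CharZero E0]
  [Algebra E0 F1] [Algebra F1 F2] [Algebra E0 F2] [IsScalarTower E0 F1 F2] [FiniteDimensional E0 F2]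
variable {B : Type*} [CommRing B] [IsDomain B] [IsDiscreteValuationRing B] [Algebra B F1]
  [IsFractionRing B F1] [Algebra B F2] [IsScalarTower B F1 F2]
variable {X : Type*} [Fintype X]

omit [CharZero 𝕂] [Field F2] [CharZero E0] [Algebra F1 F2] [Algebra E0 F2] [IsScalarTower E0 F1 F2]
  [FiniteDimensional E0 F2] [Algebra B F2] [IsScalarTower B F1 F2] in
/-- (0) -/
theorem mem_of_order_nonneg (ι0 : E0 →+* LaurentSeries 𝕂)
    (hcmp : ∀ (e : E0) (b : B), algebraMap B F1 b = algebraMap E0 F1 e → b ∈ maximalIdeal B →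
      b ≠ 0 → 0 < (ι0 e).order)
    (e : E0) (he : 0 ≤ (ι0 e).order) : ∃ b : B, algebraMap B F1 b = algebraMap E0 F1 e := by
  rcases ValuationRing.isInteger_or_isInteger B (algebraMap E0 F1 e) with ⟨b, hb⟩ | ⟨b, hb⟩
  · exact ⟨b, hb⟩
  · by_cases he0 : e = 0
    · exact ⟨0, by rw [he0, map_zero, map_zero]⟩
    have he1 : algebraMap E0 F1 e ≠ 0 := by
      rw [Ne, map_eq_zero]
      exact he0
    by_cases hu : IsUnit b
    · obtain ⟨u, rfl⟩ := hu
      refine ⟨((u⁻¹ : Bˣ) : B), ?_⟩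
      have h1 : algebraMap B F1 (u : B) * algebraMap B F1 ((u⁻¹ : Bˣ) : B) = 1 := by
        rw [← map_mul, Units.mul_inv, map_one]
      rw [hb] at h1
      have h2 := eq_inv_of_mul_eq_one_right h1
      rwa [inv_inv] at h2
    · exfalso
      have hbm : b ∈ maximalIdeal B := (mem_maximalIdeal b).2 hu
      have hb0 : b ≠ 0 := by
        rintro rfl
        rw [map_zero] at hb
        exact inv_ne_zero he1 hb.symm
      have h1 := hcmp e⁻¹ b (by rw [hb, map_inv₀]) hbm hb0
      have hx0 : ι0 e ≠ 0 := by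
        rw [Ne, map_eq_zero]
        exact he0
      have h2 := HahnSeries.order_mul hx0 (inv_ne_zero hx0)
      rw [mul_inv_cancel₀ hx0, HahnSeries.order_one] at h2
      rw [map_inv₀] at h1
      omega

omit [CharZero 𝕂] in
/-- (1) -/
theorem exists_pos_of_mem (σ : X → F2 →+* LaurentSeries 𝕂) (hσ : Function.Injective σ)
    (hcard : Fintype.card X = Module.finrank E0 F2)
    (ι0 : E0 →+* LaurentSeries 𝕂) (hι0 : ∀ a e, σ a (algebraMap E0 F2 e) = ι0 e)
    (hcmp : ∀ (e : E0) (b : B), algebraMap B F1 b = algebraMap E0 F1 e → b ∈ maximalIdeal B →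
      b ≠ 0 → 0 < (ι0 e).order)
    (Y : B) (hY : Y ∈ maximalIdeal B) (hY0 : Y ≠ 0) :
    ∃ a, 0 < (σ a (algebraMap B F2 Y)).order := by
  by_contra hcon
  push Not at hcon
  have hinjB : Function.Injective (algebraMap B F1) := IsFractionRing.injective B F1
  have hY1 : algebraMap B F1 Y ≠ 0 := by
    rw [Ne, map_eq_zero_iff _ hinjB]
    exact hY0
  have hY2 : algebraMap B F2 Y ≠ 0 := by
    rw [IsScalarTower.algebraMap_apply B F1 F2, Ne, map_eq_zero]
    exact hY1
  set u : F2 := (algebraMap B F2 Y)⁻¹ with hu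
  set u1 : F1 := (algebraMap B F1 Y)⁻¹ with hu1
  have huu : algebraMap F1 F2 u1 = u := by
    rw [hu, hu1, map_inv₀, ← IsScalarTower.algebraMap_apply B F1 F2]
  have hord : ∀ a, 0 ≤ (σ a u).order := by
    intro a
    have hx0 : σ a (algebraMap B F2 Y) ≠ 0 := by
      rw [Ne, map_eq_zero]
      exact hY2
    have h2 := HahnSeries.order_mul hx0 (inv_ne_zero hx0)
    rw [mul_inv_cancel₀ hx0, HahnSeries.order_one] at h2
    have h3 := hcon a
    rw [hu, map_inv₀]
    omega
  have hcoeff : ∀ i, ∃ b : B, algebraMap B F1 b = algebraMap E0 F1 ((minpoly E0 u).coeff i) :=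
    fun i => mem_of_order_nonneg ι0 hcmp _ (Emb.coeff_order_nonneg ι0 hcard σ hσ hι0 u hord i)
  have hint : IsIntegral E0 u := Algebra.IsIntegral.isIntegral u
  have hlift : (minpoly E0 u).map (algebraMap E0 F1) ∈ Polynomial.lifts (algebraMap B F1) := by
    rw [Polynomial.lifts_iff_coeff_lifts]
    intro i
    rw [Polynomial.coeff_map]
    obtain ⟨b, hb⟩ := hcoeff i
    exact ⟨b, hb⟩
  obtain ⟨q, hq, -, hqm⟩ := Polynomial.lifts_and_natDegree_eq_and_monic hlift
    ((minpoly.monic hint).map _)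
  have hu1int : IsIntegral B u1 := by
    refine ⟨q, hqm, ?_⟩
    apply (algebraMap F1 F2).injective
    rw [map_zero, ← Polynomial.eval_map, hq, ← Polynomial.eval₂_at_apply, huu,
      Polynomial.eval₂_map, ← IsScalarTower.algebraMap_eq]
    exact minpoly.aeval E0 u
  obtain ⟨b, hb⟩ := IsIntegrallyClosed.isIntegral_iff.mp hu1int
  have h1 : b * Y = 1 := by
    apply hinjB
    rw [map_mul, hb, hu1, inv_mul_cancel₀ hY1, map_one]
  exact (mem_maximalIdeal Y).1 hY (IsUnit.of_mul_eq_one b (by rw [mul_comm]; exact h1))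

/-- the additive group of the Laurent series of positive order. -/
def CenterB_pos (𝕂 : Type*) [Field 𝕂] : AddSubgroup (LaurentSeries 𝕂) where
  carrier := {x | x = 0 ∨ 0 < x.order}
  zero_mem' := Or.inl rfl
  add_mem' := by
    rintro x y (rfl | hx) (rfl | hy)
    · left; simp
    · right; simpa using hy
    · right; simpa using hx
    · by_cases h : x + y = 0
      · exact Or.inl h
      · exact Or.inr (lt_of_lt_of_le (lt_min hx hy) (HahnSeries.min_order_le_order_add h))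
  neg_mem' := by
    rintro x (rfl | hx)
    · left; simp
    · right; rwa [HahnSeries.order_neg]

open Pointwise in
/-- (2) -/
theorem exists_pos_on_maximalIdeal (σ : X → F2 →+* LaurentSeries 𝕂)
    (h1 : ∀ Y : B, Y ∈ maximalIdeal B → Y ≠ 0 → ∃ a, 0 < (σ a (algebraMap B F2 Y)).order) :
    ∃ a, ∀ Y : B, Y ∈ maximalIdeal B → Y ≠ 0 → 0 < (σ a (algebraMap B F2 Y)).order := by
  let φ : X → (maximalIdeal B) →+ LaurentSeries 𝕂 := fun a =>
    ((σ a).comp (algebraMap B F2)).toAddMonoidHom.comp (maximalIdeal B).subtype.toAddMonoidHom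
  have hφ : ∀ a (Y : maximalIdeal B), φ a Y = σ a (algebraMap B F2 (Y : B)) := fun _ _ => rfl
  let H : X → AddSubgroup (maximalIdeal B) := fun a => (CenterB_pos 𝕂).comap (φ a)
  have hcov : ⋃ a ∈ (Finset.univ : Finset X), (0 : maximalIdeal B) +ᵥ (H a : Set (maximalIdeal B))
      = Set.univ := by
    rw [Set.eq_univ_iff_forall]
    intro Y
    simp only [zero_vadd, Finset.mem_univ, Set.iUnion_true, Set.mem_iUnion]
    by_cases hY : (Y : B) = 0
    · have hne : Nonempty X := by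
        obtain ⟨g, hg⟩ := IsDiscreteValuationRing.exists_irreducible B
        obtain ⟨a, -⟩ := h1 g ((IsLocalRing.mem_maximalIdeal g).2 hg.not_isUnit) hg.ne_zero
        exact ⟨a⟩
      refine ⟨Classical.arbitrary X, Or.inl ?_⟩
      rw [hφ, hY, map_zero, map_zero]
    · obtain ⟨a, ha⟩ := h1 Y Y.2 hY
      exact ⟨a, Or.inr ha⟩
  obtain ⟨a, -, ha⟩ := AddSubgroup.exists_finiteIndex_of_leftCoset_cover hcov
  refine ⟨a, fun Y hY hY0 => ?_⟩
  have hn : (H a).index ≠ 0 := ha.index_ne_zero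
  have hmem : (H a).index • (⟨Y, hY⟩ : maximalIdeal B) ∈ H a := (H a).nsmul_index_mem _
  have hx0 : σ a (algebraMap B F2 Y) ≠ 0 := by
    rw [Ne, map_eq_zero_iff _ (σ a).injective]
    intro h0
    obtain ⟨a', ha'⟩ := h1 Y hY hY0
    rw [h0, map_zero, HahnSeries.order_zero] at ha'
    exact lt_irrefl _ ha'
  have hC : (((H a).index : ℕ) : LaurentSeries 𝕂) = HahnSeries.C (((H a).index : ℕ) : 𝕂) := by
    rw [map_natCast]
  have hC0 : (HahnSeries.C (((H a).index : ℕ) : 𝕂) : LaurentSeries 𝕂) ≠ 0 := by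
    rw [Ne, map_eq_zero_iff _ HahnSeries.C_injective]
    exact_mod_cast hn
  have hval : φ a ((H a).index • (⟨Y, hY⟩ : maximalIdeal B))
      = HahnSeries.C (((H a).index : ℕ) : 𝕂) * σ a (algebraMap B F2 Y) := by
    rw [map_nsmul, hφ, nsmul_eq_mul, hC]
  rcases hmem with h0 | hpos
  · rw [hval] at h0
    exact absurd h0 (mul_ne_zero hC0 hx0)
  · rw [hval, HahnSeries.order_mul hC0 hx0, HahnSeries.order_C, zero_add] at hpos
    exact hpos

omit [CharZero 𝕂] [IsFractionRing B F1] [IsScalarTower B F1 F2] in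
/-- (3) -/
theorem order_nonneg_of_pos_on_maximalIdeal (τ : F2 →+* LaurentSeries 𝕂)
    (h : ∀ Y : B, Y ∈ maximalIdeal B → Y ≠ 0 → 0 < (τ (algebraMap B F2 Y)).order) (b : B) :
    0 ≤ (τ (algebraMap B F2 b)).order := by
  by_cases hx : τ (algebraMap B F2 b) = 0
  · rw [hx, HahnSeries.order_zero]
  have hb0 : b ≠ 0 := by
    rintro rfl
    simp at hx
  obtain ⟨g, hg⟩ := IsDiscreteValuationRing.exists_irreducible B
  have hgm : g ∈ maximalIdeal B := (IsLocalRing.mem_maximalIdeal g).2 hg.not_isUnit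
  have hg1 := h g hgm hg.ne_zero
  have hgx : τ (algebraMap B F2 g) ≠ 0 := by
    intro h0
    rw [h0, HahnSeries.order_zero] at hg1
    exact lt_irrefl _ hg1
  by_contra hneg
  rw [not_le] at hneg
  have h2 := h (b ^ (τ (algebraMap B F2 g)).order.toNat * g) (Ideal.mul_mem_left _ _ hgm)
    (mul_ne_zero (pow_ne_zero _ hb0) hg.ne_zero)
  rw [map_mul, map_mul, map_pow, map_pow, HahnSeries.order_mul (pow_ne_zero _ hx) hgx,
    HahnSeries.order_pow] at h2
  have h3 : ((τ (algebraMap B F2 g)).order.toNat : ℤ) = (τ (algebraMap B F2 g)).order :=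
    Int.toNat_of_nonneg hg1.le
  rw [nsmul_eq_mul, h3] at h2
  nlinarith

/-- **Centering.** -/
theorem exists_centered (σ : X → F2 →+* LaurentSeries 𝕂) (hσ : Function.Injective σ)
    (hcard : Fintype.card X = Module.finrank E0 F2)
    (ι0 : E0 →+* LaurentSeries 𝕂) (hι0 : ∀ a e, σ a (algebraMap E0 F2 e) = ι0 e)
    (hcmp : ∀ (e : E0) (b : B), algebraMap B F1 b = algebraMap E0 F1 e → b ∈ maximalIdeal B →
      b ≠ 0 → 0 < (ι0 e).order) :
    ∃ a, (∀ b : B, 0 ≤ (σ a (algebraMap B F2 b)).order) ∧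
      ∀ Y : B, Y ∈ maximalIdeal B → Y ≠ 0 → 0 < (σ a (algebraMap B F2 Y)).order := by
  obtain ⟨a, ha⟩ := exists_pos_on_maximalIdeal σ
    (fun Y hY hY0 => exists_pos_of_mem (F1 := F1) σ hσ hcard ι0 hι0 hcmp Y hY hY0)
  exact ⟨a, order_nonneg_of_pos_on_maximalIdeal (σ a) ha, ha⟩

end Fermat.Agent.S36.Unr
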