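import Mathlib

/-!
# S36 / Unr / Conv : from the DVR form of (Unr) to the ideal form of `Tower.unr1`, `Tower.unr2`     (Mathlib only; helper67)

`φ : M → M'` integral, `M'` integrally closed in `F' = Frac M'`, `𝔮` a prime of `M` with `B = M_𝔮` a DVR.

* `unr_of_dvr`  : [`y² = g w`, `y, w ∈ F'` integral over `B`, `g` a uniformiser  ⟹  `y / g` integral over `B`]
                  ⟹  [`y ∈ M'`, `y² ∈ 𝔮 M'`  ⟹  `s y ∈ 𝔮 M'` for some `s ∉ 𝔮`];
* `unr_of_core` : the same with `B := Localization.AtPrime 𝔮`, all the algebra structures being constructed here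
                  (the hypothesis `core` is stated for ARBITRARY compatible structures, so that `Unr.core_nonCusp` etc. apply verbatim);
* `exists_algebraMap_eq_of_mul_eq` : `x s = a`, `s ∉ 𝔮` ⟹ `x` comes from `B`.
-/

set_option autoImplicit false

namespace Fermat.Agent.S36.Unr

open IsLocalRing

theorem unr_of_dvr {M M' F' B : Type*} [CommRing M] [CommRing M'] [IsDomain M'] [Field F']
    [Algebra M' F'] [IsFractionRing M' F'] [IsIntegrallyClosed M']
    (φ : M →+* M') (hφ : φ.IsIntegral) (𝔮 : Ideal M) [𝔮.IsPrime]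
    [CommRing B] [IsDomain B] [IsDiscreteValuationRing B] [Algebra M B]
    [IsLocalization.AtPrime B 𝔮] [Algebra B F']
    (hB : ∀ f : M, algebraMap B F' (algebraMap M B f) = algebraMap M' F' (φ f))
    (core : ∀ g : B, Irreducible g → ∀ y w : F', IsIntegral B y → IsIntegral B w →
      y ^ 2 = g • w → ∃ y' : F', IsIntegral B y' ∧ y = g • y')
    (y : M') (hy : y ^ 2 ∈ 𝔮.map φ) : ∃ s, s ∉ 𝔮 ∧ φ s * y ∈ 𝔮.map φ := by
  classical
  obtain ⟨g, hg⟩ := IsDiscreteValuationRing.exists_irreducible B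
  have hmax : maximalIdeal B = Ideal.span {g} := hg.maximalIdeal_eq
  let _ : Algebra M F' := ((algebraMap B F').comp (algebraMap M B)).toAlgebra
  have hT1 : IsScalarTower M B F' := IsScalarTower.of_algebraMap_eq' rfl
  let _ : Algebra M M' := φ.toAlgebra
  have hT2 : IsScalarTower M M' F' := IsScalarTower.of_algebraMap_eq fun x => hB x
  -- elements of `M'` are integral over `B`
  have hint : ∀ m : M', IsIntegral B (algebraMap M' F' m) := by
    intro m
    have h1 : IsIntegral M m := hφ m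
    have h2 : IsIntegral M (algebraMap M' F' m) := h1.algebraMap
    exact h2.tower_top
  -- elements of `𝔮 M'` are divisible by `g`
  have hdiv : ∀ x ∈ 𝔮.map φ, ∃ w : F', IsIntegral B w ∧ algebraMap M' F' x = g • w := by
    intro x hx
    refine Submodule.span_induction (p := fun x _ => ∃ w : F', IsIntegral B w ∧
      algebraMap M' F' x = g • w) ?_ ?_ ?_ ?_ hx
    · rintro _ ⟨q, hq, rfl⟩
      have h1 : algebraMap M B q ∈ maximalIdeal B :=
        (IsLocalization.AtPrime.to_map_mem_maximal_iff B 𝔮 q).mpr hq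
      rw [hmax, Ideal.mem_span_singleton] at h1
      obtain ⟨b, hb⟩ := h1
      refine ⟨algebraMap B F' b, isIntegral_algebraMap, ?_⟩
      rw [← hB, hb, map_mul, Algebra.smul_def]
    · exact ⟨0, isIntegral_zero, by simp⟩
    · rintro a b _ _ ⟨w, hw, e⟩ ⟨w', hw', e'⟩
      exact ⟨w + w', hw.add hw', by rw [map_add, e, e', smul_add]⟩
    · rintro m a _ ⟨w, hw, e⟩
      refine ⟨algebraMap M' F' m * w, (hint m).mul hw, ?_⟩
      rw [smul_eq_mul, map_mul, e, mul_smul_comm]
  obtain ⟨w, hw, hyw⟩ := hdiv _ hy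
  rw [map_pow] at hyw
  obtain ⟨y', hy', hyy'⟩ := core g hg _ w (hint y) hw hyw
  -- clear the denominator of `y'`
  obtain ⟨⟨s, hs⟩, hsy⟩ := IsIntegral.exists_multiple_integral_of_isLocalization 𝔮.primeCompl y' hy'
  have hsy' : IsIntegral M' (algebraMap M' F' (φ s) * y') := by
    have h1 : IsIntegral M' ((⟨s, hs⟩ : 𝔮.primeCompl) • y') := hsy.tower_top
    have h2 : ((⟨s, hs⟩ : 𝔮.primeCompl) • y') = algebraMap M' F' (φ s) * y' := by
      rw [Submonoid.smul_def, Algebra.smul_def]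
      exact congrArg (· * y') (hB s)
    rwa [h2] at h1
  obtain ⟨m', hm'⟩ := IsIntegrallyClosed.isIntegral_iff.mp hsy'
  -- write `g = g₀ / s₀`
  obtain ⟨⟨g₀, ⟨s₀, hs₀⟩⟩, hg₀⟩ := IsLocalization.surj 𝔮.primeCompl g
  have hg₀' : g * algebraMap M B s₀ = algebraMap M B g₀ := hg₀
  have hg₀q : g₀ ∈ 𝔮 := by
    rw [← IsLocalization.AtPrime.to_map_mem_maximal_iff B 𝔮 g₀, ← hg₀', hmax]
    exact Ideal.mul_mem_right _ _ (Ideal.mem_span_singleton_self g)
  refine ⟨s₀ * s, fun h => ((‹𝔮.IsPrime›).mem_or_mem h).elim hs₀ hs, ?_⟩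
  have key : φ (s₀ * s) * y = φ g₀ * m' := by
    apply IsFractionRing.injective M' F'
    rw [map_mul, map_mul, map_mul, map_mul, hm', hyy', ← hB g₀, ← hg₀', map_mul, hB s₀,
      Algebra.smul_def]
    ring
  rw [key]
  exact Ideal.mul_mem_right _ _ (Ideal.mem_map_of_mem φ hg₀q)

theorem exists_algebraMap_eq_of_mul_eq {M F B : Type*} [CommRing M] [Field F] [Algebra M F]
    (𝔮 : Ideal M) [𝔮.IsPrime] [CommRing B] [Algebra M B] [IsLocalization.AtPrime B 𝔮] [Algebra B F]
    (hB : ∀ f : M, algebraMap B F (algebraMap M B f) = algebraMap M F f)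
    (x : F) (a s : M) (hs : s ∉ 𝔮) (hs0 : algebraMap M F s ≠ 0)
    (h : x * algebraMap M F s = algebraMap M F a) : ∃ b : B, algebraMap B F b = x := by
  refine ⟨IsLocalization.mk' B a (⟨s, hs⟩ : 𝔮.primeCompl), ?_⟩
  apply mul_right_cancel₀ hs0
  rw [h, ← hB s, ← map_mul, ← hB a]
  congr 1
  exact IsLocalization.mk'_spec B a (⟨s, hs⟩ : 𝔮.primeCompl)

theorem unr_of_core {M M' F F' : Type*} [CommRing M] [IsDomain M] [CommRing M'] [IsDomain M']
    [Field F] [Field F'] [Algebra M F] [IsFractionRing M F] [Algebra M' F'] [IsFractionRing M' F']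
    [IsIntegrallyClosed M'] [Algebra F F']
    (φ : M →+* M') (hφ : φ.IsIntegral)
    (hφF : ∀ f, algebraMap F F' (algebraMap M F f) = algebraMap M' F' (φ f))
    (𝔮 : Ideal M) [𝔮.IsPrime] [IsDiscreteValuationRing (Localization.AtPrime 𝔮)]
    (core : ∀ [Algebra (Localization.AtPrime 𝔮) F] [IsFractionRing (Localization.AtPrime 𝔮) F]
      [Algebra (Localization.AtPrime 𝔮) F'] [IsScalarTower (Localization.AtPrime 𝔮) F F'],
      (∀ f : M, algebraMap (Localization.AtPrime 𝔮) F (algebraMap M (Localization.AtPrime 𝔮) f) =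
        algebraMap M F f) →
      ∀ g : Localization.AtPrime 𝔮, Irreducible g → ∀ y w : F',
        IsIntegral (Localization.AtPrime 𝔮) y → IsIntegral (Localization.AtPrime 𝔮) w →
        y ^ 2 = g • w → ∃ y' : F', IsIntegral (Localization.AtPrime 𝔮) y' ∧ y = g • y')
    (y : M') (hy : y ^ 2 ∈ 𝔮.map φ) : ∃ s, s ∉ 𝔮 ∧ φ s * y ∈ 𝔮.map φ := by
  have hle : 𝔮.primeCompl ≤ nonZeroDivisors M := 𝔮.primeCompl_le_nonZeroDivisors
  let i1 : Algebra (Localization.AtPrime 𝔮) F :=
    (IsLocalization.map F (T := nonZeroDivisors M) (RingHom.id M) hle).toAlgebra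
  have hT2 : IsScalarTower M (Localization.AtPrime 𝔮) F :=
    IsLocalization.localization_isScalarTower_of_submonoid_le _ _ _ _ hle
  have hF1 : IsFractionRing (Localization.AtPrime 𝔮) F :=
    IsFractionRing.isFractionRing_of_isDomain_of_isLocalization 𝔮.primeCompl _ _
  let i2 : Algebra (Localization.AtPrime 𝔮) F' :=
    ((algebraMap F F').comp (algebraMap (Localization.AtPrime 𝔮) F)).toAlgebra
  have hT4 : IsScalarTower (Localization.AtPrime 𝔮) F F' := IsScalarTower.of_algebraMap_eq' rfl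
  have hc : ∀ f : M, algebraMap (Localization.AtPrime 𝔮) F
      (algebraMap M (Localization.AtPrime 𝔮) f) = algebraMap M F f := fun f =>
    (IsScalarTower.algebraMap_apply M (Localization.AtPrime 𝔮) F f).symm
  refine unr_of_dvr (B := Localization.AtPrime 𝔮) φ hφ 𝔮 (fun f => ?_) (core hc) y hy
  rw [IsScalarTower.algebraMap_apply (Localization.AtPrime 𝔮) F F', hc, hφF]

end Fermat.Agent.S36.Unr
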