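import Mathlib

/-!
# S36 / Unr / Fibre : the fibres of the restriction map of a package  (Mathlib only)

`E0 ⊆ F1 ⊆ F2` fields, `[F2 : E0] < ∞`, `Ω` a field.  `σ a : F2 → Ω`, `a ∈ X`, pairwise distinct, `#X = [F2 : E0]`, all equal to `ι0` on `E0`.
Then every `σ a₀ |_{F1}` has exactly `[F2 : F1]` extensions among the `σ b`.

## PROOF
Make `Ω` an `E0`-algebra by `ι0` (`ι0.toAlgebra`, local).  `res : X → (F1 →ₐ[E0] Ω)`, `a ↦ σ a ∘ algebraMap F1 F2`.
* `Nat.card (F1 →ₐ[E0] Ω) ≤ [F1 : E0]` (`card_algHom_le_finrank`), and this type is finite (`[F1:E0] < ∞`: `FiniteDimensional.left E0 F1 F2`;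
  Mathlib has the `Finite`/`Fintype (F1 →ₐ[E0] Ω)` instance `minpoly.AlgHom.fintype`).
* for `φ : F1 →ₐ[E0] Ω`, the fibre `{b | res b = φ}` injects into `F2 →ₐ[F1] Ω` (`Ω` an `F1`-algebra by `φ`), so it has at most `[F2 : F1]` elements.
* `#X = ∑_φ #(fibre φ)` (`Finset.card_eq_sum_card_fiberwise` / `Fintype.card_sigma`‑type argument).  If the fibre of `φ₀ = res a₀` had `< [F2:F1]` elements then
  `#X < #(F1 →ₐ[E0] Ω) * [F2:F1] ≤ [F1:E0] [F2:F1] = [F2:E0]` (`Module.finrank_mul_finrank`; `Finset.sum_lt_sum`).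
-/

set_option autoImplicit false

namespace Fermat.Agent.S36.Unr

variable {E0 F1 F2 Ω : Type*} [Field E0] [Field F1] [Field F2] [Field Ω]
  [Algebra E0 F1] [Algebra F1 F2] [Algebra E0 F2] [IsScalarTower E0 F1 F2] [FiniteDimensional E0 F2]
variable {X : Type*} [Fintype X]

/-- at most `[F2 : F1]` extensions of a given embedding of `F1`. -/
theorem card_extensions_le [FiniteDimensional F1 F2] {Y : Type*} [Fintype Y] (τ : Y → F2 →+* Ω) (hτ : Function.Injective τ)
    (φ : F1 →+* Ω) (h : ∀ b y, τ b (algebraMap F1 F2 y) = φ y) :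
    Fintype.card Y ≤ Module.finrank F1 F2 := by
  letI : Algebra F1 Ω := φ.toAlgebra
  let f : Y → (F2 →ₐ[F1] Ω) := fun b => { τ b with commutes' := h b }
  have hf : Function.Injective f := by
    intro b b' hbb
    apply hτ
    ext x
    exact DFunLike.congr_fun hbb x
  have : Finite (F2 →ₐ[F1] Ω) := inferInstance
  calc Fintype.card Y = Nat.card Y := Nat.card_eq_fintype_card.symm
    _ ≤ Nat.card (F2 →ₐ[F1] Ω) := Nat.card_le_card_of_injective f hf
    _ ≤ Module.finrank F1 F2 := card_algHom_le_finrank F1 F2 Ω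

/-- **Fibres.** -/
theorem card_fibre (σ : X → F2 →+* Ω) (hσ : Function.Injective σ)
    (hcard : Fintype.card X = Module.finrank E0 F2)
    (ι0 : E0 →+* Ω) (hι0 : ∀ a e, σ a (algebraMap E0 F2 e) = ι0 e) (a₀ : X) :
    Nat.card {b : X // ∀ y : F1, σ b (algebraMap F1 F2 y) = σ a₀ (algebraMap F1 F2 y)}
      = Module.finrank F1 F2 := by
  classical
  have hfd1 : FiniteDimensional E0 F1 := FiniteDimensional.left E0 F1 F2
  have hfd2 : FiniteDimensional F1 F2 := FiniteDimensional.right E0 F1 F2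
  let res : X → (F1 →+* Ω) := fun a => (σ a).comp (algebraMap F1 F2)
  let T : Finset (F1 →+* Ω) := Finset.univ.image res
  have hT : T.card ≤ Module.finrank E0 F1 := by
    have h1 := card_extensions_le (F1 := E0) (F2 := F1) (Y := T) (fun t => t.1)
      Subtype.val_injective ι0 (by
        rintro ⟨t, ht⟩ e
        obtain ⟨a, -, rfl⟩ := Finset.mem_image.mp ht
        show σ a (algebraMap F1 F2 (algebraMap E0 F1 e)) = ι0 e
        rw [← IsScalarTower.algebraMap_apply, hι0])
    rwa [Fintype.card_coe] at h1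
  have hfib : ∀ t, (Finset.univ.filter (fun b => res b = t)).card ≤ Module.finrank F1 F2 := by
    intro t
    have h1 := card_extensions_le (Y := {b // b ∈ Finset.univ.filter (fun b => res b = t)})
      (fun b => σ b.1) (fun b b' hbb => Subtype.ext (hσ hbb)) t (by
        intro b y
        exact DFunLike.congr_fun (Finset.mem_filter.mp b.2).2 y)
    rwa [Fintype.card_coe] at h1
  have hsum : Fintype.card X = ∑ t ∈ T, (Finset.univ.filter (fun b => res b = t)).card :=
    Finset.card_eq_sum_card_fiberwise (f := res) (s := Finset.univ) (t := T)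
      (fun a _ => Finset.mem_coe.mpr (Finset.mem_image_of_mem res (Finset.mem_univ a)))
  have htarget : Nat.card {b : X // ∀ y : F1, σ b (algebraMap F1 F2 y) = σ a₀ (algebraMap F1 F2 y)}
      = (Finset.univ.filter (fun b => res b = res a₀)).card := by
    rw [Nat.card_eq_fintype_card, Fintype.card_subtype]
    congr 1
    ext b
    simp only [Finset.mem_filter, Finset.mem_univ, true_and]
    exact ⟨fun h => RingHom.ext h, fun h y => DFunLike.congr_fun h y⟩
  rw [htarget]
  refine le_antisymm (hfib _) ?_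
  by_contra hlt
  rw [not_le] at hlt
  have h1 : ∑ t ∈ T, (Finset.univ.filter (fun b => res b = t)).card
      < ∑ _t ∈ T, Module.finrank F1 F2 :=
    Finset.sum_lt_sum (fun t _ => hfib t)
      ⟨res a₀, Finset.mem_image_of_mem res (Finset.mem_univ a₀), hlt⟩
  rw [← hsum, Finset.sum_const, smul_eq_mul, hcard, ← Module.finrank_mul_finrank E0 F1 F2] at h1
  exact absurd (Nat.mul_le_mul_right _ hT) (not_le.mpr h1)

end Fermat.Agent.S36.Unr
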