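import Fermat.Agent.S36.Unr.Center
import Fermat.Agent.S36.Unr.Fibre
import Fermat.Agent.S36.Unr.Bridge

/-!
# S36 / Unr / Core : relative unramifiedness from a package of embeddings with a cyclic symmetry

SETTING.  `E0 ⊆ F1 ⊆ F2` fields of characteristic `0`, `[F2:E0] < ∞`.
PACKAGE: `σ a : F2 → 𝕂((T))` (`a ∈ X`), pairwise distinct, `#X = [F2:E0]`, all equal to `ι0` on `E0`;  `γ : X → X`, `ζ` a primitive `E`-th root of
unity with `σ (γ a) = (T ↦ ζ T) ∘ σ a`;  `u ∈ E0` with `ord (ι0 u) = E`.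
`B` a discrete valuation ring, `Frac B = F1`, uniformiser `g`, with (`hcmp`) `E0 ∩ 𝔪_B` positive under `ι0`, (`hu`) `u ∈ 𝔪_B`, (`halg`) residue field algebraic over `ℚ`.
(`hstab`) NO NEW STABILISER: for `a` centred at `B`: `σ (γ^k a) = σ a` on `F1` ⟹ `γ^k a = a`.
CONCLUSION (`core`): the integral closure `C` of `B` in `F2` has `C / g C` reduced:  `y² = g w`, `y, w ∈ C` ⟹ `y ∈ g C`.

## PROOF
1. `exists_centered` gives `a₀`.  `ι := σ a₀ ∘ algebraMap F1 F2`, `ιB := ι ∘ algebraMap B F1`; `0 ≤ ord (ιB b)`, `0 < ord (ιB b)` for `b ∈ 𝔪_B ∖ 0`.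
   `e := ord (ιB g) > 0`.  For a unit `b` of `B`: `ord (ιB b) = 0` (`b b⁻¹ = 1`, both `≥ 0`), so `(ιB b).coeff 0 ≠ 0` (`HahnSeries.coeff_order_ne_zero`).
   So `ord (ιB (unit * g^m)) = m e` (`centered_order`), and for `c : F1`: `0 ≤ ord (ι c)` ⟹ `c ∈ B` (`mem_of_centered`: `c = unit * g^m`, `m : ℤ`,
   `IsDiscreteValuationRing.eq_unit_mul_pow_irreducible` for numerator and denominator, or `ValuationRing.isInteger_or_isInteger`).
2. hypotheses of `soft_laurent` for `ιB`, `h := g`:  `hker`: `(ιB r).coeff 0 = 0` ⟹ `r` is not a unit ⟹ `g ∣ r` (`s = 1`);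
   `halg`: `G ≠ 0`, `aeval b G ∈ 𝔪_B` ⟹ `(ιB (aeval b G)).coeff 0 = 0`; the map `x ↦ x.coeff 0` is a ring hom on `{0 ≤ order}` (go through `exists_ofPowerSeries` /
   `PowerSeries.constantCoeff`), so `aeval ((ιB b).coeff 0) G = 0`: algebraic over `ℤ`, hence over `ℚ`.
   `u`: `uB ∈ 𝔪_B` with image `u`; `ιB uB = ι0 u`; `twist ζ (ι0 u) = ι0 u` (`hγ`, `hι0`).  `uB = unit * g^k`, so `E = k e`.  `ξ := ζ^k`: `ξ^e = 1`, `twist ξ (ι0 u) = ι0 u`
   (`twist_twist`/induction), `ξ` is a primitive `e`-th root of unity (`IsPrimitiveRoot.pow`).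
   CONCLUSION: `twist ξ (ιB r) = ιB r`, hence `twist ξ (ι c) = ι c` for all `c : F1` (fractions).
3. `Y := {b // σ b = σ a₀ on F1}`, `Nat.card Y = [F2:F1]` (`card_fibre`).  For `b ∈ Y`: `σ (γ^[k] b) = twist (ζ^k) ∘ σ b` (induction from `hγ`), which on `F1` is
   `twist ξ ∘ ι = ι = σ b`; `hstab` ⟹ `γ^[k] b = b` ⟹ `twist ξ (σ b y) = σ b y` for all `y : F2` ⟹ `e ∣ ord (σ b y)` (`dvd_order_of_twist_eq`).
4. `y² = g w` (`y ≠ 0`): for `b ∈ Y`: `0 ≤ ord (σ b w)` (`G.Emb.order_nonneg_of_isIntegralElem`), `2 ord (σ b y) = e + ord (σ b w) > 0`, `e ∣ ord (σ b y)`: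
   `ord (σ b y) ≥ e`; `v := y / g` has `0 ≤ ord (σ b v)`.  `G.Emb.coeff_order_nonneg ι` (for `F1 ⊆ F2`, family `Y`): the coefficients of `minpoly F1 v` have order `≥ 0`,
   so they lie in `B` (1.); `Polynomial.lifts_and_natDegree_eq_and_monic`: `v` is integral over `B`.
-/

set_option autoImplicit false

open Polynomial IsLocalRing

namespace Fermat.Agent.S36.Unr

open Fermat.Agent.Crux.G Fermat.Agent.ES

variable {𝕂 : Type*} [Field 𝕂] [CharZero 𝕂]
variable {E0 F1 F2 : Type*} [Field E0] [Field F1] [Field F2] [CharZero E0]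
  [Algebra E0 F1] [Algebra F1 F2] [Algebra E0 F2] [IsScalarTower E0 F1 F2] [FiniteDimensional E0 F2]
variable {B : Type*} [CommRing B] [IsDomain B] [IsDiscreteValuationRing B] [Algebra B F1]
  [IsFractionRing B F1] [Algebra B F2] [IsScalarTower B F1 F2]
variable {X : Type*} [Fintype X]

section Centered

omit [CharZero 𝕂]

theorem CoreA_twist_one (x : LaurentSeries 𝕂) : twist (1 : 𝕂ˣ) x = x := by
  ext n; simp

theorem CoreA_twist_twist (z w : 𝕂ˣ) (x : LaurentSeries 𝕂) :
    twist z (twist w x) = twist (z * w) x := by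
  ext n
  simp only [twist_coeff, mul_zpow, Units.val_mul, mul_assoc]

/-- the constant coefficient is multiplicative on `𝕂⟦T⟧`. -/
theorem CoreA_coeff_zero_mul {x y : LaurentSeries 𝕂} (hx : 0 ≤ x.order) (hy : 0 ≤ y.order) :
    (x * y).coeff 0 = x.coeff 0 * y.coeff 0 := by
  obtain ⟨p, rfl⟩ := exists_ofPowerSeries x hx
  obtain ⟨q, rfl⟩ := exists_ofPowerSeries y hy
  rw [← map_mul]
  have h : ∀ r : PowerSeries 𝕂, (HahnSeries.ofPowerSeries ℤ 𝕂 r).coeff 0
      = PowerSeries.constantCoeff r := by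
    intro r
    have := HahnSeries.ofPowerSeries_apply_coeff (Γ := ℤ) r 0
    simpa using this
  rw [h, h, h, map_mul]

variable (ι : F1 →+* LaurentSeries 𝕂)
  (h0 : ∀ b : B, 0 ≤ (ι (algebraMap B F1 b)).order)
  (h1 : ∀ Y : B, Y ∈ maximalIdeal B → Y ≠ 0 → 0 < (ι (algebraMap B F1 Y)).order)

include h0 in
/-- units have order zero. -/
theorem CoreA_order_unit (b : B) (hb : IsUnit b) : (ι (algebraMap B F1 b)).order = 0 := by
  obtain ⟨b', hb'⟩ := hb.exists_right_inv
  have h1 : ι (algebraMap B F1 b) * ι (algebraMap B F1 b') = 1 := by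
    rw [← map_mul, ← map_mul, hb', map_one, map_one]
  have hne : ι (algebraMap B F1 b) ≠ 0 := left_ne_zero_of_mul_eq_one h1
  have hne' : ι (algebraMap B F1 b') ≠ 0 := right_ne_zero_of_mul_eq_one h1
  have h2 := HahnSeries.order_mul hne hne'
  rw [h1, HahnSeries.order_one] at h2
  have := h0 b
  have := h0 b'
  omega

include h0 in
/-- units have a nonzero constant coefficient. -/
theorem centered_coeff_zero_ne (b : B) (hb : IsUnit b) : (ι (algebraMap B F1 b)).coeff 0 ≠ 0 := by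
  have h := CoreA_order_unit ι h0 b hb
  have hne : ι (algebraMap B F1 b) ≠ 0 := by
    rw [Ne, map_eq_zero, map_eq_zero_iff _ (IsFractionRing.injective B F1)]
    exact hb.ne_zero
  have h2 : (ι (algebraMap B F1 b)).coeff (ι (algebraMap B F1 b)).order ≠ 0 :=
    fun h3 => hne (HahnSeries.coeff_order_eq_zero.mp h3)
  rwa [h] at h2

include h0 h1 in
/-- elements of the maximal ideal have constant coefficient zero. -/
theorem centered_coeff_zero_eq (b : B) (hb : b ∈ maximalIdeal B) :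
    (ι (algebraMap B F1 b)).coeff 0 = 0 := by
  by_cases hb0 : b = 0
  · rw [hb0, map_zero, map_zero, HahnSeries.coeff_zero]
  · exact HahnSeries.coeff_eq_zero_of_lt_order (h1 b hb hb0)

include h0 h1 in
/-- `B = {c | 0 ≤ ord (ι c)}`. -/
theorem mem_of_centered (c : F1) (hc : 0 ≤ (ι c).order) : ∃ b : B, algebraMap B F1 b = c := by
  rcases ValuationRing.isInteger_or_isInteger B c with h | h
  · exact h
  obtain ⟨b, hb⟩ := h
  by_cases hc0 : c = 0
  · exact ⟨0, by rw [map_zero, hc0]⟩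
  by_cases hbu : IsUnit b
  · obtain ⟨b', hb'⟩ := hbu.exists_right_inv
    refine ⟨b', ?_⟩
    have h2 : algebraMap B F1 b * algebraMap B F1 b' = 1 := by rw [← map_mul, hb', map_one]
    rw [hb] at h2
    field_simp at h2
    exact h2
  · exfalso
    have hb0 : b ≠ 0 := by
      rintro rfl
      rw [map_zero] at hb
      exact hc0 (inv_eq_zero.mp hb.symm)
    have h2 := h1 b ((mem_maximalIdeal b).mpr hbu) hb0
    rw [hb] at h2
    have hne : ι c ≠ 0 := by rwa [Ne, map_eq_zero]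
    have hne' : ι c⁻¹ ≠ 0 := by rwa [Ne, map_eq_zero, inv_eq_zero]
    have h3 := HahnSeries.order_mul hne hne'
    rw [← map_mul, mul_inv_cancel₀ hc0, map_one, HahnSeries.order_one] at h3
    omega

include h0 h1 in
/-- the constant coefficients are algebraic numbers. -/
theorem centered_isAlgebraic [CharZero 𝕂]
    (halg : ∀ b : B, ∃ G : ℤ[X], G ≠ 0 ∧ aeval b G ∈ maximalIdeal B) (b : B) :
    IsAlgebraic ℚ ((ι (algebraMap B F1 b)).coeff 0) := by
  let c0 : B →+* 𝕂 :=
    { toFun := fun b => (ι (algebraMap B F1 b)).coeff 0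
      map_one' := by
        show (ι (algebraMap B F1 1)).coeff 0 = 1
        rw [map_one, map_one, HahnSeries.coeff_one, if_pos rfl]
      map_mul' := fun x y => by
        show (ι (algebraMap B F1 (x * y))).coeff 0 = _
        rw [map_mul, map_mul]
        exact CoreA_coeff_zero_mul (h0 x) (h0 y)
      map_zero' := by
        show (ι (algebraMap B F1 0)).coeff 0 = 0
        rw [map_zero, map_zero, HahnSeries.coeff_zero]
      map_add' := fun x y => by
        show (ι (algebraMap B F1 (x + y))).coeff 0 = _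
        rw [map_add, map_add, HahnSeries.coeff_add] }
  obtain ⟨G, hG, hGb⟩ := halg b
  have h2 : aeval (c0 b) G = 0 := by
    have h3 : c0.toIntAlgHom (aeval b G) = aeval (c0.toIntAlgHom b) G :=
      (aeval_algHom_apply c0.toIntAlgHom b G).symm
    have h4 : c0 (aeval b G) = 0 := centered_coeff_zero_eq ι h0 h1 _ hGb
    exact h3.symm.trans h4
  have h5 : IsAlgebraic ℤ (c0 b) := ⟨G, hG, h2⟩
  exact (IsFractionRing.isAlgebraic_iff ℤ ℚ 𝕂).mp h5

end Centered

/-- Step 2: the centred embedding has values in `𝕂((T^e))`. -/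
theorem centered_twist (ι : F1 →+* LaurentSeries 𝕂)
    (h0 : ∀ b : B, 0 ≤ (ι (algebraMap B F1 b)).order)
    (h1 : ∀ Y : B, Y ∈ maximalIdeal B → Y ≠ 0 → 0 < (ι (algebraMap B F1 Y)).order)
    (halg : ∀ b : B, ∃ G : ℤ[X], G ≠ 0 ∧ aeval b G ∈ maximalIdeal B)
    (ζ : 𝕂ˣ) (E : ℕ) (hE : 0 < E) (hζ : IsPrimitiveRoot ζ E)
    (uB : B) (huB : uB ∈ maximalIdeal B) (huE : (ι (algebraMap B F1 uB)).order = E)
    (huζ : twist ζ (ι (algebraMap B F1 uB)) = ι (algebraMap B F1 uB))
    (g : B) (hg : Irreducible g) :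
    ∃ (k e : ℕ), 0 < e ∧ (ι (algebraMap B F1 g)).order = e ∧ IsPrimitiveRoot (ζ ^ k) e ∧
      ∀ c : F1, twist (ζ ^ k) (ι c) = ι c := by
  have hinj : ∀ b : B, b ≠ 0 → ι (algebraMap B F1 b) ≠ 0 := by
    intro b hb
    rwa [Ne, map_eq_zero, map_eq_zero_iff _ (IsFractionRing.injective B F1)]
  have hgm : g ∈ maximalIdeal B := (mem_maximalIdeal g).mpr hg.not_isUnit
  have hgpos := h1 g hgm hg.ne_zero
  obtain ⟨e, he⟩ : ∃ e : ℕ, (ι (algebraMap B F1 g)).order = e :=
    ⟨(ι (algebraMap B F1 g)).order.toNat, (Int.toNat_of_nonneg hgpos.le).symm⟩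
  have he0 : 0 < e := by
    rw [he] at hgpos
    exact_mod_cast hgpos
  have huB0 : uB ≠ 0 := by
    rintro rfl
    rw [map_zero, map_zero, HahnSeries.order_zero] at huE
    have : (E : ℤ) = 0 := huE.symm
    omega
  obtain ⟨k, w, hw⟩ := IsDiscreteValuationRing.eq_unit_mul_pow_irreducible huB0 hg
  have hEk : E = k * e := by
    have h2 : (ι (algebraMap B F1 uB)).order = k * e := by
      rw [hw, map_mul, map_mul, map_pow, map_pow,
        HahnSeries.order_mul (hinj _ w.ne_zero) (pow_ne_zero _ (hinj _ hg.ne_zero)),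
        CoreA_order_unit ι h0 _ w.isUnit, HahnSeries.order_pow, he, zero_add, nsmul_eq_mul]
    rw [huE] at h2
    exact_mod_cast h2
  have hprim : IsPrimitiveRoot (ζ ^ k) e := hζ.pow hE hEk
  have htw : ∀ j : ℕ, twist (ζ ^ j) (ι (algebraMap B F1 uB)) = ι (algebraMap B F1 uB) := by
    intro j
    induction j with
    | zero => rw [pow_zero, CoreA_twist_one]
    | succ j ih => rw [pow_succ, ← CoreA_twist_twist, huζ, ih]
  have hsoft : ∀ r : B, twist (ζ ^ k) (ι (algebraMap B F1 r)) = ι (algebraMap B F1 r) := by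
    intro r
    refine soft_laurent (ι.comp (algebraMap B F1)) h0 g e he0 he ?_
      (centered_isAlgebraic ι h0 h1 halg) uB (hinj uB huB0)
      (centered_coeff_zero_eq ι h0 h1 uB huB) (ζ ^ k) hprim.pow_eq_one (htw k) r
    intro r hr
    have hru : ¬ IsUnit r := fun hu => centered_coeff_zero_ne ι h0 r hu hr
    have hrm : r ∈ maximalIdeal B := (mem_maximalIdeal r).mpr hru
    rw [hg.maximalIdeal_eq, Ideal.mem_span_singleton] at hrm
    obtain ⟨r', hr'⟩ := hrm
    refine ⟨1, r', centered_coeff_zero_ne ι h0 1 isUnit_one, ?_⟩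
    rw [one_mul, hr']
  refine ⟨k, e, he0, he, hprim, fun c => ?_⟩
  obtain ⟨a, b, hb, rfl⟩ := IsFractionRing.div_surjective (A := B) c
  rw [map_div₀, map_div₀, hsoft, hsoft]

omit [CharZero 𝕂] [CharZero E0] [FiniteDimensional E0 F2] [Fintype X] in
/-- iterating the symmetry. -/
theorem sigma_iterate (σ : X → F2 →+* LaurentSeries 𝕂) (γ : X → X) (ζ : 𝕂ˣ)
    (hγ : ∀ a y, σ (γ a) y = twist ζ (σ a y)) (k : ℕ) (a : X) (y : F2) :
    σ (γ^[k] a) y = twist (ζ ^ k) (σ a y) := by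
  induction k generalizing a with
  | zero => rw [pow_zero, CoreA_twist_one]; rfl
  | succ k ih =>
    rw [Function.iterate_succ_apply, ih, hγ, CoreA_twist_twist, pow_succ]

omit [CharZero 𝕂] in
/-- Step 4 (the char-poly trick over `B`). -/
theorem core_of_family [CharZero F1] [FiniteDimensional F1 F2] (ι : F1 →+* LaurentSeries 𝕂)
    (h0 : ∀ b : B, 0 ≤ (ι (algebraMap B F1 b)).order)
    (h1 : ∀ Y : B, Y ∈ maximalIdeal B → Y ≠ 0 → 0 < (ι (algebraMap B F1 Y)).order)
    {Y : Type*} [Fintype Y] (hY : Fintype.card Y = Module.finrank F1 F2)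
    (τ : Y → F2 →+* LaurentSeries 𝕂) (hτ : Function.Injective τ)
    (hτι : ∀ b c, τ b (algebraMap F1 F2 c) = ι c)
    (g : B) (e : ℕ) (he : (ι (algebraMap B F1 g)).order = e)
    (hdvd : ∀ b y, (e : ℤ) ∣ (τ b y).order)
    (y w : F2) (hy : IsIntegral B y) (hw : IsIntegral B w) (hyw : y ^ 2 = g • w) :
    ∃ y' : F2, IsIntegral B y' ∧ y = g • y' := by
  classical
  by_cases hy0 : y = 0
  · exact ⟨0, isIntegral_zero, by rw [hy0, smul_zero]⟩
  have hw0 : w ≠ 0 := by
    rintro rfl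
    rw [smul_zero] at hyw
    exact hy0 ((pow_eq_zero_iff two_ne_zero).mp hyw)
  have hg0 : g ≠ 0 := by
    rintro rfl
    rw [zero_smul] at hyw
    exact hy0 ((pow_eq_zero_iff two_ne_zero).mp hyw)
  have hinj := IsFractionRing.injective B F1
  have hgE : algebraMap B F1 g ≠ 0 := by
    rw [Ne, map_eq_zero_iff _ hinj]; exact hg0
  have hgL : algebraMap B F2 g ≠ 0 := by
    rw [IsScalarTower.algebraMap_apply B F1 F2, Ne, map_eq_zero]; exact hgE
  have hτR : ∀ a (r : B), τ a (algebraMap B F2 r) = ι (algebraMap B F1 r) := by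
    intro a r
    rw [IsScalarTower.algebraMap_apply B F1 F2, hτι]
  have hInt : ∀ a (x : F2), IsIntegral B x → 0 ≤ (τ a x).order := by
    intro a x hx
    obtain ⟨p, hp, hpx⟩ := hx
    refine Emb.order_nonneg_of_isIntegralElem ((τ a).comp (algebraMap B F2)) ?_ ⟨p, hp, ?_⟩
    · intro r
      rw [RingHom.comp_apply, hτR]
      exact h0 r
    · rw [← Polynomial.hom_eval₂, hpx, map_zero]
  set v : F2 := (algebraMap B F2 g)⁻¹ * y with hv
  have hgv : g • v = y := by
    rw [hv, Algebra.smul_def, mul_inv_cancel_left₀ hgL]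
  have hord : ∀ a, 0 ≤ (τ a v).order := by
    intro a
    have hy0' : τ a y ≠ 0 := (map_ne_zero (τ a)).mpr hy0
    have hw0' : τ a w ≠ 0 := (map_ne_zero (τ a)).mpr hw0
    have hv0' : τ a v ≠ 0 := (map_ne_zero (τ a)).mpr (by
      rw [hv]; exact mul_ne_zero (inv_ne_zero hgL) hy0)
    have hg0' : ι (algebraMap B F1 g) ≠ 0 := (map_ne_zero ι).mpr hgE
    have e1 : (τ a y).order + (τ a y).order = e + (τ a w).order := by
      have := congrArg (fun x => (τ a x).order) hyw
      beta_reduce at this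
      rw [pow_two, map_mul, HahnSeries.order_mul hy0' hy0', Algebra.smul_def, map_mul, hτR,
        HahnSeries.order_mul hg0' hw0', he] at this
      exact this
    have e2 : (τ a y).order = e + (τ a v).order := by
      have := congrArg (fun x => (τ a x).order) hgv
      beta_reduce at this
      rw [Algebra.smul_def, map_mul, hτR, HahnSeries.order_mul hg0' hv0', he] at this
      exact this.symm
    have e3 := hInt a w hw
    obtain ⟨m, hm⟩ := hdvd a y
    have e4 : (0 : ℤ) ≤ e := Int.natCast_nonneg e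
    rcases e4.eq_or_lt with e5 | e5
    · rw [← e5] at hm e2
      omega
    · have hm1 : 1 ≤ m := by
        by_contra hneg
        have hm0 : m ≤ 0 := by omega
        nlinarith
      nlinarith
  have hcoef : ∀ i, 0 ≤ (ι ((minpoly F1 v).coeff i)).order :=
    Emb.coeff_order_nonneg ι hY τ hτ hτι v hord
  refine ⟨v, ?_, hgv.symm⟩
  have hvE : IsIntegral F1 v := Algebra.IsIntegral.isIntegral v
  have hlift : minpoly F1 v ∈ Polynomial.lifts (algebraMap B F1) := by
    rw [Polynomial.lifts_iff_coeff_lifts]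
    intro i
    exact mem_of_centered ι h0 h1 _ (hcoef i)
  obtain ⟨q, hq, -, hqm⟩ := Polynomial.lifts_and_natDegree_eq_and_monic hlift (minpoly.monic hvE)
  refine ⟨q, hqm, ?_⟩
  have h2 := minpoly.aeval F1 v
  rw [← hq, aeval_map_algebraMap] at h2
  exact h2

/-- **CORE.** -/
theorem core (σ : X → F2 →+* LaurentSeries 𝕂) (hσ : Function.Injective σ)
    (hcard : Fintype.card X = Module.finrank E0 F2)
    (ι0 : E0 →+* LaurentSeries 𝕂) (hι0 : ∀ a e, σ a (algebraMap E0 F2 e) = ι0 e)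
    (γ : X → X) (ζ : 𝕂ˣ) (E : ℕ) (hE : 0 < E) (hζ : IsPrimitiveRoot ζ E)
    (hγ : ∀ a y, σ (γ a) y = twist ζ (σ a y))
    (hstab : ∀ a, (∀ b : B, 0 ≤ (σ a (algebraMap B F2 b)).order) → ∀ k : ℕ,
      (∀ c : F1, σ (γ^[k] a) (algebraMap F1 F2 c) = σ a (algebraMap F1 F2 c)) → γ^[k] a = a)
    (hcmp : ∀ (e : E0) (b : B), algebraMap B F1 b = algebraMap E0 F1 e → b ∈ maximalIdeal B →
      b ≠ 0 → 0 < (ι0 e).order)
    (u : E0) (uB : B) (huB : uB ∈ maximalIdeal B) (huu : algebraMap B F1 uB = algebraMap E0 F1 u)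
    (huE : (ι0 u).order = E)
    (halg : ∀ b : B, ∃ G : ℤ[X], G ≠ 0 ∧ aeval b G ∈ maximalIdeal B)
    (g : B) (hg : Irreducible g)
    (y w : F2) (hy : IsIntegral B y) (hw : IsIntegral B w) (hyw : y ^ 2 = g • w) :
    ∃ y' : F2, IsIntegral B y' ∧ y = g • y' := by
  classical
  have : CharZero F1 := charZero_of_injective_algebraMap (algebraMap E0 F1).injective
  have : FiniteDimensional F1 F2 := FiniteDimensional.right E0 F1 F2
  -- step 1
  obtain ⟨a₀, ha0, ha1⟩ := exists_centered (F1 := F1) (B := B) σ hσ hcard ι0 hι0 hcmp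
  set ι : F1 →+* LaurentSeries 𝕂 := (σ a₀).comp (algebraMap F1 F2) with hι
  have hιB : ∀ b : B, ι (algebraMap B F1 b) = σ a₀ (algebraMap B F2 b) := by
    intro b
    rw [hι, RingHom.comp_apply, ← IsScalarTower.algebraMap_apply]
  have hιE : ∀ c : E0, ι (algebraMap E0 F1 c) = ι0 c := by
    intro c
    rw [hι, RingHom.comp_apply, ← IsScalarTower.algebraMap_apply, hι0]
  have h0 : ∀ b : B, 0 ≤ (ι (algebraMap B F1 b)).order := by
    intro b
    rw [hιB]
    exact ha0 b
  have h1 : ∀ Y : B, Y ∈ maximalIdeal B → Y ≠ 0 → 0 < (ι (algebraMap B F1 Y)).order := by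
    intro Y hY hY0
    rw [hιB]
    exact ha1 Y hY hY0
  -- step 2
  have huι : ι (algebraMap B F1 uB) = ι0 u := by rw [huu, hιE]
  have huζ : twist ζ (ι (algebraMap B F1 uB)) = ι (algebraMap B F1 uB) := by
    have := hγ a₀ (algebraMap E0 F2 u)
    rw [hι0, hι0] at this
    rw [huι]
    exact this.symm
  obtain ⟨k, e, he0, hge, hprim, htw⟩ := centered_twist ι h0 h1 halg ζ E hE hζ uB huB
    (by rw [huι]; exact huE) huζ g hg
  -- step 3
  let Y : Type _ := {b : X // ∀ y : F1, σ b (algebraMap F1 F2 y) = σ a₀ (algebraMap F1 F2 y)}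
  have hYcard : Fintype.card Y = Module.finrank F1 F2 := by
    rw [← Nat.card_eq_fintype_card]
    exact card_fibre σ hσ hcard ι0 hι0 a₀
  have hdvd : ∀ (b : Y) (y : F2), (e : ℤ) ∣ (σ b.1 y).order := by
    intro b y
    have hb0 : ∀ b' : B, 0 ≤ (σ b.1 (algebraMap B F2 b')).order := by
      intro b'
      rw [IsScalarTower.algebraMap_apply B F1 F2, b.2, ← IsScalarTower.algebraMap_apply]
      exact ha0 b'
    have hfix : γ^[k] b.1 = b.1 := by
      refine hstab b.1 hb0 k ?_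
      intro c
      rw [sigma_iterate σ γ ζ hγ k b.1, b.2 c]
      exact htw c
    have htw' : twist (ζ ^ k) (σ b.1 y) = σ b.1 y := by
      rw [← sigma_iterate σ γ ζ hγ k b.1, hfix]
    exact dvd_order_of_twist_eq (ζ ^ k) e hprim _ htw'
  -- step 4
  exact core_of_family ι h0 h1 hYcard (fun b : Y => σ b.1) (hσ.comp Subtype.val_injective)
    (fun b c => b.2 c) g e hge hdvd y w hy hw hyw

end Fermat.Agent.S36.Unr
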