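import Fermat.Agent.S36.Unr.ModK

/-!
# S36 / Unr / Cusp : `F_K(N l²) / F_K(N l)` is unramified at the cusps of type `∞`

`B` a discrete valuation ring of `F_K(N1)`, residue characteristic `0`, `1/j ∈ 𝔪_B`.
Expansions: `L = laurent N2` in the parameter `exp(2πiτ/N2)`; `o_g(d) := ord L (j_d ∘ g⁻¹)`.

PROOFS.
* `order_jfun_affH` : `laurent_order_eq h f (-(A e)) a ha` with `a = exp(-2πi B/D)`.
  `jfun σ * qh 1 σ → 1` (`jfun_mul_qh_tendsto`) composed with `Cusp.tendsto_affH A D B`; and `qh 1 (affH A D B τ) = exp(2πi B/D) * qh h τ ^ (A e)` (`h = D e`; unfold `qh`,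
  `Function.Periodic.qParam`, `Cusp.coe_affH`, `Complex.exp_add`, `← Complex.exp_nat_mul`).  So `f τ * qh h τ ^ (A e) = (jfun σ * qh 1 σ) * exp(-2πi B/D) → exp(-2πi B/D)`.
  (`- -(A e : ℤ) = A e`, `zpow_natCast`.)  Model: `S24.laurent_jfun_order`, `S24.Cusp.bounded_affH`.
* `order_neg` : `exists_hermite d.1 g⁻¹` : `compInv g (jd d) τ = jfun (affH A D B τ)` (as in `compInv_jd_mem_HolCusp`), `A D = d ∣ N2`, so `N2 = D e`; `order_jfun_affH`; `A e > 0`.
* `order_type` (`d' := d1`, `l d' = d2`) : `exists_hermite d' g⁻¹` : `mulH d' (g⁻¹ τ) = δ • σ`, `σ = affH A D B τ`, `(g⁻¹) 1 0 = δ 1 0 * A`; so `l ∤ δ 1 0`.  `mulH (l d') x = mulH l (mulH d' x)` (`UpperHalfPlane.ext`).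
  `exists_hermite l δ` : `mulH l (δ • σ) = δ' • affH A' D' B' σ`, `A' D' = l`, `δ 1 0 = δ' 1 0 * A'`; so `A' ≠ l`, `A' = 1`, `D' = l` (`Nat.Prime.eq_one_or_self_of_dvd`).
  `affH 1 l B' (affH A D B τ) = affH A (D l) (B + B' D) τ` (`UpperHalfPlane.ext`, `field_simp`).  `l d' = A (D l) ∣ N2`: `N2 = (D l) e`, `N2 = D (l e)`:
  `o(l d') = -(A e)`, `o(d') = -(A l e)`.
* `stab_cusp` : `QuotientGroup.eq`: `(T^k g)⁻¹ g ∈ Γ₀(M)` ⟺ `M ∣ ((T^k g)⁻¹ g) 1 0`.  With `g⁻¹ = !![a, b; c, d]`: `(g⁻¹ T^(-k) g) 1 0 = c² k` (up to sign)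
  (`ModularGroup.coe_T_zpow`/`T_pow..`, `Matrix.SpecialLinearGroup.SL2_inv_expl`, see `S36/Mod/Unram/Free.lean`: `Free_inv`, `Free_dvd_of_fixed`).  `l ∣ c` ⟹ `l² ∣ c² k`; `N ∣ c² k`; coprime ⟹ `N l² ∣ c² k`
  (`Nat.Coprime.mul_dvd_of_dvd_of_dvd` / `IsCoprime.mul_dvd`).
* `adjoin_inv` : `le_antisymm`, `IntermediateField.adjoin_simple_le_iff`, `inv_mem`, `IntermediateField.mem_adjoin_simple_self`.
* `core_cusp_gen` : `core_modular` with `dom := HolCusp N2`, `L := laurent N2`, `hL := laurent_injective N2`, `hmem := compInv_jd_mem_HolCusp N2`, `hj := jfun_mem_HolCusp N2`, `γ₀ := T`,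
  `ζ := Units.mk0 (exp (2πi/N2))⁻¹ _`, `E := N2`, `hζ` from `(Complex.isPrimitiveRoot_exp N2 _).inv` (`IsPrimitiveRoot.coe_units_iff`), `hsym := cusp_coeff N2`, `hK` by `htB`, `adjoin_inv`,
  `υ := (laurent N2 ⟨jfun, _⟩)⁻¹` (`hυ`: `algebraMap B F2 tB = (jK K N2)⁻¹`, `map_inv₀`, `beta_jK`), `g0 := X`, `b0 := tB`, `c0 := 0`, `hord`: `order_inv_eq`, `laurent_jfun_order` (see `S24.package_cusp`).
* `core_cusp_vac` : `core_cusp_gen`; `hstab` is vacuous: `0 ≤ ord τ(β rB) = ord τ (jF N2 d _) = o_g(d) < 0`  (`β (algebraMap F1 F2 (jdK K N1 d hd)) = jF N2 d _`: `beta_jdK` + `Subtype.ext`/`hincl`).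
* `core_cusp_inf` : `core_cusp_gen`; `hstab g τ h1 h2 k` : `l ∣ (g⁻¹) 1 0`: otherwise `order_type`: `x := τ(β rB)`, `x * τ(j_{l d'}) = τ(j_{d'})^l`, all `≠ 0`, `HahnSeries.order_mul`, `order_pow`:
  `ord x = l o(d') - o(l d') = (l² - 1) o(l d') < 0`, contradiction with `h2 rB`.  Then `stab_cusp`.
-/

set_option autoImplicit false

open ModularCurve UpperHalfPlane Polynomial IsLocalRing
open scoped MatrixGroups IntermediateField

namespace Fermat.Agent.S36.Unr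

open Fermat.Agent.S24 Fermat.Agent.S24.Packages Fermat.Agent.ES Fermat.Agent.Crux.GT.PF

theorem order_jfun_affH (h A D : ℕ) [NeZero h] [NeZero A] [NeZero D] (B : ℤ) (e : ℕ)
    (he : h = D * e) (f : HolCusp h) (hf : ∀ τ, (f : ℍ → ℂ) τ = jfun (affH A D B τ)) :
    (laurent h f).order = -((A * e : ℕ) : ℤ) := by
  have hD0 : (D : ℂ) ≠ 0 := by exact_mod_cast NeZero.ne D
  have he0 : (e : ℂ) ≠ 0 := by
    have : e ≠ 0 := by
      rintro rfl
      exact NeZero.ne h (by rw [he, mul_zero])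
    exact_mod_cast this
  refine laurent_order_eq h f _ (Complex.exp (-(2 * Real.pi * Complex.I * B / D)))
    (Complex.exp_ne_zero _) ?_
  have h1 : Filter.Tendsto (fun τ : ℍ => jfun (affH A D B τ) * qh 1 (affH A D B τ)) atImInfty
      (nhds 1) := jfun_mul_qh_tendsto.comp (Cusp.tendsto_affH A D B)
  have h2 := h1.mul_const (Complex.exp (-(2 * Real.pi * Complex.I * B / D)))
  rw [one_mul] at h2
  refine h2.congr fun τ => ?_
  rw [hf, neg_neg, zpow_natCast]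
  have key : qh 1 (affH A D B τ) * Complex.exp (-(2 * Real.pi * Complex.I * B / D))
      = qh h τ ^ (A * e) := by
    rw [qh, qh, Function.Periodic.qParam, Function.Periodic.qParam, Cusp.coe_affH,
      ← Complex.exp_nat_mul, ← Complex.exp_add]
    congr 1
    rw [he]
    push_cast
    field_simp
    ring
  rw [mul_assoc, key]

theorem order_neg (N2 : ℕ) [NeZero N2] (g : SL(2, ℤ)) (d : Dv N2) :
    (laurent N2 ⟨compInv g (jd d.1), compInv_jd_mem_HolCusp N2 g d⟩).order < 0 := by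
  obtain ⟨δ, A, D, hA, hD, B, hAD, -, hτ⟩ := exists_hermite d.1 g⁻¹
  have hf : ∀ τ : ℍ, compInv g (jd d.1) τ = jfun (affH A D B τ) := by
    intro τ
    rw [compInv, jd, hτ, jfun_smul]
  obtain ⟨e, he⟩ : D ∣ N2 := (Dvd.intro_left A hAD).trans d.2
  rw [order_jfun_affH N2 A D B e he _ hf]
  have he0 : e ≠ 0 := by
    rintro rfl
    exact NeZero.ne N2 (by simpa using he)
  have hpos : 0 < A * e := Nat.mul_pos (Nat.pos_of_ne_zero hA.ne) (Nat.pos_of_ne_zero he0)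
  omega

theorem order_type (N2 l : ℕ) [NeZero N2] (hl : l.Prime) (d1 d2 : Dv N2) (hd : d2.1 = l * d1.1)
    (g : SL(2, ℤ)) (hc : ¬ (l : ℤ) ∣ (g⁻¹ : SL(2, ℤ)) 1 0) :
    (l : ℤ) * (laurent N2 ⟨compInv g (jd d2.1), compInv_jd_mem_HolCusp N2 g d2⟩).order
      = (laurent N2 ⟨compInv g (jd d1.1), compInv_jd_mem_HolCusp N2 g d1⟩).order := by
  have : NeZero l := ⟨hl.ne_zero⟩
  obtain ⟨δ, A, D, hA, hD, B, hAD, h10, hτ⟩ := exists_hermite d1.1 g⁻¹
  obtain ⟨δ', A', D', hA', hD', B', hAD', h10', hσ⟩ := exists_hermite l δ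
  have hlδ : ¬ (l : ℤ) ∣ δ 1 0 := fun h => hc (h10 ▸ Dvd.dvd.mul_right h _)
  have hA'1 : A' = 1 := by
    rcases (Nat.Prime.eq_one_or_self_of_dvd hl A' (Dvd.intro _ hAD')) with h | h
    · exact h
    · exfalso
      apply hlδ
      rw [h10', h]
      exact Dvd.intro_left _ rfl
  have hD'l : D' = l := by
    rw [hA'1, one_mul] at hAD'
    exact hAD'
  have : NeZero (D * l) := ⟨mul_ne_zero hD.ne hl.ne_zero⟩
  have hf1 : ∀ τ : ℍ, compInv g (jd d1.1) τ = jfun (affH A D B τ) := by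
    intro τ
    rw [compInv, jd, hτ, jfun_smul]
  have hmul : ∀ x : ℍ, mulH d2.1 x = mulH l (mulH d1.1 x) := by
    intro x
    apply UpperHalfPlane.ext
    show ((d2.1 : ℕ) : ℂ) * (x : ℂ) = (l : ℂ) * (((d1.1 : ℕ) : ℂ) * (x : ℂ))
    rw [hd]
    push_cast
    ring
  have haff : ∀ τ : ℍ, affH A' D' B' (affH A D B τ) = affH A (D * l) (B + B' * D) τ := by
    intro τ
    apply UpperHalfPlane.ext
    show ((A' : ℂ) * (((A : ℂ) * (τ : ℂ) + B) / D) + B') / D'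
      = ((A : ℂ) * (τ : ℂ) + ((B + B' * D : ℤ) : ℂ)) / ((D * l : ℕ) : ℂ)
    rw [hA'1, hD'l]
    have hD0 : (D : ℂ) ≠ 0 := by exact_mod_cast hD.ne
    have hl0 : (l : ℂ) ≠ 0 := by exact_mod_cast hl.ne_zero
    push_cast
    field_simp
    ring
  have hf2 : ∀ τ : ℍ, compInv g (jd d2.1) τ = jfun (affH A (D * l) (B + B' * D) τ) := by
    intro τ
    rw [compInv, jd, hmul, hτ, hσ, jfun_smul, haff]
  obtain ⟨e, he⟩ : D * l ∣ N2 := by
    refine Dvd.dvd.trans ?_ d2.2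
    rw [hd, ← hAD]
    exact ⟨A, by ring⟩
  have he' : N2 = D * (l * e) := by rw [he, mul_assoc]
  rw [order_jfun_affH N2 A (D * l) (B + B' * D) e he _ hf2,
    order_jfun_affH N2 A D B (l * e) he' _ hf1]
  push_cast
  ring

private theorem CuspC_entry (g : SL(2, ℤ)) (k : ℕ) :
    ((ModularGroup.T ^ k * g)⁻¹ * g : SL(2, ℤ)) 1 0 = (k : ℤ) * g 1 0 ^ 2 := by
  have h1 : ∀ γ : SL(2, ℤ), (γ⁻¹ : SL(2, ℤ)) 1 0 = - γ 1 0 ∧ (γ⁻¹ : SL(2, ℤ)) 1 1 = γ 0 0 := by
    intro γ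
    simp [Matrix.SpecialLinearGroup.coe_inv, Matrix.adjugate_fin_two]
  obtain ⟨i3, i4⟩ := h1 (ModularGroup.T ^ k * g)
  have hT : ((ModularGroup.T ^ k : SL(2, ℤ)) : Matrix (Fin 2) (Fin 2) ℤ) = !![1, (k : ℤ); 0, 1] := by
    rw [← zpow_natCast]
    exact ModularGroup.coe_T_zpow k
  rw [Matrix.SpecialLinearGroup.coe_mul, Matrix.mul_apply, Fin.sum_univ_two, i3, i4]
  simp only [Matrix.SpecialLinearGroup.coe_mul, Matrix.mul_apply, Fin.sum_univ_two, hT]
  simp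
  ring

private theorem CuspC_eq_iff (M : ℕ) (g : SL(2, ℤ)) (k : ℕ) :
    ((ModularGroup.T ^ k * g : SL(2, ℤ)) : XN M) = (g : XN M) ↔
      (M : ℤ) ∣ (k : ℤ) * g 1 0 ^ 2 := by
  rw [QuotientGroup.eq, CongruenceSubgroup.Gamma0_mem, ZMod.intCast_zmod_eq_zero_iff_dvd,
    CuspC_entry]

theorem stab_cusp (N l : ℕ) (hcop : Nat.Coprime N l) (g : SL(2, ℤ))
    (hc : (l : ℤ) ∣ (g⁻¹ : SL(2, ℤ)) 1 0) (k : ℕ)
    (h : ((ModularGroup.T ^ k * g : SL(2, ℤ)) : XN (N * l)) = (g : XN (N * l))) :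
    ((ModularGroup.T ^ k * g : SL(2, ℤ)) : XN (N * l * l)) = (g : XN (N * l * l)) := by
  rw [CuspC_eq_iff] at h ⊢
  have hc' : (l : ℤ) ∣ g 1 0 := by
    have h1 : (g⁻¹ : SL(2, ℤ)) 1 0 = - g 1 0 := by
      simp [Matrix.SpecialLinearGroup.coe_inv, Matrix.adjugate_fin_two]
    rw [h1] at hc
    exact (dvd_neg.1 hc)
  have h1 : (N : ℤ) ∣ (k : ℤ) * g 1 0 ^ 2 := by
    refine dvd_trans ?_ h
    push_cast
    exact Dvd.intro _ rfl
  have h2 : ((l * l : ℕ) : ℤ) ∣ (k : ℤ) * g 1 0 ^ 2 := by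
    push_cast
    rw [pow_two]
    exact Dvd.dvd.mul_left (mul_dvd_mul hc' hc') _
  have hcop2 : IsCoprime (N : ℤ) ((l * l : ℕ) : ℤ) :=
    Nat.isCoprime_iff_coprime.2 (Nat.Coprime.mul_right hcop hcop)
  have h3 := hcop2.mul_dvd h1 h2
  have e : ((N * l * l : ℕ) : ℤ) = (N : ℤ) * ((l * l : ℕ) : ℤ) := by
    push_cast
    ring
  rw [e]
  exact h3

theorem adjoin_inv {K F : Type*} [Field K] [Field F] [Algebra K F] (x : F) : K⟮x⁻¹⟯ = K⟮x⟯ := by
  apply le_antisymm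
  · rw [IntermediateField.adjoin_simple_le_iff]
    exact inv_mem (IntermediateField.mem_adjoin_simple_self K x)
  · rw [IntermediateField.adjoin_simple_le_iff]
    have h := inv_mem (IntermediateField.mem_adjoin_simple_self K x⁻¹)
    rwa [inv_inv] at h

variable {K : Type} [Field K] [Algebra K Kb] {N1 N2 : ℕ} [NeZero N1] [NeZero N2]
variable [Algebra (FK K N1) (FK K N2)]
  (hincl : ∀ f : FK K N1, ((algebraMap (FK K N1) (FK K N2) f : FK K N2) : LaurentSeries K)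
    = (f : LaurentSeries K))
variable {B : Type*} [CommRing B] [IsDomain B] [IsDiscreteValuationRing B] [Algebra B (FK K N1)]
  [IsFractionRing B (FK K N1)] [Algebra B (FK K N2)] [IsScalarTower B (FK K N1) (FK K N2)]

include hincl in
theorem core_cusp_gen (h12 : N1 ∣ N2) (hchar : ∀ n : ℕ, n ≠ 0 → IsUnit (n : B))
    (tB : B) (htB : algebraMap B (FK K N1) tB = (jK K N1)⁻¹) (htm : tB ∈ maximalIdeal B)
    (hstab : ∀ (g : SL(2, ℤ)) (τ : FN N2 →ₐ[Kb] LaurentSeries ℂ),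
      (∀ d : Dv N2, τ (jF N2 d.1 d.2)
        = laurent N2 ⟨compInv g (jd d.1), compInv_jd_mem_HolCusp N2 g d⟩) →
      (∀ b : B, 0 ≤ (τ (beta K N2 (algebraMap B (FK K N2) b))).order) →
      ∀ k : ℕ, ((ModularGroup.T ^ k * g : SL(2, ℤ)) : XN N1) = (g : XN N1) →
        ((ModularGroup.T ^ k * g : SL(2, ℤ)) : XN N2) = (g : XN N2))
    (g : B) (hg : Irreducible g) (y w : FK K N2) (hy : IsIntegral B y) (hw : IsIntegral B w)
    (hyw : y ^ 2 = g • w) :
    ∃ y' : FK K N2, IsIntegral B y' ∧ y = g • y' := by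
  have hj12 : algebraMap (FK K N1) (FK K N2) (jK K N1) = jK K N2 := by
    apply Subtype.ext
    rw [hincl]
    rfl
  have htB2 : algebraMap B (FK K N2) tB = (jK K N2)⁻¹ := by
    rw [IsScalarTower.algebraMap_apply B (FK K N1) (FK K N2), htB, map_inv₀, hj12]
  have hprim : IsPrimitiveRoot (Units.mk0 (Complex.exp (2 * Real.pi * Complex.I / N2))⁻¹
      (inv_ne_zero (Complex.exp_ne_zero _))) N2 := by
    rw [← IsPrimitiveRoot.coe_units_iff]
    exact (Complex.isPrimitiveRoot_exp N2 (NeZero.ne N2)).inv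
  have hne : laurent N2 ⟨jfun, jfun_mem_HolCusp N2⟩ ≠ 0 := by
    intro h
    have h2 := laurent_jfun_order N2
    rw [h, HahnSeries.order_zero] at h2
    have hN : (N2 : ℤ) ≠ 0 := by exact_mod_cast NeZero.ne N2
    omega
  refine core_modular hincl h12 hchar (HolCusp N2) (laurent N2) (laurent_injective N2)
    (compInv_jd_mem_HolCusp N2) (jfun_mem_HolCusp N2) ModularGroup.T
    (Units.mk0 (Complex.exp (2 * Real.pi * Complex.I / N2))⁻¹
      (inv_ne_zero (Complex.exp_ne_zero _))) N2 (Nat.pos_of_ne_zero (NeZero.ne N2)) hprim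
    (fun f hf k => cusp_coeff N2 f hf k) tB (by rw [htB, adjoin_inv])
    (laurent N2 ⟨jfun, jfun_mem_HolCusp N2⟩)⁻¹ ?_ X monic_X irreducible_X tB htm
    (by rw [aeval_X]) 0 (by simp) ?_ hstab g hg y w hy hw hyw
  · intro τ hτ
    rw [htB2, map_inv₀, map_inv₀, beta_jK, hτ]
  · rw [map_zero, map_zero, sub_zero, order_inv_eq _ hne, laurent_jfun_order, neg_neg]

include hincl in
/-- the case which does not occur (`1/j ∈ 𝔪_B` and `j_d ∈ B`). -/
theorem core_cusp_vac (h12 : N1 ∣ N2) (hchar : ∀ n : ℕ, n ≠ 0 → IsUnit (n : B))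
    (tB : B) (htB : algebraMap B (FK K N1) tB = (jK K N1)⁻¹) (htm : tB ∈ maximalIdeal B)
    (d : ℕ) [NeZero d] (hd : d ∣ N1) (rB : B) (hrB : algebraMap B (FK K N1) rB = jdK K N1 d hd)
    (g : B) (hg : Irreducible g) (y w : FK K N2) (hy : IsIntegral B y) (hw : IsIntegral B w)
    (hyw : y ^ 2 = g • w) :
    ∃ y' : FK K N2, IsIntegral B y' ∧ y = g • y' := by
  refine core_cusp_gen hincl h12 hchar tB htB htm ?_ g hg y w hy hw hyw
  intro g' τ h1 h2 k _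
  exfalso
  have hdN2 : d ∣ N2 := hd.trans h12
  have e1 : beta K N2 (algebraMap B (FK K N2) rB) = jF N2 d hdN2 := by
    rw [IsScalarTower.algebraMap_apply B (FK K N1) (FK K N2), hrB]
    have h3 : algebraMap (FK K N1) (FK K N2) (jdK K N1 d hd) = jdK K N2 d hdN2 :=
      Subtype.ext (hincl _)
    rw [h3, beta_jdK]
  have e2 := h2 rB
  rw [e1] at e2
  have e3 := h1 ⟨d, hdN2⟩
  rw [e3] at e2
  exact absurd (order_neg N2 g' ⟨d, hdN2⟩) (not_lt.mpr e2)

include hincl in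
/-- **(Unr) at the cusps of type `∞`.** -/
theorem core_cusp_inf (N l : ℕ) (hl : l.Prime) (hcop : Nat.Coprime N l) (h1 : N1 = N * l)
    (h2 : N2 = N * l * l) (hchar : ∀ n : ℕ, n ≠ 0 → IsUnit (n : B))
    (tB : B) (htB : algebraMap B (FK K N1) tB = (jK K N1)⁻¹) (htm : tB ∈ maximalIdeal B)
    (d' : ℕ) [NeZero d'] [NeZero (l * d')] (hd : l * d' ∣ N1) (rB : B)
    (hrB : algebraMap B (FK K N1) rB * jdK K N1 (l * d') hd
      = jdK K N1 d' ((Dvd.intro_left l rfl).trans hd) ^ l)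
    (g : B) (hg : Irreducible g) (y w : FK K N2) (hy : IsIntegral B y) (hw : IsIntegral B w)
    (hyw : y ^ 2 = g • w) :
    ∃ y' : FK K N2, IsIntegral B y' ∧ y = g • y' := by
  have h12 : N1 ∣ N2 := by rw [h1, h2]; exact Dvd.intro _ rfl
  refine core_cusp_gen hincl h12 hchar tB htB htm ?_ g hg y w hy hw hyw
  intro g' τ hτ hB k hk
  have hc : (l : ℤ) ∣ (g'⁻¹ : SL(2, ℤ)) 1 0 := by
    by_contra hc
    have hd2 : l * d' ∣ N2 := hd.trans h12
    have hd1 : d' ∣ N2 := (Dvd.intro_left l rfl).trans hd2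
    have ht := order_type N2 l hl ⟨d', hd1⟩ ⟨l * d', hd2⟩ rfl g' hc
    have hneg := order_neg N2 g' ⟨l * d', hd2⟩
    have hneg1 := order_neg N2 g' ⟨d', hd1⟩
    have e := congrArg (fun z => τ (beta K N2 (algebraMap (FK K N1) (FK K N2) z))) hrB
    simp only [map_mul, map_pow] at e
    rw [← IsScalarTower.algebraMap_apply B (FK K N1) (FK K N2)] at e
    have a1 : algebraMap (FK K N1) (FK K N2) (jdK K N1 (l * d') hd) = jdK K N2 (l * d') hd2 :=
      Subtype.ext (hincl _)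
    have a2 : algebraMap (FK K N1) (FK K N2) (jdK K N1 d' ((Dvd.intro_left l rfl).trans hd))
        = jdK K N2 d' hd1 := Subtype.ext (hincl _)
    have b1 := hτ ⟨l * d', hd2⟩
    have b2 := hτ ⟨d', hd1⟩
    rw [a1, a2, beta_jdK, beta_jdK, b1, b2] at e
    have hx0 := hB rB
    generalize τ (beta K N2 (algebraMap B (FK K N2) rB)) = x at e hx0
    generalize laurent N2 ⟨compInv g' (jd (l * d')), _⟩ = u at e ht hneg
    generalize laurent N2 ⟨compInv g' (jd d'), _⟩ = v at e ht hneg1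
    have hu : u ≠ 0 := by
      intro h
      rw [h, HahnSeries.order_zero] at hneg
      exact lt_irrefl _ hneg
    have hv : v ≠ 0 := by
      intro h
      rw [h, HahnSeries.order_zero] at hneg1
      exact lt_irrefl _ hneg1
    have hx : x ≠ 0 := by
      intro h
      rw [h, zero_mul] at e
      exact pow_ne_zero _ hv e.symm
    have e' := congrArg HahnSeries.order e
    rw [HahnSeries.order_mul hx hu, HahnSeries.order_pow, nsmul_eq_mul] at e'
    have hl2 : (2 : ℤ) ≤ l := by exact_mod_cast hl.two_le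
    nlinarith
  rw [h1] at hk
  rw [h2]
  exact stab_cusp N l hcop g' hc k hk

end Fermat.Agent.S36.Unr
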