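import Mathlib

/-!
# S36 / Unr / Glue : from the DVR form of (Unr) to the ideal form (`R.Tower.unr1`, `unr2`)

`φ : M → M'` integral, `M'` integrally closed, `𝔮` a prime of `M`, `B = M_𝔮` a discrete valuation ring.
`hcore` : `y² = g w`, `y, w ∈ F'` integral over `B`, `g` a uniformiser of `B` ⟹ `y / g` integral over `B`.
CONCLUSION : `y ∈ M'`, `y² ∈ 𝔮 M'` ⟹ `∃ s ∉ 𝔮, φ(s) y ∈ 𝔮 M'`.

PROOF.  `g` := a uniformiser of `B` (`IsDiscreteValuationRing.exists_irreducible`), `𝔪_B = (g)` (`Irreducible.maximalIdeal_eq`).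
1. every `m : M'` is integral over `B` as an element of `F'` : `hint m` gives a monic `p : M[X]` with `eval₂ φ m p = 0`; map it to `B[X]`
   (`algebraMap M' F' (φ f) = algebraMap B F' (algebraMap M B f)` by `hφ` and the two scalar towers).
2. for `q ∈ 𝔮` : `algebraMap M B q ∈ 𝔪_B` (`IsLocalization.AtPrime.to_map_mem_maximal_iff`), so `= g * b`.
3. `y² ∈ 𝔮.map φ = span (φ '' 𝔮)` : by `Submodule.span_induction` (or `Ideal.mem_map_iff..`/`Finsupp.mem_ideal_span_image_iff_linearCombination`) every element `x` of `𝔮.map φ` satisfies: `∃ w : F', IsIntegral B w ∧ algebraMap M' F' x = g • w`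
   (closed under `+` and multiplication by `M'`, by 1. and 2.).
4. `hcore g _ (algebraMap M' F' y) w` : `algebraMap y = g • y'`, `y'` integral over `B`.
5. `IsIntegral.exists_multiple_integral_of_isLocalization 𝔮.primeCompl y' hy'` : `s₁ ∉ 𝔮` with `s₁ • y'` integral over `M` (instance `Algebra M F'` := via `B`, or restate with `eval₂`), hence over `M'`
   (`IsIntegral.tower_top`-like, by hand: map the monic polynomial by `φ`), hence `= algebraMap M' F' m₁` (`IsIntegrallyClosed.isIntegral_iff`).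
6. `g = algebraMap M B a / algebraMap M B s₂`, `s₂ ∉ 𝔮` (`IsLocalization.mk'_surjective`/`IsLocalization.surj`) and `a ∈ 𝔮` (since `g s₂ = a` lies in `𝔪_B`, 2.).
7. in `F'` : `φ(s₁ s₂) y = s₁ s₂ g y' = a (s₁ y') = φ(a) m₁`; injectivity of `algebraMap M' F'` : `φ (s₁ * s₂) * y = φ a * m₁ ∈ 𝔮.map φ` (`Ideal.mem_map_of_mem`, `Ideal.mul_mem_right`); `s₁ s₂ ∉ 𝔮` (prime).
-/

set_option autoImplicit false

open Polynomial IsLocalRing

namespace Fermat.Agent.S36.Unr

theorem unr_glue {M M' F F' : Type*} [CommRing M] [IsDomain M] [CommRing M'] [IsDomain M']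
    [Field F] [Field F'] [Algebra M F] [IsFractionRing M F] [Algebra M' F'] [IsFractionRing M' F']
    [IsIntegrallyClosed M'] [Algebra F F'] (φ : M →+* M')
    (hφ : ∀ f, algebraMap M' F' (φ f) = algebraMap F F' (algebraMap M F f))
    (hint : φ.IsIntegral) (𝔮 : Ideal M) [𝔮.IsPrime]
    (B : Type*) [CommRing B] [IsDomain B] [IsDiscreteValuationRing B] [Algebra M B]
    [IsLocalization.AtPrime B 𝔮] [Algebra B F] [IsScalarTower M B F] [Algebra B F']
    [IsScalarTower B F F']
    (hcore : ∀ g : B, Irreducible g → ∀ y w : F', IsIntegral B y → IsIntegral B w →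
      y ^ 2 = g • w → ∃ y' : F', IsIntegral B y' ∧ y = g • y')
    (y : M') (hy : y ^ 2 ∈ 𝔮.map φ) : ∃ s, s ∉ 𝔮 ∧ φ s * y ∈ 𝔮.map φ := by
  obtain ⟨g, hg⟩ := IsDiscreteValuationRing.exists_irreducible B
  have hmax : maximalIdeal B = Ideal.span {g} := hg.maximalIdeal_eq
  have hcomp : ∀ f : M, algebraMap M' F' (φ f) = algebraMap B F' (algebraMap M B f) := by
    intro f
    rw [hφ, IsScalarTower.algebraMap_apply M B F, ← IsScalarTower.algebraMap_apply B F F']
  have hcomp' : (algebraMap M' F').comp φ = (algebraMap B F').comp (algebraMap M B) :=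
    RingHom.ext hcomp
  -- step 1
  have h1 : ∀ m : M', IsIntegral B (algebraMap M' F' m) := by
    intro m
    obtain ⟨p, hpm, hp⟩ := hint m
    refine ⟨p.map (algebraMap M B), hpm.map _, ?_⟩
    rw [eval₂_map, ← hcomp', ← hom_eval₂, hp, map_zero]
  -- step 2
  have h2 : ∀ q ∈ 𝔮, ∃ b : B, algebraMap M B q = g * b := by
    intro q hq
    have : algebraMap M B q ∈ maximalIdeal B :=
      (IsLocalization.AtPrime.to_map_mem_maximal_iff B 𝔮 q).mpr hq
    rw [hmax, Ideal.mem_span_singleton] at this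
    exact this
  -- step 3
  have h3 : ∀ x ∈ 𝔮.map φ, ∃ w : F', IsIntegral B w ∧ algebraMap M' F' x = g • w := by
    intro x hx
    refine Submodule.span_induction (p := fun x _ => ∃ w : F', IsIntegral B w ∧
      algebraMap M' F' x = g • w) ?_ ?_ ?_ ?_ hx
    · rintro _ ⟨q, hq, rfl⟩
      obtain ⟨b, hb⟩ := h2 q hq
      exact ⟨algebraMap B F' b, isIntegral_algebraMap, by
        rw [hcomp, hb, map_mul, Algebra.smul_def]⟩
    · exact ⟨0, isIntegral_zero, by simp⟩
    · rintro a b _ _ ⟨w, hw, hw'⟩ ⟨w₂, hw₂, hw₂'⟩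
      exact ⟨w + w₂, hw.add hw₂, by rw [map_add, hw', hw₂', smul_add]⟩
    · rintro a b _ ⟨w, hw, hw'⟩
      exact ⟨algebraMap M' F' a * w, (h1 a).mul hw, by
        rw [smul_eq_mul, map_mul, hw', mul_smul_comm]⟩
  obtain ⟨w, hw, hw'⟩ := h3 _ hy
  -- step 4
  obtain ⟨y', hy', hyy'⟩ := hcore g hg (algebraMap M' F' y) w (h1 y) hw (by rw [← map_pow, hw'])
  -- step 5
  let _ : Algebra M F' := ((algebraMap B F').comp (algebraMap M B)).toAlgebra
  have htower : IsScalarTower M B F' := IsScalarTower.of_algebraMap_eq (fun _ => rfl)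
  obtain ⟨s₁, hs₁⟩ := IsIntegral.exists_multiple_integral_of_isLocalization 𝔮.primeCompl y' hy'
  have hs₁' : (s₁ • y' : F') = algebraMap B F' (algebraMap M B (s₁ : M)) * y' := by
    rw [Submonoid.smul_def, Algebra.smul_def]
    rfl
  have h5 : IsIntegral M' (s₁ • y' : F') := by
    obtain ⟨p, hpm, hp⟩ := hs₁
    refine ⟨p.map φ, hpm.map _, ?_⟩
    rw [eval₂_map, hcomp']
    exact hp
  obtain ⟨m₁, hm₁⟩ := IsIntegrallyClosed.isIntegral_iff.mp h5
  -- step 6
  obtain ⟨⟨a, s₂⟩, has⟩ := IsLocalization.surj 𝔮.primeCompl g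
  have has' : g * algebraMap M B (s₂ : M) = algebraMap M B a := has
  have ha : a ∈ 𝔮 := by
    rw [← IsLocalization.AtPrime.to_map_mem_maximal_iff B 𝔮 a, ← has', hmax]
    exact Ideal.mul_mem_right _ _ (Ideal.mem_span_singleton_self g)
  -- step 7
  refine ⟨(s₁ : M) * (s₂ : M), ?_, ?_⟩
  · intro h
    rcases (inferInstance : 𝔮.IsPrime).mem_or_mem h with h | h
    · exact s₁.2 h
    · exact s₂.2 h
  · have heq : φ ((s₁ : M) * (s₂ : M)) * y = φ a * m₁ := by
      apply IsFractionRing.injective M' F'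
      simp only [map_mul]
      rw [hcomp, hcomp, hcomp, hm₁, hs₁', hyy', ← has', Algebra.smul_def, map_mul]
      ring
    rw [heq]
    exact Ideal.mul_mem_right _ _ (Ideal.mem_map_of_mem φ ha)

end Fermat.Agent.S36.Unr
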