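import Mathlib

/-!
# S36 / Unr / Horiz : the local ring of a normal arithmetic surface at a horizontal prime is a discrete valuation ring

`A` a discrete valuation ring with uniformiser `π`, `M` a noetherian integrally closed domain, integral over `A[X]` (via `ψ`, injective).
`𝔮 ≠ ⊥` a prime of `M` with `π ∉ 𝔮`.  Then `M_𝔮` is a discrete valuation ring.

PROOFS.
* `horiz_poly` (no chain `⊥ < 𝔭 < 𝔮` of primes of `A[X]` with `C π ∉ 𝔮`):  `K := FractionRing A`, `S := (nonZeroDivisors A).map C` and `K[X]` is the localization of `A[X]` at `S`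
  (`Polynomial.isLocalization (nonZeroDivisors A) K`).  `𝔮` is disjoint from `S`: `a ≠ 0` is `unit * π ^ n` (`IsDiscreteValuationRing.associated_pow_irreducible`), so `C a ∈ 𝔮` would give `C π ∈ 𝔮`
  (`Ideal.IsPrime.mem_of_pow_mem`; `C unit` is a unit) (if `n = 0`: `1 ∈ 𝔮`).  So is `𝔭`.  `IsLocalization.isPrime_of_isPrime_disjoint`, `IsLocalization.comap_map_of_isPrime_disjoint`: `𝔭 K[X]`, `𝔮 K[X]` are primes,
  `𝔭 K[X] ≠ ⊥` (its comap is `𝔭 ≠ ⊥`), `𝔭 K[X] ≤ 𝔮 K[X]`; `K[X]` is a PID: `𝔭 K[X]` is maximal (`IsPrime.to_maximal_ideal` / `Ideal.IsPrime.isMaximal`), so `𝔭 K[X] = 𝔮 K[X]` and, taking comaps, `𝔭 = 𝔮`.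
* `horiz_height` : `𝔭 ≤ 𝔮` primes of `M`, `𝔭 ≠ ⊥`.  If `𝔭 ≠ 𝔮`: `𝔭.comap ψ < 𝔮.comap ψ` (`Ideal.comap_lt_comap_of_integral_mem_sdiff`, with `Algebra A[X] M := ψ.toAlgebra`), `𝔭.comap ψ ≠ ⊥`
  (`Ideal.comap_ne_bot_of_integral_mem` / `Ideal.exists_coeff_ne_zero_mem_comap_of_root_mem`; uses `hinj`), `C π ∉ 𝔮.comap ψ`: contradiction with `horiz_poly`.
* `horiz_dvr` : `B` is local (`IsLocalization.AtPrime.isLocalRing B 𝔮`), noetherian (`IsLocalization.isNoetherianRing`), integrally closed (`IsIntegrallyClosed.of_isLocalization` / `isIntegrallyClosed_of_isLocalization`),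
  not a field (`𝔮 ≠ ⊥`: `IsLocalization.AtPrime.not_isField`), and every nonzero prime of `B` is the maximal ideal (`IsLocalization.orderIsoOfPrime` / `IsLocalization.AtPrime.orderIsoOfPrime`,
  `horiz_height`).  Conclude with `IsDiscreteValuationRing.TFAE B hnotfield` (item `IsIntegrallyClosed R ∧ ∃! P, P ≠ ⊥ ∧ P.IsPrime`), or: `Ring.DimensionLEOne` + `IsDedekindDomain` +
  `IsLocalRing` ⟹ DVR (`((IsDiscreteValuationRing.TFAE B h).out 0 2)`).
-/

set_option autoImplicit false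

open Polynomial

namespace Fermat.Agent.S36.Unr

variable {A : Type*} [CommRing A] [IsDomain A] [IsDiscreteValuationRing A]

attribute [local instance] Polynomial.algebra in
theorem horiz_poly (π : A) (hπ : Irreducible π) (𝔭 𝔮 : Ideal A[X]) [𝔭.IsPrime] [𝔮.IsPrime]
    (h0 : 𝔭 ≠ ⊥) (hle : 𝔭 ≤ 𝔮) (hπq : C π ∉ 𝔮) : 𝔭 = 𝔮 := by
  have hloc : IsLocalization ((nonZeroDivisors A).map (C : A →+* A[X])) (FractionRing A)[X] :=
    Polynomial.isLocalization (nonZeroDivisors A) (FractionRing A)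
  have hdq : Disjoint (((nonZeroDivisors A).map (C : A →+* A[X]) : Submonoid A[X]) : Set A[X])
      (𝔮 : Set A[X]) := by
    rw [Set.disjoint_left]
    rintro _ ⟨a, ha, rfl⟩ hmem
    have ha0 : a ≠ 0 := nonZeroDivisors.ne_zero ha
    obtain ⟨n, hn⟩ := IsDiscreteValuationRing.associated_pow_irreducible ha0 hπ
    obtain ⟨u, hu⟩ := hn
    have h1 : C (π ^ n) ∈ 𝔮 := by
      rw [← hu, C_mul]
      exact 𝔮.mul_mem_right _ hmem
    rw [C_pow] at h1
    exact hπq (Ideal.IsPrime.mem_of_pow_mem inferInstance n h1)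
  have hdp : Disjoint (((nonZeroDivisors A).map (C : A →+* A[X]) : Submonoid A[X]) : Set A[X])
      (𝔭 : Set A[X]) := Set.disjoint_of_subset_right hle hdq
  have hP := IsLocalization.isPrime_of_isPrime_disjoint _ (FractionRing A)[X] 𝔭 inferInstance hdp
  have hQ := IsLocalization.isPrime_of_isPrime_disjoint _ (FractionRing A)[X] 𝔮 inferInstance hdq
  have hcp := IsLocalization.under_map_of_isPrime_disjoint _ (FractionRing A)[X]
    (inferInstance : 𝔭.IsPrime) hdp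
  have hcq := IsLocalization.under_map_of_isPrime_disjoint _ (FractionRing A)[X]
    (inferInstance : 𝔮.IsPrime) hdq
  have hP0 : Ideal.map (algebraMap A[X] (FractionRing A)[X]) 𝔭 ≠ ⊥ := by
    intro h
    apply h0
    rw [Ideal.map_eq_bot_iff_le_ker] at h
    rw [eq_bot_iff]
    intro x hx
    have := h hx
    rw [RingHom.mem_ker] at this
    have hinj : Function.Injective (algebraMap A[X] (FractionRing A)[X]) :=
      Polynomial.map_injective _ (IsFractionRing.injective A (FractionRing A))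
    exact (map_eq_zero_iff _ hinj).mp this
  have hmax : (Ideal.map (algebraMap A[X] (FractionRing A)[X]) 𝔭).IsMaximal :=
    hP.isMaximal hP0
  have heq : Ideal.map (algebraMap A[X] (FractionRing A)[X]) 𝔭
      = Ideal.map (algebraMap A[X] (FractionRing A)[X]) 𝔮 :=
    hmax.eq_of_le hQ.ne_top (Ideal.map_mono hle)
  rw [← hcp, ← hcq, heq]

variable {M : Type*} [CommRing M] [IsDomain M]

theorem horiz_height (π : A) (hπ : Irreducible π) (ψ : A[X] →+* M) (hψ : ψ.IsIntegral)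
    (hinj : Function.Injective ψ) (𝔭 𝔮 : Ideal M) [𝔭.IsPrime] [𝔮.IsPrime]
    (h0 : 𝔭 ≠ ⊥) (hle : 𝔭 ≤ 𝔮) (hπq : ψ (C π) ∉ 𝔮) : 𝔭 = 𝔮 := by
  by_contra hne
  let _ : Algebra A[X] M := ψ.toAlgebra
  have hlt : 𝔭 < 𝔮 := lt_of_le_of_ne hle hne
  obtain ⟨x, hxq, hxp⟩ := SetLike.exists_of_lt hlt
  have h1 : 𝔭.comap ψ < 𝔮.comap ψ :=
    Ideal.comap_lt_comap_of_integral_mem_sdiff hle ⟨hxq, hxp⟩ (hψ x)
  obtain ⟨z, hz, hz0⟩ := Submodule.exists_mem_ne_zero_of_ne_bot h0
  have h2 : 𝔭.comap ψ ≠ ⊥ := Ideal.comap_ne_bot_of_integral_mem hz0 hz (hψ z)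
  have h3 := horiz_poly π hπ (𝔭.comap ψ) (𝔮.comap ψ) h2 h1.le hπq
  exact h1.ne h3

theorem horiz_dvr [IsNoetherianRing M] [IsIntegrallyClosed M] (π : A) (hπ : Irreducible π)
    (ψ : A[X] →+* M) (hψ : ψ.IsIntegral) (hinj : Function.Injective ψ)
    (𝔮 : Ideal M) [𝔮.IsPrime] (h0 : 𝔮 ≠ ⊥) (hπq : ψ (C π) ∉ 𝔮)
    (B : Type*) [CommRing B] [IsDomain B] [Algebra M B] [IsLocalization.AtPrime B 𝔮] :
    IsDiscreteValuationRing B := by
  have hloc : IsLocalRing B := IsLocalization.AtPrime.isLocalRing B 𝔮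
  have hnoeth : IsNoetherianRing B := IsLocalization.isNoetherianRing 𝔮.primeCompl B inferInstance
  have hic : IsIntegrallyClosed B :=
    isIntegrallyClosed_of_isLocalization B 𝔮.primeCompl 𝔮.primeCompl_le_nonZeroDivisors
  have hnf : ¬ IsField B := IsLocalization.AtPrime.not_isField M h0 B
  have hmax0 : IsLocalRing.maximalIdeal B ≠ ⊥ := IsLocalRing.isField_iff_maximalIdeal_eq.not.mp hnf
  have huniq : ∃! P : Ideal B, P ≠ ⊥ ∧ P.IsPrime := by
    refine ⟨IsLocalRing.maximalIdeal B, ⟨hmax0, inferInstance⟩, ?_⟩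
    rintro P ⟨hP0, hPp⟩
    have hmc : Ideal.map (algebraMap M B) (P.comap (algebraMap M B)) = P :=
      IsLocalization.map_under 𝔮.primeCompl B P
    have hp : (P.comap (algebraMap M B)).IsPrime := Ideal.comap_isPrime _ P
    have hp0 : P.comap (algebraMap M B) ≠ ⊥ := by
      intro h
      rw [h, Ideal.map_bot] at hmc
      exact hP0 hmc.symm
    have hle : P.comap (algebraMap M B) ≤ 𝔮 := by
      intro x hx
      by_contra hxq
      have hu : IsUnit (algebraMap M B x) := IsLocalization.map_units B (⟨x, hxq⟩ : 𝔮.primeCompl)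
      exact hPp.ne_top (Ideal.eq_top_of_isUnit_mem _ hx hu)
    have heq := horiz_height π hπ ψ hψ hinj (P.comap (algebraMap M B)) 𝔮 hp0 hle hπq
    rw [← hmc, heq]
    exact IsLocalization.AtPrime.map_eq_maximalIdeal 𝔮 B
  have htfae := (IsDiscreteValuationRing.TFAE B hnf).out 0 3
  exact htfae.mpr ⟨hic, huniq⟩

end Fermat.Agent.S36.Unr
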