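import Fermat.Agent.S36.Unr.NonCusp
import Fermat.Agent.S36.Unr.Cusp
import Fermat.Agent.S36.Unr.Horiz
import Fermat.Agent.S36.Unr.Glue

/-!
# S36 / Unr / Final : the two unramifiedness statements `R.Tower.unr1`, `R.Tower.unr2` for charts of `F_K(N1) ⊆ F_K(N2)`
-/

set_option autoImplicit false

open ModularCurve UpperHalfPlane Polynomial IsLocalRing
open scoped MatrixGroups IntermediateField

namespace Fermat.Agent.S36.Unr

open Fermat.Agent.S24 Fermat.Agent.Crux.GT.PF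

section DVR

variable {K : Type} [Field K] [Algebra K Kb] {N1 N2 : ℕ} [NeZero N1] [NeZero N2]
variable [Algebra (FK K N1) (FK K N2)]
  (hincl : ∀ f : FK K N1, ((algebraMap (FK K N1) (FK K N2) f : FK K N2) : LaurentSeries K)
    = (f : LaurentSeries K))
variable {B : Type*} [CommRing B] [IsDomain B] [IsDiscreteValuationRing B] [Algebra B (FK K N1)]
  [IsFractionRing B (FK K N1)] [Algebra B (FK K N2)] [IsScalarTower B (FK K N1) (FK K N2)]

omit [NeZero N1] [Algebra K Kb] in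
/-- `j ∈ B` or `1/j ∈ 𝔪_B`. -/
theorem j_dichotomy :
    (∃ jB : B, algebraMap B (FK K N1) jB = jK K N1) ∨
      ∃ tB : B, algebraMap B (FK K N1) tB = (jK K N1)⁻¹ ∧ tB ∈ maximalIdeal B := by
  by_cases h : ∃ jB : B, algebraMap B (FK K N1) jB = jK K N1
  · exact Or.inl h
  · right
    rcases ValuationRing.isInteger_or_isInteger B (jK K N1) with ⟨b, hb⟩ | ⟨b, hb⟩
    · exact absurd ⟨b, hb⟩ h
    · refine ⟨b, hb, ?_⟩
      rw [mem_maximalIdeal, mem_nonunits_iff]
      intro hu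
      obtain ⟨c, hc⟩ := hu.exists_right_inv
      apply h
      refine ⟨c, ?_⟩
      have h1 : algebraMap B (FK K N1) b * algebraMap B (FK K N1) c = 1 := by
        rw [← map_mul, hc, map_one]
      rw [hb] at h1
      have hj : jK K N1 ≠ 0 := by
        intro h0
        rw [h0, inv_zero, zero_mul] at h1
        exact zero_ne_one h1
      field_simp at h1
      exact h1

include hincl in
/-- (Unr), DVR form, at a point where some `j_d` is regular. -/
theorem core_unr_nc (h12 : N1 ∣ N2) (h49 : 4 ∣ N1 ∨ 9 ∣ N1)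
    (hchar : ∀ n : ℕ, n ≠ 0 → IsUnit (n : B))
    (d : ℕ) [NeZero d] (hd : d ∣ N1) (rB : B) (hrB : algebraMap B (FK K N1) rB = jdK K N1 d hd)
    (g : B) (hg : Irreducible g) (y w : FK K N2) (hy : IsIntegral B y) (hw : IsIntegral B w)
    (hyw : y ^ 2 = g • w) :
    ∃ y' : FK K N2, IsIntegral B y' ∧ y = g • y' := by
  rcases j_dichotomy (K := K) (N1 := N1) (B := B) with ⟨jB, hjB⟩ | ⟨tB, htB, htm⟩
  · exact core_nonCusp hincl h12 h49 hchar jB hjB g hg y w hy hw hyw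
  · exact core_cusp_vac hincl h12 hchar tB htB htm d hd rB hrB g hg y w hy hw hyw

include hincl in
/-- (Unr), DVR form, at a point of type `∞`. -/
theorem core_unr_inf (N l : ℕ) (hl : l.Prime) (hcop : Nat.Coprime N l) (h1 : N1 = N * l)
    (h2 : N2 = N * l * l) (h49 : 4 ∣ N1 ∨ 9 ∣ N1) (hchar : ∀ n : ℕ, n ≠ 0 → IsUnit (n : B))
    (d' : ℕ) [NeZero d'] [NeZero (l * d')] (hd : l * d' ∣ N1) (rB : B)
    (hrB : algebraMap B (FK K N1) rB * jdK K N1 (l * d') hd
      = jdK K N1 d' ((Dvd.intro_left l rfl).trans hd) ^ l)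
    (g : B) (hg : Irreducible g) (y w : FK K N2) (hy : IsIntegral B y) (hw : IsIntegral B w)
    (hyw : y ^ 2 = g • w) :
    ∃ y' : FK K N2, IsIntegral B y' ∧ y = g • y' := by
  rcases j_dichotomy (K := K) (N1 := N1) (B := B) with ⟨jB, hjB⟩ | ⟨tB, htB, htm⟩
  · exact core_nonCusp hincl (by rw [h1, h2]; exact Dvd.intro _ rfl) h49 hchar jB hjB g hg y w hy hw
      hyw
  · exact core_cusp_inf hincl N l hl hcop h1 h2 hchar tB htB htm d' hd rB hrB g hg y w hy hw hyw

end DVR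

section Chart

universe u

/-- reduction of the ideal form to the DVR form (`Horiz` + `Glue`). -/
theorem unr_chart {M : Type u} {M' F F' A : Type*} [CommRing M] [IsDomain M] [CommRing M']
    [IsDomain M'] [Field F] [Field F'] [Algebra M F] [IsFractionRing M F] [Algebra M' F']
    [IsFractionRing M' F'] [IsNoetherianRing M] [IsIntegrallyClosed M] [IsIntegrallyClosed M']
    [Algebra F F'] (φ : M →+* M')
    (hφ : ∀ f, algebraMap M' F' (φ f) = algebraMap F F' (algebraMap M F f))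
    (hint : φ.IsIntegral)
    [CommRing A] [IsDomain A] [IsDiscreteValuationRing A] (π : A) (hπ : Irreducible π)
    (ψ : A[X] →+* M) (hψ : ψ.IsIntegral) (hψi : Function.Injective ψ)
    (hchar : ∀ n : ℕ, n ≠ 0 → ∃ k, (n : M) ∣ ψ (C π) ^ k)
    (𝔮 : Ideal M) [𝔮.IsPrime] (hπ𝔮 : ψ (C π) ∉ 𝔮)
    (hcore : ∀ (B : Type u) [CommRing B] [IsDomain B] [IsDiscreteValuationRing B] [Algebra M B]
      [IsLocalization.AtPrime B 𝔮] [Algebra B F] [IsScalarTower M B F] [IsFractionRing B F]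
      [Algebra B F'] [IsScalarTower B F F'], (∀ n : ℕ, n ≠ 0 → IsUnit (n : B)) →
      ∀ g : B, Irreducible g → ∀ y w : F', IsIntegral B y → IsIntegral B w →
        y ^ 2 = g • w → ∃ y' : F', IsIntegral B y' ∧ y = g • y')
    (y : M') (hy : y ^ 2 ∈ 𝔮.map φ) : ∃ s, s ∉ 𝔮 ∧ φ s * y ∈ 𝔮.map φ := by
  by_cases h0 : 𝔮 = ⊥
  · subst h0
    rw [Ideal.map_bot, Ideal.mem_bot] at hy
    have hy0 : y = 0 := by simpa using hy
    refine ⟨1, ?_, ?_⟩
    · rw [Ideal.mem_bot]; exact one_ne_zero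
    · rw [hy0, mul_zero]; exact Ideal.zero_mem _
  · let B := Localization.AtPrime 𝔮
    have hle : 𝔮.primeCompl ≤ nonZeroDivisors M := 𝔮.primeCompl_le_nonZeroDivisors
    have hunit : ∀ s : 𝔮.primeCompl, IsUnit (algebraMap M F (s : M)) := by
      intro s
      refine IsUnit.mk0 _ ?_
      rw [Ne, map_eq_zero_iff _ (IsFractionRing.injective M F)]
      exact nonZeroDivisors.ne_zero (hle s.2)
    letI : Algebra B F := (IsLocalization.lift (M := 𝔮.primeCompl) (S := B) hunit).toAlgebra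
    haveI : IsScalarTower M B F := IsScalarTower.of_algebraMap_eq fun x =>
      (IsLocalization.lift_eq (M := 𝔮.primeCompl) (S := B) hunit x).symm
    haveI : IsFractionRing B F :=
      IsFractionRing.isFractionRing_of_isDomain_of_isLocalization 𝔮.primeCompl B F
    letI : Algebra B F' := ((algebraMap F F').comp (algebraMap B F)).toAlgebra
    haveI : IsScalarTower B F F' := IsScalarTower.of_algebraMap_eq fun _ => rfl
    haveI : IsDiscreteValuationRing B := horiz_dvr π hπ ψ hψ hψi 𝔮 h0 hπ𝔮 B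
    have hcharB : ∀ n : ℕ, n ≠ 0 → IsUnit (n : B) := by
      intro n hn
      obtain ⟨k, hk⟩ := hchar n hn
      have hnq : (n : M) ∉ 𝔮 := by
        intro hmem
        exact hπ𝔮 (Ideal.IsPrime.mem_of_pow_mem inferInstance k (Ideal.mem_of_dvd 𝔮 hk hmem))
      have := IsLocalization.map_units B (⟨(n : M), hnq⟩ : 𝔮.primeCompl)
      simpa using this
    exact unr_glue φ hφ hint 𝔮 B (hcore B hcharB) y hy

end Chart

section Final

variable {K : Type} [Field K] [Algebra K Kb] {N1 N2 : ℕ} [NeZero N1] [NeZero N2]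
  (a : FK K N1 →+* FK K N2)
  (ha : ∀ f : FK K N1, ((a f : FK K N2) : LaurentSeries K) = (f : LaurentSeries K))
  (M : Subring (FK K N1)) (M' : Subring (FK K N2))
  [IsNoetherianRing M] [IsIntegrallyClosed M] [IsFractionRing M (FK K N1)]
  [IsIntegrallyClosed M'] [IsFractionRing M' (FK K N2)]
  (φ : M →+* M') (hφ : ∀ f : M, ((φ f : M') : FK K N2) = a (f : FK K N1)) (hint : φ.IsIntegral)
  {A : Type*} [CommRing A] [IsDomain A] [IsDiscreteValuationRing A] (π : A) (hπ : Irreducible π)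
  (ψ : A[X] →+* M) (hψ : ψ.IsIntegral) (hψi : Function.Injective ψ)
  (hchar : ∀ n : ℕ, n ≠ 0 → ∃ k, (n : M) ∣ ψ (C π) ^ k)

/-- an element `x` of the fraction field with `s x = r`, `s ∉ 𝔮`, lies in the localisation. -/
theorem exists_loc {M F B : Type*} [CommRing M] [Field F] [Algebra M F] [CommRing B] [Algebra M B]
    [Algebra B F] [IsScalarTower M B F] (𝔮 : Ideal M) [𝔮.IsPrime] [IsLocalization.AtPrime B 𝔮]
    (s r : M) (hs : s ∉ 𝔮) (x : F) (h : algebraMap M F s * x = algebraMap M F r) :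
    ∃ b : B, algebraMap B F b = x := by
  have hu : IsUnit (algebraMap M B s) := IsLocalization.map_units B (⟨s, hs⟩ : 𝔮.primeCompl)
  obtain ⟨c, hc⟩ := hu.exists_left_inv
  refine ⟨c * algebraMap M B r, ?_⟩
  have h1 : algebraMap B F c * algebraMap M F s = 1 := by
    rw [IsScalarTower.algebraMap_apply M B F, ← map_mul, hc, map_one]
  rw [map_mul, ← IsScalarTower.algebraMap_apply, ← h, ← mul_assoc, h1, one_mul]

include ha hφ hint hπ hψ hψi hchar in
/-- **(Unr), ideal form, at a horizontal prime where some `j_d` is regular** (`= R.Tower.unr1`, and `unr2` away from the cusps). -/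
theorem unr_final_nc (h12 : N1 ∣ N2) (h49 : 4 ∣ N1 ∨ 9 ∣ N1)
    (𝔮 : Ideal M) (h𝔮 : 𝔮.IsPrime) (hπ𝔮 : ψ (C π) ∉ 𝔮)
    (d : ℕ) [NeZero d] (hd : d ∣ N1) (s r : M) (hs : s ∉ 𝔮)
    (hsr : (s : FK K N1) * jdK K N1 d hd = (r : FK K N1))
    (y : M') (hy : y ^ 2 ∈ 𝔮.map φ) : ∃ s, s ∉ 𝔮 ∧ φ s * y ∈ 𝔮.map φ := by
  letI : Algebra (FK K N1) (FK K N2) := a.toAlgebra
  refine unr_chart (F := FK K N1) (F' := FK K N2) φ hφ hint π hπ ψ hψ hψi hchar 𝔮 hπ𝔮 ?_ y hy
  intro B _ _ _ _ _ _ _ _ _ _ hcharB g hg y w hy hw hyw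
  obtain ⟨rB, hrB⟩ := exists_loc (B := B) 𝔮 s r hs (jdK K N1 d hd) hsr
  exact core_unr_nc ha h12 h49 hcharB d hd rB hrB g hg y w hy hw hyw

include ha hφ hint hπ hψ hψi hchar in
/-- **(Unr), ideal form, at a horizontal prime of type `∞`** (`= R.Tower.unr2` at the cusps). -/
theorem unr_final_inf (N l : ℕ) (hl : l.Prime) (hcop : Nat.Coprime N l) (h1 : N1 = N * l)
    (h2 : N2 = N * l * l) (h49 : 4 ∣ N1 ∨ 9 ∣ N1)
    (𝔮 : Ideal M) (h𝔮 : 𝔮.IsPrime) (hπ𝔮 : ψ (C π) ∉ 𝔮)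
    (d' : ℕ) [NeZero d'] [NeZero (l * d')] (hd : l * d' ∣ N1) (s r : M) (hs : s ∉ 𝔮)
    (hsr : (s : FK K N1) * jdK K N1 d' ((Dvd.intro_left l rfl).trans hd) ^ l
      = (r : FK K N1) * jdK K N1 (l * d') hd)
    (y : M') (hy : y ^ 2 ∈ 𝔮.map φ) : ∃ s, s ∉ 𝔮 ∧ φ s * y ∈ 𝔮.map φ := by
  letI : Algebra (FK K N1) (FK K N2) := a.toAlgebra
  refine unr_chart (F := FK K N1) (F' := FK K N2) φ hφ hint π hπ ψ hψ hψi hchar 𝔮 hπ𝔮 ?_ y hy
  intro B _ _ _ _ _ _ _ _ _ _ hcharB g hg y w hy hw hyw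
  have hj0 : jdK K N1 (l * d') hd ≠ 0 := by
    intro h0
    have h3 : qExpand K (l * d') (jqModC K) = 0 := congrArg Subtype.val h0
    have h4 : jqModC K = 0 := (map_eq_zero (qExpand K (l * d'))).1 h3
    exact S28.transcendental_jqModC K (h4 ▸ isAlgebraic_zero)
  obtain ⟨rB, hrB⟩ := exists_loc (B := B) 𝔮 s r hs
    (jdK K N1 d' ((Dvd.intro_left l rfl).trans hd) ^ l / jdK K N1 (l * d') hd) (by
      show (s : FK K N1) * _ = (r : FK K N1)
      rw [← mul_div_assoc, hsr, mul_div_assoc, div_self hj0, mul_one])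
  exact core_unr_inf ha N l hl hcop h1 h2 h49 hcharB d' hd rB
    (by rw [hrB, div_mul_cancel₀ _ hj0]) g hg y w hy hw hyw

end Final

end Fermat.Agent.S36.Unr
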