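import Fermat.Agent.S36.Unr.Final
import Fermat.Agent.S36.Mod.Key

/-!
# S36 / Unr / Inst : `unr_final_nc`, `unr_final_inf` for the charts `M_i = (Mx A F_i t).toSubring` of a `QData`

`F0 = F_K(N)`, `F1 = F_K(N l)`, `F2 = F_K(N l l)`; `S.a0`, `S.al` are the inclusions (`ha0`, `hal`).
-/

set_option autoImplicit false

open Polynomial

namespace Fermat.Agent.S36.Unr

open Fermat.Agent.Crux.G Fermat.Agent.Crux.G.QLink Fermat.Agent.S36.Val Fermat.Agent.S36.R
  Fermat.Agent.S36.Mod Fermat.Agent.S24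

section Mx

variable {A E F : Type*} [CommRing A] [Field E] [Field F] [Algebra A E] [Algebra E F] [Algebra A F]
  [IsScalarTower A E F]

/-- `A[X] → M(t)`, `X ↦ t`. -/
noncomputable def psiMx (A : Type*) {E : Type*} (F : Type*) [CommRing A] [Field E] [Field F]
    [Algebra A E] [Algebra E F] [Algebra A F] [IsScalarTower A E F] (t : E) :
    A[X] →+* (Mx A F t).toSubring :=
  ((algebraMap E F).comp ((aeval t : A[X] →ₐ[A] E) : A[X] →+* E)).codRestrict _ fun p => by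
    letI := algL (A := A) F t
    exact (isIntegral_algebraMap : IsIntegral A[X] (algebraMap A[X] F p))

theorem coe_psiMx (t : E) (p : A[X]) :
    ((psiMx A F t p : (Mx A F t).toSubring) : F) = algebraMap E F (aeval t p) := rfl

theorem psiMx_isIntegral (t : E) : (psiMx A F t).IsIntegral := by
  intro y
  obtain ⟨p, hp, hpy⟩ := y.2
  refine ⟨p, hp, ?_⟩
  apply Subtype.val_injective
  have h := Polynomial.hom_eval₂ p (psiMx A F t) (Mx A F t).toSubring.subtype y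
  rw [show ((Mx A F t).toSubring.subtype (eval₂ (psiMx A F t) y p))
    = ((eval₂ (psiMx A F t) y p : (Mx A F t).toSubring) : F) from rfl] at h
  rw [h]
  exact hpy

theorem psiMx_injective {t : E} (ht : Transcendental A t) : Function.Injective (psiMx A F t) := by
  rw [injective_iff_map_eq_zero]
  intro p hp
  have h1 : algebraMap E F (aeval t p) = 0 := congrArg Subtype.val hp
  rw [map_eq_zero] at h1
  exact (transcendental_iff.1 ht) p h1

end Mx

variable {l N : ℕ} [NeZero N] [NeZero l] {K : Type} [Field K] [Algebra K Kb]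
    {Ω O κ Ω1 O1 ι μ : Type*} [Field Ω] [CommRing O] [Field κ] [Field Ω1] [CommRing O1] [Fintype ι]
    [Fintype μ]
variable {A E : Type*} [CommRing A] [IsDomain A] [IsDiscreteValuationRing A] [Field E] [CharZero E]
    [Algebra A E] [Algebra E (FK K N)] [Algebra E (FK K (N * l))] [Algebra E (FK K (N * l * l))]
    [Algebra A (FK K N)] [Algebra A (FK K (N * l))] [Algebra A (FK K (N * l * l))]
    [IsScalarTower A E (FK K N)] [IsScalarTower A E (FK K (N * l))]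
    [IsScalarTower A E (FK K (N * l * l))]
    [FiniteDimensional E (FK K N)] [FiniteDimensional E (FK K (N * l))]
    [FiniteDimensional E (FK K (N * l * l))]
variable {S : Setup l K (FK K N) (FK K (N * l)) (FK K (N * l * l)) Ω O κ Ω1 O1 ι μ} {i₀ : ι}
    {b0 : FK K N →+* FK K (N * l)} {w1 : FK K (N * l) →+* FK K (N * l)}
    {w2 : FK K (N * l * l) →+* FK K (N * l * l)} {π : A} {t : E} (D : QData S i₀ b0 w1 w2 π t)

include D in
theorem psiMx_pi0 : psiMx A (FK K N) t (C π) = D.chart.pi := by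
  apply Subtype.ext
  rw [coe_psiMx, aeval_C, ← IsScalarTower.algebraMap_apply, D.chart.coe_pi, D.cst_π]

include D in
theorem psiMx_pi1 : psiMx A (FK K (N * l)) t (C π) = D.chart.α D.chart.pi := by
  apply Subtype.ext
  rw [coe_psiMx, aeval_C, D.chart.coe_α, D.chart.coe_pi, D.cst_π,
    IsScalarTower.algebraMap_apply A E (FK K N), D.a0_E]

/-- `unr1` at a horizontal prime where some `j_d` is regular. -/
theorem unr1_of (ha0 : ∀ f : FK K N, ((S.a0 f : FK K (N * l)) : LaurentSeries K) = f)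
    (h49 : 4 ∣ N ∨ 9 ∣ N)
    (𝔮 : Ideal (Mx A (FK K N) t).toSubring) (h𝔮 : 𝔮.IsPrime) (hπ𝔮 : D.chart.pi ∉ 𝔮)
    (d : ℕ) [NeZero d] (hd : d ∣ N) (s r : (Mx A (FK K N) t).toSubring) (hs : s ∉ 𝔮)
    (hsr : (s : FK K N) * jdK K N d hd = (r : FK K N))
    (y : (Mx A (FK K (N * l)) t).toSubring) (hy : y ^ 2 ∈ 𝔮.map D.chart.α) :
    ∃ s, s ∉ 𝔮 ∧ D.chart.α s * y ∈ 𝔮.map D.chart.α := by
  haveI := Mx_isNoetherianRing (F := FK K N) D.ht D.hgen
  haveI := Mx_isIntegrallyClosed (F := FK K N) D.ht D.hgen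
  haveI := Mx_isIntegrallyClosed (F := FK K (N * l)) D.ht D.hgen
  haveI := Mx_isFractionRing (F := FK K N) D.ht D.hgen
  haveI := Mx_isFractionRing (F := FK K (N * l)) D.ht D.hgen
  refine unr_final_nc S.a0 ha0 _ _ D.chart.α (fun f => D.chart.coe_α f)
    D.α_fin.to_isIntegral π D.hπ (psiMx A (FK K N) t) (psiMx_isIntegral t)
    (psiMx_injective D.ht) ?_ (Dvd.intro _ rfl) h49 𝔮 h𝔮 ?_ d hd s r hs hsr y hy
  · intro n hn
    rw [psiMx_pi0 D]
    exact D.chart.hchar' n hn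
  · rw [psiMx_pi0 D]
    exact hπ𝔮

/-- `unr2` at a horizontal prime where some `j_d` is regular. -/
theorem unr2_of_nc (hal : ∀ f : FK K (N * l), ((S.al f : FK K (N * l * l)) : LaurentSeries K) = f)
    (h49 : 4 ∣ N ∨ 9 ∣ N)
    (𝔮 : Ideal (Mx A (FK K (N * l)) t).toSubring) (h𝔮 : 𝔮.IsPrime)
    (hπ𝔮 : D.chart.α D.chart.pi ∉ 𝔮)
    (d : ℕ) [NeZero d] (hd : d ∣ N * l) (s r : (Mx A (FK K (N * l)) t).toSubring) (hs : s ∉ 𝔮)
    (hsr : (s : FK K (N * l)) * jdK K (N * l) d hd = (r : FK K (N * l)))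
    (y : (Mx A (FK K (N * l * l)) t).toSubring) (hy : y ^ 2 ∈ 𝔮.map D.chart.p1) :
    ∃ s, s ∉ 𝔮 ∧ D.chart.p1 s * y ∈ 𝔮.map D.chart.p1 := by
  haveI := Mx_isNoetherianRing (F := FK K (N * l)) D.ht D.hgen
  haveI := Mx_isIntegrallyClosed (F := FK K (N * l)) D.ht D.hgen
  haveI := Mx_isIntegrallyClosed (F := FK K (N * l * l)) D.ht D.hgen
  haveI := Mx_isFractionRing (F := FK K (N * l)) D.ht D.hgen
  haveI := Mx_isFractionRing (F := FK K (N * l * l)) D.ht D.hgen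
  refine unr_final_nc S.al hal _ _ D.chart.p1 (fun f => D.chart.coe_p1 f)
    D.p1_fin.to_isIntegral π D.hπ (psiMx A (FK K (N * l)) t) (psiMx_isIntegral t)
    (psiMx_injective D.ht) ?_ (Dvd.intro _ rfl)
    (h49.imp (fun h => h.mul_right l) (fun h => h.mul_right l)) 𝔮 h𝔮 ?_ d hd s r hs hsr y hy
  · intro n hn
    rw [psiMx_pi1 D]
    obtain ⟨k, u, hu⟩ := D.chart.hchar' n hn
    refine ⟨k, D.chart.α u, ?_⟩
    rw [← map_pow, hu, map_mul, map_natCast]
  · rw [psiMx_pi1 D]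
    exact hπ𝔮

/-- `unr2` at a horizontal prime of type `∞`. -/
theorem unr2_of_inf (hl : l.Prime) (hcop : Nat.Coprime N l)
    (hal : ∀ f : FK K (N * l), ((S.al f : FK K (N * l * l)) : LaurentSeries K) = f)
    (h49 : 4 ∣ N ∨ 9 ∣ N)
    (𝔮 : Ideal (Mx A (FK K (N * l)) t).toSubring) (h𝔮 : 𝔮.IsPrime)
    (hπ𝔮 : D.chart.α D.chart.pi ∉ 𝔮)
    (d' : ℕ) [NeZero d'] [NeZero (l * d')] (hd : l * d' ∣ N * l)
    (s r : (Mx A (FK K (N * l)) t).toSubring) (hs : s ∉ 𝔮)
    (hsr : (s : FK K (N * l)) * jdK K (N * l) d' ((Dvd.intro_left l rfl).trans hd) ^ l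
      = (r : FK K (N * l)) * jdK K (N * l) (l * d') hd)
    (y : (Mx A (FK K (N * l * l)) t).toSubring) (hy : y ^ 2 ∈ 𝔮.map D.chart.p1) :
    ∃ s, s ∉ 𝔮 ∧ D.chart.p1 s * y ∈ 𝔮.map D.chart.p1 := by
  haveI := Mx_isNoetherianRing (F := FK K (N * l)) D.ht D.hgen
  haveI := Mx_isIntegrallyClosed (F := FK K (N * l)) D.ht D.hgen
  haveI := Mx_isIntegrallyClosed (F := FK K (N * l * l)) D.ht D.hgen
  haveI := Mx_isFractionRing (F := FK K (N * l)) D.ht D.hgen
  haveI := Mx_isFractionRing (F := FK K (N * l * l)) D.ht D.hgen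
  refine unr_final_inf S.al hal _ _ D.chart.p1 (fun f => D.chart.coe_p1 f)
    D.p1_fin.to_isIntegral π D.hπ (psiMx A (FK K (N * l)) t) (psiMx_isIntegral t)
    (psiMx_injective D.ht) ?_ N l hl hcop rfl rfl
    (h49.imp (fun h => h.mul_right l) (fun h => h.mul_right l)) 𝔮 h𝔮 ?_ d' hd s r hs hsr y hy
  · intro n hn
    rw [psiMx_pi1 D]
    obtain ⟨k, u, hu⟩ := D.chart.hchar' n hn
    refine ⟨k, D.chart.α u, ?_⟩
    rw [← map_pow, hu, map_mul, map_natCast]
  · rw [psiMx_pi1 D]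
    exact hπ𝔮

end Fermat.Agent.S36.Unr
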