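import Fermat.Agent.Crux.GM.Unram

/-!
# S36 / Unr / Line : a discrete valuation ring of a function field, seen from the line `K(t)`

SETTING.  `K` a field, algebraic over `ℚ`;  `F1 ⊇ K(t)` algebraic;  `B` a discrete valuation ring with `Frac B = F1`, of residue characteristic `0`
(`hchar`), with `t ∈ B` (`tB`).  (Application: `F1 = F_K(N)`, `t = j` or `t = 1/j`, `B` = local ring of a closed point of the generic fibre.)

* `line_const`      : `K ⊆ B`.      [`c : K` is algebraic over `ℚ`, so integral over `ℚ`; `ℚ ⊆ B` by `hchar`: clear the denominators: `c` is a root of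
                       `G ∈ ℤ[X]` with leading coefficient `n ≠ 0`, a unit of `B`, so `c` is integral over `B`; `IsIntegrallyClosed.isIntegral_iff`.]
* `line_aeval`      : `K[t] ⊆ B`    (`Polynomial.induction_on`).
* `line_exists_g0`  : some monic irreducible `g0 ∈ K[X]` has `g0(t) ∈ 𝔪_B`.
                      [Otherwise every `p(t)`, `p ≠ 0`... more precisely every nonzero element of `K[t]` is a unit of `B`, so `K(t) ⊆ B`
                       (`IntermediateField.mem_adjoin_simple_iff`), every `y : F1` is integral over the field `K(t)`, hence over `B`, so `y ∈ B`: `B` is a field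
                       (`IsDiscreteValuationRing.not_isField`; `IsFractionRing`: `algebraMap B F1` would be surjective).  So some `p ≠ 0` has `p(t) ∈ 𝔪_B`, `p(t)`
                       possibly `0`; factor `p` (`UniqueFactorizationMonoid.induction_on_prime` or `Polynomial.exists_irreducible_of_degree_pos`+ induction on the degree): `𝔪_B` is prime;
                       normalise (`g0 * C (leadingCoeff)⁻¹`).]
* `line_unit`       : `g0 ∤ p` ⟹ `p(t)` is a unit of `B` (Bezout: `a p + b g0 = 1`, `a(t) p(t) ∈ 1 + 𝔪_B`).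
* `line_cmp`, `line_order` : `ι0 : K(t) → 𝕂((T))` with `ι0 = C ∘ θ` on `K`, `ι0 t = υ`, `ord (υ - c0) > 0`, `g0^θ(c0) = 0`.  Then
     `ι0 (p(t)) = p^θ(υ)` (`Polynomial.induction_on`/`ringHom_ext`), a series of order `≥ 0` with constant coefficient `p^θ(c0)` (see `GM.UnramAux.order_eval₂_nonneg`,
     `GM.UnramAux.order_pos_add_C` and the end of the proof of `GM.unram_of_packs`);
     `g0 ∤ p` ⟹ `p^θ(c0) ≠ 0` (Bezout) ⟹ `ord = 0`;  `g0^θ = (X - c0) g1`, `g1(c0) ≠ 0` (`g0` irreducible in char. 0 ⟹ separable, `Separable.map`) ⟹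
     `ord (ι0 (g0(t))) = ord (υ - c0)` (`line_order`).
     `line_cmp`: `e = r(t)/s(t)`, `r = g0^m r'`, `s = g0^n s'` (`g0 ∤ r', s'`; `WfDvdMonoid.max_power_factor`/`Polynomial.exists_eq_pow_rootMultiplicity..`): in `B`, `e = unit * g0(t)^(m-n)`, and `e ∈ 𝔪_B` forces `m > n`
     (`g0(t)` is a nonzero nonunit ... if `g0(t) = 0` then `t` is algebraic and the statement is still true but this case does not occur: `hg00`); then `ord (ι0 e) = (m - n) ord (ι0 (g0 t)) > 0`.
* `line_alg`        : the residue field of `B` is algebraic over `ℚ`, in the form needed by `Unr.core`.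
     [`κ := IsLocalRing.ResidueField B` (char. 0 by `hchar`), `L := algebraicClosure ℚ κ` (algebraically closed in `κ`).  (i) the residue of (the element of `B` representing) `c : K` lies in `L`;
      (ii) the residue of `tB` is a root of the monic polynomial `g0` with coefficients in `L`: lies in `L`; so residues of all `p(t)` lie in `L`;
      (iii) `b : B` is algebraic over `K(t)`: `∑ a_i(t) b^i = 0`, `a_i ∈ K[X]` not all `0`; divide by the largest common power of `g0` (`g0(t) ≠ 0`): some `a_i` is prime to `g0`, so `a_i(t)` is a unit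
      (`line_unit`): the residue of `b` is a root of a nonzero polynomial over `L`: lies in `L`;  (iv) `IsAlgebraic ℚ (res b)` ⟹ `G ∈ ℤ[X]`, `G ≠ 0`, `aeval (res b) G = 0` (`IsAlgebraic` over `ℤ`:
      `IsFractionRing.isAlgebraic_iff ℤ ℚ κ`), i.e. `aeval b G ∈ 𝔪_B` (`IsLocalRing.residue_eq_zero_iff`, `Polynomial.aeval_algHom_apply`/`hom_eval₂`).]
-/

set_option autoImplicit false

open Polynomial IsLocalRing
open scoped IntermediateField

namespace Fermat.Agent.S36.Unr

variable {K F1 : Type*} [Field K] [CharZero K] [Algebra.IsAlgebraic ℚ K] [Field F1] [Algebra K F1]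
variable {B : Type*} [CommRing B] [IsDomain B] [IsDiscreteValuationRing B] [Algebra B F1]
  [IsFractionRing B F1]

omit [IsDomain B] [IsDiscreteValuationRing B] in
private theorem LineA_int_unit (hchar : ∀ n : ℕ, n ≠ 0 → IsUnit (n : B)) (n : ℤ) (hn : n ≠ 0) :
    IsUnit (n : B) := by
  have h := hchar n.natAbs (Int.natAbs_ne_zero.2 hn)
  rcases Int.natAbs_eq n with h1 | h1
  · rw [h1, Int.cast_natCast]
    exact h
  · rw [h1, Int.cast_neg, Int.cast_natCast]
    exact h.neg

theorem line_const (hchar : ∀ n : ℕ, n ≠ 0 → IsUnit (n : B)) (c : K) :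
    ∃ b : B, algebraMap B F1 b = algebraMap K F1 c := by
  have halg : IsAlgebraic ℤ c :=
    (IsFractionRing.isAlgebraic_iff ℤ ℚ K).2 (Algebra.IsAlgebraic.isAlgebraic c)
  obtain ⟨G, hG0, hG⟩ := halg
  have hG' : aeval (algebraMap K F1 c) G = 0 := by
    rw [aeval_algebraMap_apply, hG, map_zero]
  have h1 : IsIntegral B (G.leadingCoeff • algebraMap K F1 c) :=
    (isIntegral_leadingCoeff_smul G _ hG').tower_top
  obtain ⟨u, hu⟩ := LineA_int_unit hchar G.leadingCoeff (leadingCoeff_ne_zero.2 hG0)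
  have h2 : IsIntegral B ((↑u⁻¹ : B) • (G.leadingCoeff • algebraMap K F1 c)) := h1.smul _
  have h3 : (↑u⁻¹ : B) • (G.leadingCoeff • algebraMap K F1 c) = algebraMap K F1 c := by
    rw [← Int.cast_smul_eq_zsmul B, ← hu, smul_smul, Units.inv_mul, one_smul]
  rw [h3] at h2
  exact IsIntegrallyClosed.isIntegral_iff.1 h2

/-- `K ⊆ B` as a ring homomorphism. -/
private theorem LineA_exists_hom (hchar : ∀ n : ℕ, n ≠ 0 → IsUnit (n : B)) :
    ∃ κ : K →+* B, (algebraMap B F1).comp κ = algebraMap K F1 := by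
  have hinj := IsFractionRing.injective B F1
  choose κ hκ using fun c : K => line_const (F1 := F1) hchar c
  refine ⟨{ toFun := κ
            map_one' := hinj (by rw [hκ, map_one, map_one])
            map_mul' := fun a b => hinj (by rw [hκ, map_mul, map_mul, hκ, hκ])
            map_zero' := hinj (by rw [hκ, map_zero, map_zero])
            map_add' := fun a b => hinj (by rw [hκ, map_add, map_add, hκ, hκ]) }, ?_⟩
  ext c
  exact hκ c

omit [CharZero K] [Algebra.IsAlgebraic ℚ K] [IsDomain B] [IsDiscreteValuationRing B]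
  [IsFractionRing B F1] in
private theorem LineA_map_eval₂ {κ : K →+* B} (hκ : (algebraMap B F1).comp κ = algebraMap K F1)
    (tB : B) (p : K[X]) :
    algebraMap B F1 (eval₂ κ tB p) = aeval (algebraMap B F1 tB) p := by
  rw [hom_eval₂, hκ, aeval_def]

theorem line_aeval (hchar : ∀ n : ℕ, n ≠ 0 → IsUnit (n : B)) (tB : B) (p : K[X]) :
    ∃ b : B, algebraMap B F1 b = aeval (algebraMap B F1 tB) p := by
  obtain ⟨κ, hκ⟩ := LineA_exists_hom (K := K) (F1 := F1) hchar
  exact ⟨eval₂ κ tB p, LineA_map_eval₂ hκ tB p⟩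

theorem line_exists_g0 (hchar : ∀ n : ℕ, n ≠ 0 → IsUnit (n : B)) (tB : B)
    [Algebra.IsAlgebraic K⟮algebraMap B F1 tB⟯ F1] :
    ∃ g0 : K[X], g0.Monic ∧ Irreducible g0 ∧
      ∃ b ∈ maximalIdeal B, algebraMap B F1 b = aeval (algebraMap B F1 tB) g0 := by
  obtain ⟨κ, hκ⟩ := LineA_exists_hom (K := K) (F1 := F1) hchar
  have hinj := IsFractionRing.injective B F1
  set β : K[X] →+* B := eval₂RingHom κ tB with hβ
  have hβmap : ∀ p, algebraMap B F1 (β p) = aeval (algebraMap B F1 tB) p :=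
    fun p => LineA_map_eval₂ hκ tB p
  set I : Ideal K[X] := (maximalIdeal B).comap β with hI
  have : I.IsPrime := Ideal.comap_isPrime β _
  have hIne : I ≠ ⊥ := by
    intro hbot
    -- every nonzero `p(t)` is a unit
    have hunit : ∀ p : K[X], p ≠ 0 → IsUnit (β p) := by
      intro p hp
      by_contra hnu
      have : p ∈ I := (mem_maximalIdeal _).2 hnu
      rw [hbot, Ideal.mem_bot] at this
      exact hp this
    -- `K(t) ⊆ B`
    have hKt : ∀ x : K⟮algebraMap B F1 tB⟯,
        algebraMap K⟮algebraMap B F1 tB⟯ F1 x ∈ Set.range (algebraMap B F1) := by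
      intro x
      obtain ⟨r, s, hrs⟩ := (IntermediateField.mem_adjoin_simple_iff K _).1 x.2
      by_cases hs : s = 0
      · refine ⟨0, ?_⟩
        rw [map_zero]
        show (0 : F1) = (x : F1)
        rw [hrs, hs, map_zero, div_zero]
      · obtain ⟨u, hu⟩ := hunit s hs
        refine ⟨β r * ↑u⁻¹, ?_⟩
        show _ = (x : F1)
        have hs0 : aeval (algebraMap B F1 tB) s ≠ 0 := by
          rw [← hβmap, ← hu]
          intro h0
          exact u.ne_zero (hinj (by rw [h0, map_zero]))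
        rw [hrs, eq_div_iff hs0, ← hβmap s, ← hβmap r, ← map_mul, ← hu, mul_assoc, Units.inv_mul,
          mul_one]
    -- everything is integral over `B`
    have hall : ∀ y : F1, ∃ b : B, algebraMap B F1 b = y := by
      intro y
      obtain ⟨f, hfm, hf⟩ := Algebra.IsIntegral.isIntegral (R := K⟮algebraMap B F1 tB⟯) y
      have hl : f.map (algebraMap K⟮algebraMap B F1 tB⟯ F1) ∈ lifts (algebraMap B F1) := by
        rw [lifts_iff_coeff_lifts]
        intro n
        rw [coeff_map]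
        exact hKt _
      obtain ⟨q, hq, -, hqm⟩ := lifts_and_degree_eq_and_monic hl (hfm.map _)
      apply IsIntegrallyClosed.isIntegral_iff.1
      refine ⟨q, hqm, ?_⟩
      rw [← eval_map, hq, eval_map]
      exact hf
    obtain ⟨ϖ, hϖ⟩ := IsDiscreteValuationRing.exists_irreducible B
    obtain ⟨b, hb⟩ := hall (algebraMap B F1 ϖ)⁻¹
    have hϖ0 : algebraMap B F1 ϖ ≠ 0 := by
      intro h0
      exact hϖ.ne_zero (hinj (by rw [h0, map_zero]))
    apply hϖ.not_isUnit
    refine IsUnit.of_mul_eq_one b (hinj ?_)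
    rw [map_mul, hb, map_one, mul_inv_cancel₀ hϖ0]
  have hprime := Submodule.IsPrincipal.prime_generator_of_isPrime I hIne
  set g := Submodule.IsPrincipal.generator I with hg
  have hgI : g ∈ I := Submodule.IsPrincipal.generator_mem I
  refine ⟨g * C g.leadingCoeff⁻¹, monic_mul_leadingCoeff_inv hprime.ne_zero,
    irreducible_mul_leadingCoeff_inv.2 hprime.irreducible, β (g * C g.leadingCoeff⁻¹),
    I.mul_mem_right _ hgI, hβmap _⟩

theorem line_unit (hchar : ∀ n : ℕ, n ≠ 0 → IsUnit (n : B)) (tB : B)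
    (g0 : K[X]) (hirr : Irreducible g0) (b0 : B) (hb0 : b0 ∈ maximalIdeal B)
    (hb0g : algebraMap B F1 b0 = aeval (algebraMap B F1 tB) g0)
    (p : K[X]) (hp : ¬ g0 ∣ p) (b : B) (hb : algebraMap B F1 b = aeval (algebraMap B F1 tB) p) :
    IsUnit b := by
  obtain ⟨κ, hκ⟩ := LineA_exists_hom (K := K) (F1 := F1) hchar
  have hinj := IsFractionRing.injective B F1
  obtain ⟨a, c, hac⟩ := (hirr.coprime_iff_not_dvd).2 hp
  have h1 : eval₂ κ tB g0 = b0 := hinj (by rw [LineA_map_eval₂ hκ, hb0g])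
  have h2 : eval₂ κ tB p = b := hinj (by rw [LineA_map_eval₂ hκ, hb])
  have h3 := congrArg (eval₂ κ tB) hac
  rw [eval₂_add, eval₂_mul, eval₂_mul, eval₂_one, h1, h2] at h3
  by_contra hnu
  have hbm : b ∈ maximalIdeal B := (mem_maximalIdeal _).2 hnu
  have h4 : (1 : B) ∈ maximalIdeal B := by
    rw [← h3]
    exact add_mem (Ideal.mul_mem_left _ _ hb0) (Ideal.mul_mem_left _ _ hbm)
  exact (Ideal.ne_top_iff_one _).1 (maximalIdeal.isMaximal B).ne_top h4

section Emb

variable {𝕂 : Type*} [Field 𝕂] (tB : B)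
  (ι0 : K⟮algebraMap B F1 tB⟯ →+* LaurentSeries 𝕂) (θ : K →+* 𝕂)
  (hθ : ∀ c : K, ι0 (algebraMap K _ c) = HahnSeries.C (θ c))
  (c0 : 𝕂)
  (hυ : 0 < (ι0 (IntermediateField.AdjoinSimple.gen K (algebraMap B F1 tB)) - HahnSeries.C c0).order)
  (g0 : K[X]) (hirr : Irreducible g0) (hroot : (g0.map θ).eval c0 = 0)

include hθ in
omit [CharZero K] [Algebra.IsAlgebraic ℚ K] [IsDomain B] [IsDiscreteValuationRing B]
  [IsFractionRing B F1] in
theorem line_iota_aeval (p : K[X]) :
    ι0 (aeval (IntermediateField.AdjoinSimple.gen K (algebraMap B F1 tB)) p)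
      = (p.map θ).eval₂ HahnSeries.C
          (ι0 (IntermediateField.AdjoinSimple.gen K (algebraMap B F1 tB))) := by
  have h : ι0.comp
      ((aeval (IntermediateField.AdjoinSimple.gen K (algebraMap B F1 tB)) :
        K[X] →ₐ[K] K⟮algebraMap B F1 tB⟯) : K[X] →+* K⟮algebraMap B F1 tB⟯)
      = (eval₂RingHom (HahnSeries.C : 𝕂 →+* LaurentSeries 𝕂)
          (ι0 (IntermediateField.AdjoinSimple.gen K (algebraMap B F1 tB)))).comp
          (mapRingHom θ) := by
    apply Polynomial.ringHom_ext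
    · intro u
      simp [hθ]
    · simp
  exact congrArg (fun f => f p) h

/-- (task Unr-Line-B) a polynomial in `υ ≡ c0` with `q(c0) ≠ 0` is a unit power series. -/
theorem lineB_order_eval₂ {υ : LaurentSeries 𝕂} {c0 : 𝕂}
    (hυ : 0 < (υ - HahnSeries.C c0).order) (q : 𝕂[X]) (hq : q.eval c0 ≠ 0) :
    q.eval₂ HahnSeries.C υ ≠ 0 ∧ (q.eval₂ HahnSeries.C υ).order = 0 := by
  have hυ0 : 0 ≤ υ.order := by
    have : υ = (υ - HahnSeries.C c0) + HahnSeries.C c0 := by ring
    rw [this]
    exact Fermat.Agent.Crux.G.Emb.order_add_ge (Or.inl le_rfl) hυ.le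
      (by rw [HahnSeries.order_C])
  have e := modByMonic_add_div q (X - C c0)
  rw [modByMonic_X_sub_C_eq_C_eval] at e
  have hP : Fermat.Agent.Crux.G.Emb.Pos
      ((q /ₘ (X - C c0)).eval₂ HahnSeries.C υ * (υ - HahnSeries.C c0)) :=
    Fermat.Agent.Crux.G.Emb.Pos.mul_left
      (Fermat.Agent.Crux.GM.UnramAux.order_eval₂_nonneg hυ0 _) (Or.inr hυ)
  have h1 : q.eval₂ HahnSeries.C υ
      = (q /ₘ (X - C c0)).eval₂ HahnSeries.C υ * (υ - HahnSeries.C c0)
        + HahnSeries.C (q.eval c0) := by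
    conv_lhs => rw [← e]
    rw [eval₂_add, eval₂_C, eval₂_mul, eval₂_sub, eval₂_X, eval₂_C]
    ring
  rw [h1]
  refine ⟨fun h0 => ?_, Fermat.Agent.Crux.GM.UnramAux.order_pos_add_C hP hq⟩
  have h2 : (q /ₘ (X - C c0)).eval₂ HahnSeries.C υ * (υ - HahnSeries.C c0)
      = HahnSeries.C (-(q.eval c0)) := by
    rw [map_neg]
    exact eq_neg_of_add_eq_zero_left h0
  rw [h2] at hP
  rcases hP with hP | hP
  · rw [map_eq_zero, neg_eq_zero] at hP
    exact hq hP
  · rw [HahnSeries.order_C] at hP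
    omega

/-- (task Unr-Line-B) `g0 ∤ p` ⟹ `p^θ(c0) ≠ 0`. -/
theorem lineB_eval_ne_zero {K 𝕂 : Type*} [Field K] [Field 𝕂] (θ : K →+* 𝕂) (c0 : 𝕂) (g0 : K[X])
    (hirr : Irreducible g0) (hroot : (g0.map θ).eval c0 = 0) (p : K[X]) (hp : ¬ g0 ∣ p) :
    (p.map θ).eval c0 ≠ 0 := by
  obtain ⟨a, b, hab⟩ := (hirr.coprime_iff_not_dvd).mpr hp
  intro h0
  have h1 := congrArg (fun f : K[X] => (f.map θ).eval c0) hab
  simp only [Polynomial.map_add, Polynomial.map_mul, eval_add, eval_mul, hroot, h0, mul_zero,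
    add_zero, Polynomial.map_one, eval_one] at h1
  exact zero_ne_one h1

include hθ hυ hirr hroot in
omit [Algebra.IsAlgebraic ℚ K] [IsDomain B] [IsDiscreteValuationRing B] [IsFractionRing B F1] in
theorem line_order :
    (ι0 (aeval (IntermediateField.AdjoinSimple.gen K (algebraMap B F1 tB)) g0)).order
      = (ι0 (IntermediateField.AdjoinSimple.gen K (algebraMap B F1 tB)) - HahnSeries.C c0).order := by
  rw [line_iota_aeval tB ι0 θ hθ]
  have hsep : (g0.map θ).Separable := hirr.separable.map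
  obtain ⟨g₁, hg₁⟩ := dvd_iff_isRoot.mpr (show IsRoot (g0.map θ) c0 from hroot)
  have hg₁c : g₁.eval c0 ≠ 0 := by
    intro h0
    obtain ⟨g₂, hg₂⟩ := dvd_iff_isRoot.mpr h0
    have : (X - C c0) * (X - C c0) ∣ g0.map θ := ⟨g₂, by rw [hg₁, hg₂, mul_assoc]⟩
    exact not_isUnit_X_sub_C c0 (hsep.squarefree _ this)
  obtain ⟨n2, h2⟩ := lineB_order_eval₂ hυ g₁ hg₁c
  have n1 : ι0 (IntermediateField.AdjoinSimple.gen K (algebraMap B F1 tB)) - HahnSeries.C c0
      ≠ 0 := by
    intro h
    rw [h, HahnSeries.order_zero] at hυ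
    exact lt_irrefl _ hυ
  rw [hg₁, eval₂_mul, eval₂_sub, eval₂_X, eval₂_C, HahnSeries.order_mul n1 n2, h2, add_zero]

include hθ hυ hirr hroot in
theorem line_cmp (hchar : ∀ n : ℕ, n ≠ 0 → IsUnit (n : B))
    (b0 : B) (hb0 : b0 ∈ maximalIdeal B)
    (hb0g : algebraMap B F1 b0 = aeval (algebraMap B F1 tB) g0)
    (e : K⟮algebraMap B F1 tB⟯) (b : B)
    (hbe : algebraMap B F1 b = algebraMap K⟮algebraMap B F1 tB⟯ F1 e)
    (hb : b ∈ maximalIdeal B) (hb00 : b ≠ 0) : 0 < (ι0 e).order := by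
  classical
  have hinjB : Function.Injective (algebraMap B F1) := IsFractionRing.injective B F1
  have hinjE : Function.Injective (algebraMap K⟮algebraMap B F1 tB⟯ F1) := (algebraMap K⟮algebraMap B F1 tB⟯ F1).injective
  have hγt : ∀ p : K[X], algebraMap K⟮algebraMap B F1 tB⟯ F1 (aeval (IntermediateField.AdjoinSimple.gen K (algebraMap B F1 tB)) p) = aeval (algebraMap B F1 tB) p := by
    intro p
    rw [← aeval_algebraMap_apply, IntermediateField.AdjoinSimple.algebraMap_gen]
  have he0 : e ≠ 0 := by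
    rintro rfl
    rw [map_zero] at hbe
    exact hb00 (hinjB (by rw [hbe, map_zero]))
  obtain ⟨r, s, hrs⟩ := IntermediateField.mem_adjoin_simple_iff K (e : F1) |>.mp e.2
  have heF : (e : F1) ≠ 0 := by
    intro h
    exact he0 (Subtype.ext h)
  have hs0 : aeval (algebraMap B F1 tB) s ≠ 0 := by
    intro h
    rw [h, div_zero] at hrs
    exact heF hrs
  have hr0 : aeval (algebraMap B F1 tB) r ≠ 0 := by
    intro h
    rw [h, zero_div] at hrs
    exact heF hrs
  have hr : r ≠ 0 := by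
    rintro rfl
    exact hr0 (map_zero _)
  have hs : s ≠ 0 := by
    rintro rfl
    exact hs0 (map_zero _)
  obtain ⟨m, r', hr', hrm⟩ := WfDvdMonoid.max_power_factor hr hirr
  obtain ⟨n, s', hs', hsn⟩ := WfDvdMonoid.max_power_factor hs hirr
  -- the relation in `F1`
  have hrel : (e : F1) * aeval (algebraMap B F1 tB) s = aeval (algebraMap B F1 tB) r := by
    rw [hrs, div_mul_cancel₀ _ hs0]
  -- `m > n`
  obtain ⟨br, hbr⟩ := line_aeval (K := K) (F1 := F1) hchar tB r'
  obtain ⟨bs, hbs⟩ := line_aeval (K := K) (F1 := F1) hchar tB s'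
  have ubr : IsUnit br := line_unit hchar tB g0 hirr b0 hb0 hb0g r' hr' br hbr
  have ubs : IsUnit bs := line_unit hchar tB g0 hirr b0 hb0 hb0g s' hs' bs hbs
  have hrelB : b * (b0 ^ n * bs) = b0 ^ m * br := by
    apply hinjB
    rw [map_mul, map_mul, map_mul, map_pow, map_pow, hbe, hb0g, hbr, hbs, ← map_pow, ← map_pow,
      ← map_mul, ← map_mul, ← hsn, ← hrm]
    exact hrel
  have hb0m : b0 ^ m ≠ 0 := by
    intro h
    apply hr0
    rw [hrm, map_mul, map_pow, ← hb0g, ← map_pow, h, map_zero, zero_mul]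
  have hmn : n < m := by
    by_contra hle
    rw [not_lt] at hle
    obtain ⟨k, rfl⟩ := Nat.exists_eq_add_of_le hle
    have h1 : b0 ^ m * (b * (b0 ^ k * bs)) = b0 ^ m * br := by
      rw [← hrelB, pow_add]; ring
    have h2 := mul_left_cancel₀ hb0m h1
    have h3 : IsUnit b := isUnit_of_mul_isUnit_left (h2 ▸ ubr)
    exact (IsLocalRing.mem_maximalIdeal b).mp hb h3
  obtain ⟨k, rfl⟩ := Nat.exists_eq_add_of_lt hmn
  -- the relation in `K(t)`
  have hG0 : aeval (IntermediateField.AdjoinSimple.gen K (algebraMap B F1 tB)) g0 ^ n ≠ 0 := by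
    intro h
    apply hs0
    rw [← hγt, hsn, map_mul, map_pow, h, zero_mul, map_zero]
  have hrelE : e * aeval (IntermediateField.AdjoinSimple.gen K (algebraMap B F1 tB)) s' = aeval (IntermediateField.AdjoinSimple.gen K (algebraMap B F1 tB)) g0 ^ (k + 1) * aeval (IntermediateField.AdjoinSimple.gen K (algebraMap B F1 tB)) r' := by
    have h1 : e * aeval (IntermediateField.AdjoinSimple.gen K (algebraMap B F1 tB)) s = aeval (IntermediateField.AdjoinSimple.gen K (algebraMap B F1 tB)) r := by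
      apply hinjE
      rw [map_mul, hγt, hγt]
      exact hrel
    rw [hsn, hrm, map_mul, map_mul, map_pow, map_pow] at h1
    apply mul_left_cancel₀ hG0
    rw [show n + k + 1 = n + (k + 1) from by ring, pow_add] at h1
    linear_combination h1
  have hrelι := congrArg ι0 hrelE
  rw [map_mul, map_mul, map_pow] at hrelι
  obtain ⟨ns, os⟩ : ι0 (aeval (IntermediateField.AdjoinSimple.gen K (algebraMap B F1 tB)) s') ≠ 0 ∧ (ι0 (aeval (IntermediateField.AdjoinSimple.gen K (algebraMap B F1 tB)) s')).order = 0 := by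
    rw [line_iota_aeval tB ι0 θ hθ]
    exact lineB_order_eval₂ hυ _ (lineB_eval_ne_zero θ c0 g0 hirr hroot s' hs')
  obtain ⟨nr, or⟩ : ι0 (aeval (IntermediateField.AdjoinSimple.gen K (algebraMap B F1 tB)) r') ≠ 0 ∧ (ι0 (aeval (IntermediateField.AdjoinSimple.gen K (algebraMap B F1 tB)) r')).order = 0 := by
    rw [line_iota_aeval tB ι0 θ hθ]
    exact lineB_order_eval₂ hυ _ (lineB_eval_ne_zero θ c0 g0 hirr hroot r' hr')
  have oG : 0 < (ι0 (aeval (IntermediateField.AdjoinSimple.gen K (algebraMap B F1 tB)) g0)).order := by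
    rw [line_order tB ι0 θ hθ c0 hυ g0 hirr hroot]
    exact hυ
  have nG : ι0 (aeval (IntermediateField.AdjoinSimple.gen K (algebraMap B F1 tB)) g0) ≠ 0 := by
    intro h
    rw [h, HahnSeries.order_zero] at oG
    exact lt_irrefl _ oG
  have ne : ι0 e ≠ 0 := by
    rw [Ne, map_eq_zero]
    exact he0
  have hord := congrArg HahnSeries.order hrelι
  rw [HahnSeries.order_mul ne ns, HahnSeries.order_mul (pow_ne_zero _ nG) nr, os, or, add_zero,
    add_zero, HahnSeries.order_pow] at hord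
  rw [hord]
  positivity

end Emb

open scoped IntermediateField.algebraAdjoinAdjoin in
private theorem line_alg_aux1 {K F1 : Type*} [Field K] [Field F1] [Algebra K F1] (t y : F1)
    (h : IsAlgebraic K⟮t⟯ y) :
    ∃ Q : K[X][X], Q ≠ 0 ∧ Q.eval₂ ((aeval t : K[X] →ₐ[K] F1) : K[X] →+* F1) y = 0 := by
  have h1 : IsAlgebraic (Algebra.adjoin K {t}) y :=
    (IsFractionRing.isAlgebraic_iff (Algebra.adjoin K {t}) K⟮t⟯ F1).2 h
  obtain ⟨P, hP, hPy⟩ := h1
  let t' : Algebra.adjoin K {t} := ⟨t, Algebra.self_mem_adjoin_singleton K t⟩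
  let φ : K[X] →ₐ[K] Algebra.adjoin K {t} := aeval t'
  have hφ : ∀ p, algebraMap (Algebra.adjoin K {t}) F1 (φ p) = aeval t p := fun p => by
    rw [← Polynomial.aeval_algebraMap_apply]
    rfl
  have hsurj : Function.Surjective (φ : K[X] →+* Algebra.adjoin K {t}) := by
    rintro ⟨z, hz⟩
    have hz' := hz
    rw [Algebra.adjoin_singleton_eq_range_aeval] at hz'
    obtain ⟨p, rfl⟩ := hz'
    exact ⟨p, Subtype.ext (hφ p)⟩
  obtain ⟨Q, rfl⟩ := Polynomial.map_surjective _ hsurj P
  refine ⟨Q, fun h0 => hP (by rw [h0, Polynomial.map_zero]), ?_⟩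
  rw [aeval_def, eval₂_map] at hPy
  have hc : (algebraMap (Algebra.adjoin K {t}) F1).comp (φ : K[X] →+* Algebra.adjoin K {t})
      = ((aeval t : K[X] →ₐ[K] F1) : K[X] →+* F1) := RingHom.ext hφ
  rw [hc] at hPy
  exact hPy

private theorem line_alg_aux2 {K κ : Type*} [Field K] [Field κ] [Algebra K κ] (τ β : κ)
    (g0 : K[X]) (hmon : g0.Monic) (hτ : aeval τ g0 = 0) (Q : K[X][X])
    (hQ : Q.eval₂ ((aeval τ : K[X] →ₐ[K] κ) : K[X] →+* κ) β = 0) (i : ℕ)
    (hi : aeval τ (Q.coeff i) ≠ 0) : IsAlgebraic K β := by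
  have hint : IsIntegral K τ := ⟨g0, hmon, by rwa [← aeval_def]⟩
  have : Algebra.IsAlgebraic K K⟮τ⟯ := IntermediateField.isAlgebraic_adjoin_simple hint
  let φ : K[X] →ₐ[K] K⟮τ⟯ := aeval (IntermediateField.AdjoinSimple.gen K τ)
  have hφ : ∀ p, algebraMap K⟮τ⟯ κ (φ p) = aeval τ p := fun p => by
    rw [← Polynomial.aeval_algebraMap_apply, IntermediateField.AdjoinSimple.algebraMap_gen]
  have h1 : IsAlgebraic K⟮τ⟯ β := by
    refine ⟨Q.map (φ : K[X] →+* K⟮τ⟯), ?_, ?_⟩
    · intro h0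
      apply hi
      have h2 := congrArg (fun P => algebraMap K⟮τ⟯ κ (P.coeff i)) h0
      simp only [coeff_map, coeff_zero, map_zero] at h2
      rw [← hφ]
      exact h2
    · rw [aeval_def, eval₂_map]
      have hc : (algebraMap K⟮τ⟯ κ).comp (φ : K[X] →+* K⟮τ⟯)
          = ((aeval τ : K[X] →ₐ[K] κ) : K[X] →+* κ) := RingHom.ext hφ
      rw [hc]
      exact hQ
  exact h1.restrictScalars K

private theorem line_alg_aux3 {K κ : Type*} [Field K] [CharZero K] [Algebra.IsAlgebraic ℚ K]
    [Field κ] [Algebra K κ] (β : κ) (h : IsAlgebraic K β) :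
    ∃ G : ℤ[X], G ≠ 0 ∧ G.eval₂ (Int.castRingHom κ) β = 0 := by
  have hZQ : Algebra.IsAlgebraic ℤ ℚ := IsLocalization.isAlgebraic ℚ (nonZeroDivisors ℤ)
  have hZK : Algebra.IsAlgebraic ℤ K := Algebra.IsAlgebraic.trans ℤ ℚ K
  have halgZ : IsAlgebraic ℤ β := h.restrictScalars ℤ
  obtain ⟨G, hG0, hG⟩ := halgZ
  exact ⟨G, hG0, hG⟩

theorem line_alg (hchar : ∀ n : ℕ, n ≠ 0 → IsUnit (n : B)) (tB : B)
    [Algebra.IsAlgebraic K⟮algebraMap B F1 tB⟯ F1]
    (g0 : K[X]) (hmon : g0.Monic) (hirr : Irreducible g0) (b0 : B) (hb0 : b0 ∈ maximalIdeal B)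
    (hb00 : b0 ≠ 0) (hb0g : algebraMap B F1 b0 = aeval (algebraMap B F1 tB) g0) (b : B) :
    ∃ G : ℤ[X], G ≠ 0 ∧ aeval b G ∈ maximalIdeal B := by
  have hinj : Function.Injective (algebraMap B F1) := IsFractionRing.injective B F1
  choose jf hjf using (fun c : K => line_const (F1 := F1) (B := B) hchar c)
  let jK : K →+* B :=
    { toFun := jf
      map_one' := hinj (by rw [hjf, map_one, map_one])
      map_mul' := fun x y => hinj (by rw [hjf, map_mul, map_mul, hjf, hjf])
      map_zero' := hinj (by rw [hjf, map_zero, map_zero])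
      map_add' := fun x y => hinj (by rw [hjf, map_add, map_add, hjf, hjf]) }
  let ψ : K[X] →+* B := eval₂RingHom jK tB
  have hcomp : (algebraMap B F1).comp jK = algebraMap K F1 := RingHom.ext hjf
  have hψ : ∀ p, algebraMap B F1 (ψ p) = aeval (algebraMap B F1 tB) p := by
    intro p
    show algebraMap B F1 (eval₂ jK tB p) = _
    rw [hom_eval₂, hcomp, aeval_def]
  -- a two variable relation
  obtain ⟨Q, hQ0, hQ⟩ := line_alg_aux1 (K := K) (algebraMap B F1 tB) (algebraMap B F1 b)
    (Algebra.IsAlgebraic.isAlgebraic _)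
  obtain ⟨n, Q', hQ', rfl⟩ := WfDvdMonoid.max_power_factor' hQ0 (x := (C g0 : K[X][X]))
    (by rw [isUnit_C]; exact hirr.not_isUnit)
  have hψg : ψ g0 = b0 := hinj (by rw [hψ, hb0g])
  have hQB : Q'.eval₂ ψ b = 0 := by
    have h1 : algebraMap B F1 (((C g0 : K[X][X]) ^ n * Q').eval₂ ψ b) = 0 := by
      rw [hom_eval₂]
      have hc : (algebraMap B F1).comp ψ
          = ((aeval (algebraMap B F1 tB) : K[X] →ₐ[K] F1) : K[X] →+* F1) := RingHom.ext hψ
      rw [hc]
      exact hQ
    have h2 := hinj (h1.trans (map_zero _).symm)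
    rw [eval₂_mul, eval₂_pow, eval₂_C, hψg] at h2
    exact (mul_eq_zero.1 h2).resolve_left (pow_ne_zero n hb00)
  obtain ⟨i, hi⟩ : ∃ i, ¬ g0 ∣ Q'.coeff i := by
    by_contra hcon
    push Not at hcon
    exact hQ' ((C_dvd_iff_dvd_coeff _ _).2 hcon)
  have hunit : IsUnit (ψ (Q'.coeff i)) :=
    line_unit hchar tB g0 hirr b0 hb0 hb0g _ hi _ (hψ _)
  -- the residue field
  let _ : Algebra K (ResidueField B) := ((residue B).comp jK).toAlgebra
  have hres : ((aeval (residue B tB) : K[X] →ₐ[K] ResidueField B) : K[X] →+* ResidueField B)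
      = (residue B).comp ψ := by
    apply Polynomial.ringHom_ext
    · intro c
      show aeval (residue B tB) (C c) = residue B (eval₂ jK tB (C c))
      rw [aeval_C, eval₂_C]
      rfl
    · show aeval (residue B tB) X = residue B (eval₂ jK tB X)
      rw [aeval_X, eval₂_X]
  have hres' : ∀ p : K[X], aeval (residue B tB) p = residue B (ψ p) :=
    fun p => congrArg (fun f : K[X] →+* ResidueField B => f p) hres
  have halgK : IsAlgebraic K (residue B b) := by
    refine line_alg_aux2 (residue B tB) (residue B b) g0 hmon ?_ Q' ?_ i ?_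
    · rw [hres', hψg]
      exact (residue_eq_zero_iff _).2 hb0
    · rw [hres, ← hom_eval₂, hQB, map_zero]
    · rw [hres']
      exact (hunit.map (residue B)).ne_zero
  obtain ⟨G, hG0, hG⟩ := line_alg_aux3 (residue B b) halgK
  refine ⟨G, hG0, ?_⟩
  rw [← residue_eq_zero_iff, ← hG, aeval_def, hom_eval₂]
  congr 1

end Fermat.Agent.S36.Unr
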