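import Fermat.Agent.S24.Packages
import Fermat.Agent.Crux.GT.PF.Deg
import Fermat.Agent.ES.Defs

/-!
# S36 / Unr / Pack : packages of embeddings for two levels `N1 ∣ N2`

`exists_pack` : `S24.exists_sigma` at level `N2`, together with
* the symmetry (`S24.Packages.core`) in the form `σ (γ₀ • a) f = twist ζ (σ a f)`;
* "the restriction to level `N1` only depends on, and determines, the coset modulo `Γ₀(N1)`".
`exists_packK` : the same after restriction to the `K`-form `F_K(N2) = modularFunctionFieldFullC K N2` along `β = GT.PF.beta`.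
-/

set_option autoImplicit false

open ModularCurve UpperHalfPlane
open scoped MatrixGroups

namespace Fermat.Agent.S36.Unr

open Fermat.Agent.S24 Fermat.Agent.S24.Packages Fermat.Agent.ES

variable (N1 N2 : ℕ) [NeZero N1] [NeZero N2]

theorem exists_pack (h12 : N1 ∣ N2)
    (dom : Subalgebra ℂ (ℍ → ℂ)) (L : dom →ₐ[ℂ] LaurentSeries ℂ) (hL : Function.Injective L)
    (hmem : ∀ (g : SL(2, ℤ)) (d : Dv N2), compInv g (jd d.1) ∈ dom) (hj : jfun ∈ dom) :
    ∃ σ : XN N2 → FN N2 →ₐ[Kb] LaurentSeries ℂ, Function.Injective σ ∧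
      (∀ (g : SL(2, ℤ)) (d : Dv N2),
        σ (g : XN N2) (jF N2 d.1 d.2) = L ⟨compInv g (jd d.1), hmem g d⟩) ∧
      (∀ a, σ a (jN N2) = L ⟨jfun, hj⟩) ∧
      (∀ (γ₀ : SL(2, ℤ)) (ζ : ℂˣ),
        (∀ (f : dom) (hf : compInv γ₀ (f : ℍ → ℂ) ∈ dom) (k : ℤ),
          (L ⟨compInv γ₀ (f : ℍ → ℂ), hf⟩).coeff k = (ζ : ℂ) ^ k * (L f).coeff k) →
        ∀ a f, σ (γ₀ • a) f = twist ζ (σ a f)) ∧
      (∀ g g' : SL(2, ℤ),
        (∀ d : Dv N1, σ (g : XN N2) (jF N2 d.1 (d.2.trans h12))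
          = σ (g' : XN N2) (jF N2 d.1 (d.2.trans h12))) → (g : XN N1) = (g' : XN N1)) := by
  obtain ⟨σ, hσ, hσg⟩ := exists_sigma N2 dom L hL hmem
  have hmem1 : ∀ (g : SL(2, ℤ)) (d : Dv N1), compInv g (jd d.1) ∈ dom :=
    fun g d => hmem g ⟨d.1, d.2.trans h12⟩
  obtain ⟨σ1, hσ1, hσ1g⟩ := exists_sigma N1 dom L hL hmem1
  refine ⟨σ, hσ, hσg, ?_, ?_, ?_⟩
  · intro a
    induction a using QuotientGroup.induction_on with
    | H g =>
      have h := hσg g ⟨1, one_dvd N2⟩
      have h2 : jN N2 = jF N2 1 (one_dvd N2) := rfl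
      rw [h2, h]
      refine congrArg L (Subtype.ext ?_)
      show compInv g (jd 1) = jfun
      rw [jd_one, compInv_jfun]
  · intro γ₀ ζ hζ a f
    induction a using QuotientGroup.induction_on with
    | H g =>
      have key : σ (γ₀ • (g : XN N2)) = (theta ζ).comp (σ (g : XN N2)) := by
        apply algHom_ext_FN
        intro d
        have h1 : γ₀ • (g : XN N2) = ((γ₀ * g : SL(2, ℤ)) : XN N2) := rfl
        rw [h1, hσg (γ₀ * g) d, AlgHom.comp_apply, hσg g d]
        ext k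
        rw [theta_coeff, ← hζ ⟨compInv g (jd d.1), hmem g d⟩
          (by rw [← compInv_mul]; exact hmem (γ₀ * g) d) k]
        refine congrArg (fun x => (L x).coeff k) (Subtype.ext ?_)
        exact compInv_mul γ₀ g (jd d.1)
      rw [key, AlgHom.comp_apply]
      ext k
      rw [theta_coeff, twist_coeff, Units.val_zpow_eq_zpow_val]
  · intro g g' h
    apply hσ1
    apply algHom_ext_FN
    intro d
    rw [hσ1g g d, hσ1g g' d]
    have h1 := h d
    rw [hσg g ⟨d.1, d.2.trans h12⟩, hσg g' ⟨d.1, d.2.trans h12⟩] at h1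
    exact h1

end Fermat.Agent.S36.Unr
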