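import Fermat.Agent.S36.Unr.Core
import Fermat.Agent.S36.Unr.Line
import Fermat.Agent.S36.Unr.Pack

/-!
# S36 / Unr / ModK : the core theorem for the modular function fields `F_K(N1) ⊆ F_K(N2)`

`K ⊆ ℚ̄`, `FK N = modularFunctionFieldFullC K N ⊆ K((q))`, `β = GT.PF.beta K N : FK N → FN N`.

PROOFS.
* `beta_jdK` : `Subtype.ext`; `beta_coe`; compare with the definition of `S24.jF` (see the proof of `GT.PF.beta_jK`, and `Norm.KForm.beta_dgK`: `coeffMap_qExpand`).
* `isAlgebraic_rat` : `isAlgebraic_algHom_iff ((algebraMap K Kb).toRatAlgHom) (injective)`, `Kb` is algebraic over `ℚ`.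
* `finrank_Kj` : `GT.PF.finrank_F0 K N2` is the statement for `K⟮jK K N2⟯`.  `algebraMap (FK K N1) (FK K N2) (jK K N1) = jK K N2` (`Subtype.ext`, `hincl`).
  The algebra map is `K`-linear (`hincl` on constants), call it `a : FK K N1 →ₐ[K] FK K N2`; `K⟮jK K N1⟯.map a = K⟮jK K N2⟯` (`IntermediateField.adjoin_map`, `Set.image_singleton`);
  `e := (IntermediateField.equivMap _ a)` followed by `IntermediateField.equivOfEq`; then `Algebra.finrank_eq_of_equiv_equiv e (RingEquiv.refl _)` and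
  `Module.Finite.of_equiv_equiv` (or: a basis of `FK K N2` over `K⟮jK K N2⟯` is a basis over `K⟮jK K N1⟯`).
* `core_modular` : apply `Unr.core` with `𝕂 = ℂ`, `E0 := K⟮algebraMap B (FK K N1) tB⟯`, `F1 = FK K N1`, `F2 = FK K N2`, `X := XN N2` (`Fintype.ofFinite`).
  - instances: `CharZero K` (`charZero_K`), `Algebra.IsAlgebraic ℚ K` (`isAlgebraic_rat`), `FiniteDimensional E0 F2` and `hcard` from `finrank_Kj` (`rw [hK]` / `hK ▸`),
    `Algebra.IsAlgebraic E0 F1` (from `(GT.PF.finrank_F0 K N1).1`, again `hK ▸`).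
  - `obtain ⟨σ, hσ, hσg, hσj, hσsym, hσ1⟩ := exists_pack N1 N2 h12 dom L hL hmem hj`;  `σK a := (σ a).toRingHom.comp (beta K N2)`; injective by `GT.PF.algHom_eq_of_beta`.
  - `θ := (algebraMap Kb ℂ).comp (algebraMap K Kb)`;  `σK a (algebraMap K F2 c) = HahnSeries.C (θ c)` (`beta_algebraMap`, `AlgHom.commutes`, `S24.Packages.algebraMap_Kb`);
    `σK a (algebraMap B F2 tB) = υ` (`hυ _ (hσj a)`).  `ι0 := (σK a₁).comp (algebraMap E0 F2)` (`a₁` = the class of `1`); all `σK a` agree on `E0`: the set of `e : E0` ... use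
    `IntermediateField.adjoin_induction` / or make both `K`-algebra homs for the algebra structure `(HahnSeries.C.comp θ).toAlgebra` and use `IntermediateField.adjoin_algHom_ext`.
  - `γ a := γ₀ • a`, `hγ := hσsym γ₀ ζ hsym`.  `γ^[k] (g : XN N2) = ((γ₀ ^ k * g : SL(2,ℤ)) : XN N2)` (induction).
  - `hstab` : `a = (g : XN N2)` (`QuotientGroup.induction_on`); apply the hypothesis `hstab g (σ a) (hσg g) _ k _`; the equality in `XN N1` from `hσ1 (γ₀^k * g) g`: for `d : Dv N1`,
    `jF N2 d.1 _ = beta K N2 (algebraMap F1 F2 (jdK K N1 d.1 d.2))` (`beta_jdK` at level `N2` + `Subtype.ext`/`hincl`).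
  - `u := aeval (AdjoinSimple.gen K t) g0`, `uB := b0`; `huE` : `line_order` + `hord`; `hcmp` : `line_cmp`; `halg` : `line_alg` (`b0 ≠ 0`: otherwise `t` is algebraic over `K`, so `K⟮t⟯ = K⟮jK⟯` is
    algebraic over `K`, contradicting `S28.transcendental_jqModC` (see `Norm.KForm.transcendental_jK`)).  The root: `(g0.map θ).eval (algebraMap Kb ℂ c0) = 0` from `hroot` (`Polynomial.map_map`, `eval_map_apply`/`eval₂_hom`).
-/

set_option autoImplicit false

open ModularCurve UpperHalfPlane Polynomial IsLocalRing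
open scoped MatrixGroups IntermediateField

namespace Fermat.Agent.S36.Unr

open Fermat.Agent.S24 Fermat.Agent.ES Fermat.Agent.Crux.GT.PF

variable (K : Type) [Field K] [Algebra K Kb] (N1 N2 : ℕ) [NeZero N1] [NeZero N2]

/-- `F_K(N)`. -/
abbrev FK (K : Type) [Field K] (N : ℕ) : Type := ↥(modularFunctionFieldFullC K N)

/-- `j(q^d) ∈ F_K(N)`. -/
noncomputable def jdK (N d : ℕ) [NeZero d] (hd : d ∣ N) : FK K N :=
  ⟨qExpand K d (jqModC K), jqModCd_mem_full K N hd⟩

theorem beta_jdK (N d : ℕ) [NeZero N] [NeZero d] (hd : d ∣ N) :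
    beta K N (jdK K N d hd) = jF N d hd := by
  apply Subtype.ext
  rw [beta_coe]
  show coeffMap (algebraMap K Kb) (qExpand K d (jqModC K)) = _
  rw [coeffMap_qExpand, coeffMap_jqModC]
  exact (S17.IsFFAux.coeffEmb_qExpand_jq Kb d).symm

theorem charZero_K : CharZero K := (algebraMap K Kb).charZero

theorem isAlgebraic_rat [CharZero K] : Algebra.IsAlgebraic ℚ K := by
  refine ⟨fun x => ?_⟩
  have h1 : IsAlgebraic ℚ ((algebraMap K Kb).toRatAlgHom x) :=
    (AlgebraicClosure.isAlgebraic ℚ).isAlgebraic _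
  exact (isAlgebraic_algHom_iff ((algebraMap K Kb).toRatAlgHom)
    (algebraMap K Kb).injective).mp h1

variable [Algebra (FK K N1) (FK K N2)]
  (hincl : ∀ f : FK K N1, ((algebraMap (FK K N1) (FK K N2) f : FK K N2) : LaurentSeries K)
    = (f : LaurentSeries K))

include hincl in
/-- (M1) the degree over `K(j)`, `j` at level `N1`. -/
theorem finrank_Kj :
    FiniteDimensional K⟮jK K N1⟯ (FK K N2) ∧
      Module.finrank K⟮jK K N1⟯ (FK K N2) = Nat.card (XN N2) := by
  obtain ⟨hfd, hfr⟩ := finrank_F0 K N2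
  let a : FK K N1 →ₐ[K] FK K N2 :=
    { (algebraMap (FK K N1) (FK K N2)) with
      commutes' := fun r => by
        apply Subtype.ext
        exact hincl _ }
  have haj : a (jK K N1) = jK K N2 := by
    apply Subtype.ext
    exact hincl _
  have hmap : K⟮jK K N1⟯.map a = K⟮jK K N2⟯ := by
    rw [IntermediateField.adjoin_map, Set.image_singleton, haj]
  let e : K⟮jK K N1⟯ ≃ₐ[K] K⟮jK K N2⟯ :=
    (IntermediateField.equivMap _ a).trans (IntermediateField.equivOfEq hmap)
  have hcomp : (algebraMap K⟮jK K N2⟯ (FK K N2)).comp (e : K⟮jK K N1⟯ ≃+* K⟮jK K N2⟯).toRingHom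
      = (RingEquiv.refl (FK K N2)).toRingHom.comp (algebraMap K⟮jK K N1⟯ (FK K N2)) := by
    ext x
    rfl
  refine ⟨?_, ?_⟩
  · have hcomp' : (algebraMap K⟮jK K N1⟯ (FK K N2)).comp
        ((e : K⟮jK K N1⟯ ≃+* K⟮jK K N2⟯).symm : K⟮jK K N2⟯ →+* K⟮jK K N1⟯)
        = ((RingEquiv.refl (FK K N2) : FK K N2 ≃+* FK K N2) : FK K N2 →+* FK K N2).comp
          (algebraMap K⟮jK K N2⟯ (FK K N2)) := by
      apply RingHom.ext
      intro x
      obtain ⟨y, rfl⟩ := (e : K⟮jK K N1⟯ ≃+* K⟮jK K N2⟯).surjective x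
      have := DFunLike.congr_fun hcomp y
      simp only [RingHom.comp_apply, RingHom.coe_coe, RingEquiv.symm_apply_apply]
      exact this.symm
    exact Module.Finite.of_equiv_equiv (e : K⟮jK K N1⟯ ≃+* K⟮jK K N2⟯).symm (RingEquiv.refl _) hcomp'
  · rw [← hfr]
    exact Algebra.finrank_eq_of_equiv_equiv (e : K⟮jK K N1⟯ ≃+* K⟮jK K N2⟯) (RingEquiv.refl _) hcomp

variable {K N1 N2}
variable {B : Type*} [CommRing B] [IsDomain B] [IsDiscreteValuationRing B] [Algebra B (FK K N1)]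
  [IsFractionRing B (FK K N1)] [Algebra B (FK K N2)] [IsScalarTower B (FK K N1) (FK K N2)]

/-- (task Unr-ModK-B) two ring homomorphisms out of `K(t)` which agree on `K` and at `t` are equal. -/
private theorem ModKB_ringHom_ext {K F R : Type*} [Field K] [Field F] [Algebra K F] [Field R] (t : F)
    (φ ψ : K⟮t⟯ →+* R) (hc : ∀ c : K, φ (algebraMap K K⟮t⟯ c) = ψ (algebraMap K K⟮t⟯ c))
    (ht : φ (IntermediateField.AdjoinSimple.gen K t) = ψ (IntermediateField.AdjoinSimple.gen K t)) :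
    φ = ψ := by
  let _ : Algebra K R := (φ.comp (algebraMap K K⟮t⟯)).toAlgebra
  let φ' : K⟮t⟯ →ₐ[K] R := { φ with commutes' := fun c => rfl }
  let ψ' : K⟮t⟯ →ₐ[K] R := { ψ with commutes' := fun c => (hc c).symm }
  have h : φ' = ψ' := by
    apply IntermediateField.adjoin_algHom_ext
    intro x hx
    rw [Set.mem_singleton_iff] at hx
    subst hx
    exact ht
  ext x
  exact DFunLike.congr_fun h x

set_option maxHeartbeats 1600000 in
include hincl in
/-- **The core theorem for modular function fields**, generic in the point (`dom`, `L`) and its stabiliser (`γ₀`, `ζ`, `E`). -/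
theorem core_modular (h12 : N1 ∣ N2) (hchar : ∀ n : ℕ, n ≠ 0 → IsUnit (n : B))
    (dom : Subalgebra ℂ (ℍ → ℂ)) (L : dom →ₐ[ℂ] LaurentSeries ℂ) (hL : Function.Injective L)
    (hmem : ∀ (g : SL(2, ℤ)) (d : Dv N2), compInv g (jd d.1) ∈ dom) (hj : jfun ∈ dom)
    (γ₀ : SL(2, ℤ)) (ζ : ℂˣ) (E : ℕ) (hE : 0 < E) (hζ : IsPrimitiveRoot ζ E)
    (hsym : ∀ (f : dom) (hf : compInv γ₀ (f : ℍ → ℂ) ∈ dom) (k : ℤ),
      (L ⟨compInv γ₀ (f : ℍ → ℂ), hf⟩).coeff k = (ζ : ℂ) ^ k * (L f).coeff k)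
    (tB : B) (hK : K⟮algebraMap B (FK K N1) tB⟯ = K⟮jK K N1⟯)
    (υ : LaurentSeries ℂ)
    (hυ : ∀ τ : FN N2 →ₐ[Kb] LaurentSeries ℂ, τ (jN N2) = L ⟨jfun, hj⟩ →
      τ (beta K N2 (algebraMap B (FK K N2) tB)) = υ)
    (g0 : K[X]) (hmon : g0.Monic) (hirr : Irreducible g0) (b0 : B) (hb0 : b0 ∈ maximalIdeal B)
    (hb0g : algebraMap B (FK K N1) b0 = aeval (algebraMap B (FK K N1) tB) g0)
    (c0 : Kb) (hroot : (g0.map (algebraMap K Kb)).eval c0 = 0)
    (hord : (υ - HahnSeries.C (algebraMap Kb ℂ c0)).order = (E : ℤ))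
    (hstab : ∀ (g : SL(2, ℤ)) (τ : FN N2 →ₐ[Kb] LaurentSeries ℂ),
      (∀ d : Dv N2, τ (jF N2 d.1 d.2) = L ⟨compInv g (jd d.1), hmem g d⟩) →
      (∀ b : B, 0 ≤ (τ (beta K N2 (algebraMap B (FK K N2) b))).order) →
      ∀ k : ℕ, ((γ₀ ^ k * g : SL(2, ℤ)) : XN N1) = (g : XN N1) →
        ((γ₀ ^ k * g : SL(2, ℤ)) : XN N2) = (g : XN N2))
    (g : B) (hg : Irreducible g) (y w : FK K N2) (hy : IsIntegral B y) (hw : IsIntegral B w)
    (hyw : y ^ 2 = g • w) :
    ∃ y' : FK K N2, IsIntegral B y' ∧ y = g • y' := by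
  classical
  have : CharZero K := charZero_K K
  have : Algebra.IsAlgebraic ℚ K := isAlgebraic_rat K
  have hfd : FiniteDimensional K⟮algebraMap B (FK K N1) tB⟯ (FK K N2) := by
    rw [hK]; exact (finrank_Kj K N1 N2 hincl).1
  have hcard : Module.finrank K⟮algebraMap B (FK K N1) tB⟯ (FK K N2) = Nat.card (XN N2) := by
    rw [hK]; exact (finrank_Kj K N1 N2 hincl).2
  have : Algebra.IsAlgebraic K⟮algebraMap B (FK K N1) tB⟯ (FK K N1) := by
    rw [hK]
    have := (finrank_F0 K N1).1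
    exact Algebra.IsAlgebraic.of_finite _ _
  have : Fintype (XN N2) := Fintype.ofFinite _
  obtain ⟨σ, hσ, hσg, hσj, hσsym, hσ1⟩ := exists_pack N1 N2 h12 dom L hL hmem hj
  -- the package over `K`
  let σK : XN N2 → FK K N2 →+* LaurentSeries ℂ := fun a => (σ a).toRingHom.comp (beta K N2)
  have hσKa : ∀ a f, σK a f = σ a (beta K N2 f) := fun _ _ => rfl
  have hσK : Function.Injective σK := by
    intro a a' h
    apply hσ
    apply algHom_eq_of_beta K N2
    intro f
    exact DFunLike.congr_fun h f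
  let θ : K →+* ℂ := (algebraMap Kb ℂ).comp (algebraMap K Kb)
  have hconst : ∀ a c, σK a (algebraMap K (FK K N2) c) = HahnSeries.C (θ c) := by
    intro a c
    rw [hσKa, beta_algebraMap, AlgHom.commutes, Packages.algebraMap_Kb]
    rfl
  have htυ : ∀ a, σK a (algebraMap B (FK K N2) tB) = υ := fun a => hυ _ (hσj a)
  have hKK : ∀ c : K, algebraMap K⟮algebraMap B (FK K N1) tB⟯ (FK K N2)
      (algebraMap K K⟮algebraMap B (FK K N1) tB⟯ c) = algebraMap K (FK K N2) c := by
    intro c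
    apply Subtype.ext
    exact hincl (algebraMap K (FK K N1) c)
  have hgen2 : algebraMap K⟮algebraMap B (FK K N1) tB⟯ (FK K N2)
      (IntermediateField.AdjoinSimple.gen K (algebraMap B (FK K N1) tB))
        = algebraMap B (FK K N2) tB :=
    (IsScalarTower.algebraMap_apply B (FK K N1) (FK K N2) tB).symm
  let ι0 : K⟮algebraMap B (FK K N1) tB⟯ →+* LaurentSeries ℂ :=
    (σK ((1 : SL(2, ℤ)) : XN N2)).comp (algebraMap K⟮algebraMap B (FK K N1) tB⟯ (FK K N2))
  have hι0a : ∀ e, ι0 e = σK ((1 : SL(2, ℤ)) : XN N2)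
      (algebraMap K⟮algebraMap B (FK K N1) tB⟯ (FK K N2) e) := fun _ => rfl
  have hι0 : ∀ a e, σK a (algebraMap K⟮algebraMap B (FK K N1) tB⟯ (FK K N2) e) = ι0 e := by
    intro a e
    have h := ModKB_ringHom_ext (algebraMap B (FK K N1) tB)
      ((σK a).comp (algebraMap K⟮algebraMap B (FK K N1) tB⟯ (FK K N2))) ι0
      (fun c => by rw [RingHom.comp_apply, hι0a, hKK, hconst, hconst])
      (by rw [RingHom.comp_apply, hι0a, hgen2, htυ, htυ])
    exact DFunLike.congr_fun h e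
  have hθ : ∀ c : K, ι0 (algebraMap K _ c) = HahnSeries.C (θ c) := by
    intro c
    rw [hι0a, hKK, hconst]
  have hgen : ι0 (IntermediateField.AdjoinSimple.gen K (algebraMap B (FK K N1) tB)) = υ := by
    rw [hι0a, hgen2, htυ]
  -- the symmetry
  let γ : XN N2 → XN N2 := fun a => γ₀ • a
  have hγ : ∀ a y, σK (γ a) y = twist ζ (σK a y) :=
    fun a y => hσsym γ₀ ζ hsym a (beta K N2 y)
  have hiter : ∀ (k : ℕ) (g' : SL(2, ℤ)),
      γ^[k] (g' : XN N2) = ((γ₀ ^ k * g' : SL(2, ℤ)) : XN N2) := by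
    intro k g'
    induction k with
    | zero => rw [pow_zero, one_mul]; rfl
    | succ k ih =>
      rw [Function.iterate_succ_apply', ih, pow_succ', mul_assoc]
      rfl
  have hstab' : ∀ a, (∀ b : B, 0 ≤ (σK a (algebraMap B (FK K N2) b)).order) → ∀ k : ℕ,
      (∀ c : FK K N1, σK (γ^[k] a) (algebraMap (FK K N1) (FK K N2) c)
        = σK a (algebraMap (FK K N1) (FK K N2) c)) → γ^[k] a = a := by
    intro a
    induction a using QuotientGroup.induction_on with
    | H g' =>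
      intro hb k hc
      rw [hiter] at hc ⊢
      refine hstab g' (σ (g' : XN N2)) (hσg g') hb k (hσ1 _ _ (fun d => ?_))
      have key : jF N2 d.1 (d.2.trans h12)
          = beta K N2 (algebraMap (FK K N1) (FK K N2) (jdK K N1 d.1 d.2)) := by
        rw [← beta_jdK K N2 d.1 (d.2.trans h12)]
        congr 1
        apply Subtype.ext
        rw [hincl]
        rfl
      rw [key]
      exact hc _
  -- the line
  have hυ' : 0 < (ι0 (IntermediateField.AdjoinSimple.gen K (algebraMap B (FK K N1) tB))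
      - HahnSeries.C (algebraMap Kb ℂ c0)).order := by
    rw [hgen, hord]
    exact_mod_cast hE
  have hroot' : (g0.map θ).eval (algebraMap Kb ℂ c0) = 0 := by
    rw [← Polynomial.map_map, eval_map_apply, hroot, map_zero]
  have hb00 : b0 ≠ 0 := by
    rintro rfl
    rw [map_zero] at hb0g
    have h1 : IsAlgebraic K (algebraMap B (FK K N1) tB) := ⟨g0, hmon.ne_zero, hb0g.symm⟩
    have h2 : Algebra.IsAlgebraic K K⟮algebraMap B (FK K N1) tB⟯ :=
      IntermediateField.isAlgebraic_adjoin_simple h1.isIntegral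
    have h3 : jK K N1 ∈ K⟮algebraMap B (FK K N1) tB⟯ := by
      rw [hK]
      exact IntermediateField.mem_adjoin_simple_self K _
    have h4 : IsAlgebraic K (jK K N1) :=
      IntermediateField.isAlgebraic_iff.mp (h2.isAlgebraic ⟨jK K N1, h3⟩)
    exact S28.transcendental_jqModC K (IntermediateField.isAlgebraic_iff.mp h4)
  have huu : algebraMap B (FK K N1) b0 = algebraMap K⟮algebraMap B (FK K N1) tB⟯ (FK K N1)
      (aeval (IntermediateField.AdjoinSimple.gen K (algebraMap B (FK K N1) tB)) g0) := by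
    rw [hb0g, ← aeval_algebraMap_apply, IntermediateField.AdjoinSimple.algebraMap_gen]
  have huE : (ι0 (aeval (IntermediateField.AdjoinSimple.gen K (algebraMap B (FK K N1) tB))
      g0)).order = E := by
    rw [line_order tB ι0 θ hθ _ hυ' g0 hirr hroot', hgen, hord]
  exact core (E0 := K⟮algebraMap B (FK K N1) tB⟯) (F1 := FK K N1) σK hσK
    (by rw [hcard, Nat.card_eq_fintype_card]) ι0 hι0 γ ζ E hE hζ hγ hstab'
    (fun e b hbe hb hb0' =>
      line_cmp tB ι0 θ hθ _ hυ' g0 hirr hroot' hchar b0 hb0 hb0g e b hbe hb hb0')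
    _ b0 hb0 huu huE (line_alg hchar tB g0 hmon hirr b0 hb0 hb00 hb0g) g hg y w hy hw hyw

end Fermat.Agent.S36.Unr
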