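import Mathlib

/-!
# S36 / Unr / NoCuspNode : no node at a cusp; detection of the cusps of type `∞`      (abstract; helper67)

Plain ring homs (so that it can be used BEFORE `R.Tower` is built: `Chart.Extra.unr1/unr2` are inputs of `Chart.tower`):
`ρ0 : M0 → R` (`= C.ρ0`), `ρi ρz : M1 → R` (`= C.ρ1 0`, `C.ρ1 1`), `Fr` (`= C.Fr`), `α β : M0 → M1`.
`(C.m1 hl).Thru z c` is by definition `RingHom.ker (C.ρ1 c) ≤ z`.

`σ = a₀ / b₀` (`= 1 / j_N`), `a₀, b₀ ∈ M0` coprime;  `r = (β b₀ / β a₀) * (α a₀ / α b₀) ^ l` (`= j_{N l} / j_N ^ l`).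
`CuspData ρ0 ρi ρz Fr α β l a₀ b₀ k m` :  `m = (α b₀) ^ k * r ∈ M1`, and the reductions of `a₀`, `b₀` are `≠ 0` and `𝔽_l`-rational (`Fr x = x ^ l`).

* `CuspData.rho_inf`          : `ρi m = b̄ ^ k`;
* `CuspData.not_mem`          : `z` a prime through `∞¹`, `α b₀ ∉ z` ⟹ `m ∉ z`      (so `r` is a unit at `z`: type `∞`);
* `CuspData.mem_of_node`      : `z` a prime through `∞¹` and `0¹`, `α a₀ ∈ z` ⟹ `α b₀ ∈ z`;
* `CuspData.not_mem_of_node`  : `z` a prime through `∞¹` and `0¹` ⟹ `α a₀ ∉ z`        (`j_N = b₀ / a₀` is regular at the nodes);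
* `CuspData.not_mem_of_mem`   : `z` a prime through `∞¹`, `α a₀ ∈ z` ⟹ `m ∉ z`      (`j_N ^ l / j_{N l} = (α b₀) ^ k / m` is regular at `z`).
-/

set_option autoImplicit false

namespace Fermat.Agent.S36.Unr

variable {M0 M1 R : Type*} [CommRing M0] [CommRing M1] [CommRing R] [IsDomain R]

/-- see the header. -/
structure CuspData (ρ0 : M0 →+* R) (ρi ρz : M1 →+* R) (Fr : R →+* R) (α β : M0 →+* M1) (l : ℕ)
    (a₀ b₀ : M0) (k : ℕ) (m : M1) : Prop where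
  i_α : ∀ f, ρi (α f) = ρ0 f
  i_β : ∀ f, ρi (β f) = Fr (ρ0 f)
  z_α : ∀ f, ρz (α f) = Fr (ρ0 f)
  z_β : ∀ f, ρz (β f) = ρ0 f
  rel : m * (β a₀ * α b₀ ^ l) = α b₀ ^ k * (β b₀ * α a₀ ^ l)
  fr_a : Fr (ρ0 a₀) = ρ0 a₀ ^ l
  fr_b : Fr (ρ0 b₀) = ρ0 b₀ ^ l
  a_ne : ρ0 a₀ ≠ 0
  b_ne : ρ0 b₀ ≠ 0
  cop : ∃ u v : M0, u * a₀ + v * b₀ = 1

namespace CuspData

variable {ρ0 : M0 →+* R} {ρi ρz : M1 →+* R} {Fr : R →+* R} {α β : M0 →+* M1} {l : ℕ}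
  {a₀ b₀ : M0} {k : ℕ} {m : M1}

theorem rho_inf (h : CuspData ρ0 ρi ρz Fr α β l a₀ b₀ k m) : ρi m = ρ0 b₀ ^ k := by
  have h1 := congrArg ρi h.rel
  simp only [map_mul, map_pow, h.i_α, h.i_β, h.fr_a, h.fr_b] at h1
  have h2 : ρ0 a₀ ^ l * ρ0 b₀ ^ l ≠ 0 :=
    mul_ne_zero (pow_ne_zero _ h.a_ne) (pow_ne_zero _ h.b_ne)
  apply mul_right_cancel₀ h2
  linear_combination h1

theorem sub_mem_ker (h : CuspData ρ0 ρi ρz Fr α β l a₀ b₀ k m) :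
    m - α b₀ ^ k ∈ RingHom.ker ρi := by
  rw [RingHom.mem_ker, map_sub, h.rho_inf, map_pow, h.i_α, sub_self]

/-- type `∞`. -/
theorem not_mem (h : CuspData ρ0 ρi ρz Fr α β l a₀ b₀ k m) (z : Ideal M1) (hz : z.IsPrime)
    (h0 : RingHom.ker ρi ≤ z) (hb : α b₀ ∉ z) : m ∉ z := by
  intro hm
  have h1 := z.sub_mem hm (h0 h.sub_mem_ker)
  rw [sub_sub_cancel] at h1
  exact hb (hz.mem_of_pow_mem k h1)

theorem rho_zero (h : CuspData ρ0 ρi ρz Fr α β l a₀ b₀ k m) (hl : 2 ≤ l) :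
    ρz m * ρ0 b₀ ^ (l * l) = ρ0 b₀ ^ (l * k + 1) * ρ0 a₀ ^ (l * l - 1) := by
  have h1 := congrArg ρz h.rel
  simp only [map_mul, map_pow, h.z_α, h.z_β, h.fr_a, h.fr_b] at h1
  apply mul_right_cancel₀ h.a_ne
  have e : l * l = (l * l - 1) + 1 := by
    have : 1 ≤ l * l := Nat.mul_pos (by omega) (by omega)
    omega
  have h2 : ρ0 a₀ ^ (l * l - 1) * ρ0 a₀ = (ρ0 a₀ ^ l) ^ l := by
    rw [← pow_succ, ← e, pow_mul]
  rw [mul_assoc (ρ0 b₀ ^ (l * k + 1)), h2, pow_succ, pow_mul, pow_mul]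
  linear_combination h1

theorem alpha_sub_beta_pow_mem (h : CuspData ρ0 ρi ρz Fr α β l a₀ b₀ k m) {x : M0}
    (hx : Fr (ρ0 x) = ρ0 x ^ l) : α x - β x ^ l ∈ RingHom.ker ρz := by
  rw [RingHom.mem_ker, map_sub, map_pow, h.z_α, h.z_β, hx, sub_self]

/-- no node at a cusp. -/
theorem mem_of_node (h : CuspData ρ0 ρi ρz Fr α β l a₀ b₀ k m) (hl : 2 ≤ l) (z : Ideal M1)
    (hz : z.IsPrime) (h0 : RingHom.ker ρi ≤ z) (h1 : RingHom.ker ρz ≤ z) (ha : α a₀ ∈ z) :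
    α b₀ ∈ z := by
  by_contra hb
  have hm := h.not_mem z hz h0 hb
  -- `β a₀ ∈ z`, `β b₀ ∉ z`
  have hβa : β a₀ ∈ z := by
    have h2 := z.sub_mem ha (h1 (h.alpha_sub_beta_pow_mem h.fr_a))
    rw [sub_sub_cancel] at h2
    exact hz.mem_of_pow_mem l h2
  have hβb : β b₀ ∉ z := by
    intro h2
    apply hb
    have h3 := z.add_mem (h1 (h.alpha_sub_beta_pow_mem h.fr_b))
      (z.pow_mem_of_mem h2 l (by omega))
    rwa [sub_add_cancel] at h3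
  have hker : m * β b₀ ^ (l * l) - β b₀ ^ (l * k + 1) * β a₀ ^ (l * l - 1) ∈ RingHom.ker ρz := by
    rw [RingHom.mem_ker, map_sub, map_mul, map_mul, map_pow, map_pow, map_pow, h.z_β, h.z_β,
      h.rho_zero hl, sub_self]
  have hpos : 0 < l * l - 1 := by
    have : 4 ≤ l * l := Nat.mul_le_mul hl hl
    omega
  have h4 : m * β b₀ ^ (l * l) ∈ z := by
    have h5 := z.add_mem (h1 hker) (z.mul_mem_left (β b₀ ^ (l * k + 1))
      (z.pow_mem_of_mem hβa (l * l - 1) hpos))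
    rwa [sub_add_cancel] at h5
  rcases hz.mem_or_mem h4 with h5 | h5
  · exact hm h5
  · exact hβb (hz.mem_of_pow_mem _ h5)

theorem not_both (h : CuspData ρ0 ρi ρz Fr α β l a₀ b₀ k m) (z : Ideal M1) (hz : z.IsPrime)
    (ha : α a₀ ∈ z) (hb : α b₀ ∈ z) : False := by
  obtain ⟨u, v, huv⟩ := h.cop
  apply hz.ne_top
  rw [Ideal.eq_top_iff_one]
  have h1 : α u * α a₀ + α v * α b₀ = 1 := by
    rw [← map_mul, ← map_mul, ← map_add, huv, map_one]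
  rw [← h1]
  exact z.add_mem (z.mul_mem_left _ ha) (z.mul_mem_left _ hb)

/-- `j_N = b₀ / a₀` is regular at the nodes. -/
theorem not_mem_of_node (h : CuspData ρ0 ρi ρz Fr α β l a₀ b₀ k m) (hl : 2 ≤ l) (z : Ideal M1)
    (hz : z.IsPrime) (h0 : RingHom.ker ρi ≤ z) (h1 : RingHom.ker ρz ≤ z) : α a₀ ∉ z :=
  fun ha => h.not_both z hz ha (h.mem_of_node hl z hz h0 h1 ha)

/-- `j_N ^ l / j_{N l} = (α b₀) ^ k / m` is regular at the cusps on the component `∞`. -/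
theorem not_mem_of_mem (h : CuspData ρ0 ρi ρz Fr α β l a₀ b₀ k m) (z : Ideal M1)
    (hz : z.IsPrime) (h0 : RingHom.ker ρi ≤ z) (ha : α a₀ ∈ z) : m ∉ z :=
  h.not_mem z hz h0 fun hb => h.not_both z hz ha hb

end CuspData

end Fermat.Agent.S36.Unr
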