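import Fermat.Agent.S36.Unr.ModK
import Fermat.Agent.S36.Mod.Unram.Free

/-!
# S36 / Unr / NonCusp : `F_K(N2) / F_K(N1)` is unramified at the points with `j ≠ ∞` (if `4 ∣ N1` or `9 ∣ N1`)

`B` a discrete valuation ring of `F_K(N1)`, residue characteristic `0`, `j ∈ B`.

PROOFS.
* `stab_of_free` : `a := (g : XN N1)`.  `γ • (g : XN N) = ((γ * g : SL(2,ℤ)) : XN N)` is `rfl`.  `-1` acts trivially on every `XN N`: `((-1 * g : _) : XN N) = g` since
  `g⁻¹ * (-1 * g) = -1 ∈ Gamma0 N` (`QuotientGroup.eq`, `CongruenceSubgroup.Gamma0_mem`).  So `δ := γ₀ ^ E` acts trivially on `XN N1` and `XN N2`, and so do its powers.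
  If `E ∣ k`, `k = E m`: `γ₀ ^ k = δ ^ m`: done.  Otherwise `Nat.Coprime k E`: `∃ u m, k * u = 1 + E * m` (`Nat.exists_mul_emod_eq_one_of_coprime` / Bezout); `γ₀ ^ k` fixes `a`, so `(γ₀ ^ k) ^ u = γ₀ * δ ^ m` fixes `a`,
  so `γ₀ • a = a`: contradiction with `hfree`.
* `core_point` : `core_modular` with `dom := Hol`, `L := taylorAt τ₀`, `hL := taylorAt_injective τ₀`, `hmem := hmem_Hol N2`, `hj := jfun_mem_Hol`, `hsym := taylor_coeff τ₀ γ₀ hγ₀ ζ hζd`,
  `tB := jB`, `hK` by `rw [hjB]`, `υ := taylorAt τ₀ ⟨jfun, jfun_mem_Hol⟩`; `hυ` : `algebraMap B F2 jB = algebraMap F1 F2 (jK K N1) = jK K N2` (`Subtype.ext`, `hincl`), `beta_jK`;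
  `hord` : as in `S24.package_generic`:  `υ - C c = taylorAt τ₀ (⟨jfun,_⟩ - algebraMap ℂ Hol c)` (`map_sub`, `AlgHom.commutes`, `algebraMap_C`), `taylorAt_order`, `coe_sub_const`, `hτ₀`.
* `core_nonCusp` : `line_exists_g0 hchar jB` (instance `Algebra.IsAlgebraic K⟮algebraMap B F1 jB⟯ F1` from `(GT.PF.finrank_F0 K N1).1` after `rw [hjB]`), a root `c0 : Kb` of `g0.map (algebraMap K Kb)`
  (`IsAlgClosed.exists_root`, `Polynomial.degree_map`, `hirr.degree_pos`/`Irreducible.natDegree_pos`).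
  - `c0 = 0` : `τ₀ = rhoH` (`jfun_rho`), `γ₀ = S * T` (`ST_smul_rho`), `ζ = Units.mk0 rhoH _` (`denom_ST`, `rho_sq`, `rho_prim`), `E = 3` (`order_jfun_rho`; `jfun τ - jfun rhoH = jfun τ`), `(S*T)^3 = -1` or `1` (`decide`/`ext; simp`), `ST_smul_ne`.
  - `c0 = 1728` : `τ₀ = I` (`jfun_I`), `γ₀ = S` (`S_smul_I`), `ζ = -1` (`denom_S_I`), `E = 2` (`order_jfun_sub_I`), `S^2 = -1`, `S_smul_ne`.
  - otherwise : `τ₀` from `jfun_surjective`, `γ₀ = 1`, `ζ = 1`, `E = 1` (`order_jfun_sub_generic`), `hstab` trivial (`one_pow`, `one_mul`).  See `S24.package_generic`, `package_I`, `package_rho`.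
-/

set_option autoImplicit false

open ModularCurve UpperHalfPlane Polynomial IsLocalRing
open scoped MatrixGroups IntermediateField

namespace Fermat.Agent.S36.Unr

open Fermat.Agent.S24 Fermat.Agent.S24.Packages Fermat.Agent.ES Fermat.Agent.Crux.GT.PF

theorem stab_of_free {N1 N2 : ℕ} (γ₀ : SL(2, ℤ)) (E : ℕ) (hE : E.Prime)
    (hγ : γ₀ ^ E = 1 ∨ γ₀ ^ E = -1) (hfree : ∀ a : XN N1, γ₀ • a ≠ a) (g : SL(2, ℤ)) (k : ℕ)
    (h : ((γ₀ ^ k * g : SL(2, ℤ)) : XN N1) = (g : XN N1)) :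
    ((γ₀ ^ k * g : SL(2, ℤ)) : XN N2) = (g : XN N2) := by
  have hneg : ∀ (N : ℕ) (x : XN N), (-1 : SL(2, ℤ)) • x = x := by
    intro N x
    induction x using QuotientGroup.induction_on with
    | H g =>
      show (((-1 : SL(2, ℤ)) * g : SL(2, ℤ)) : XN N) = (g : XN N)
      rw [QuotientGroup.eq]
      have h1 : ((-1 : SL(2, ℤ)) * g)⁻¹ * g = -1 := by
        have h2 : ((-1 : SL(2, ℤ)) * g) * -g⁻¹ = 1 := by
          rw [neg_mul, one_mul, neg_mul_neg, mul_inv_cancel]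
        rw [inv_eq_of_mul_eq_one_right h2, neg_mul, inv_mul_cancel]
      rw [h1, CongruenceSubgroup.Gamma0_mem]
      simp
  have hδ : ∀ (N : ℕ) (x : XN N), (γ₀ ^ E) • x = x := by
    intro N x
    rcases hγ with h | h
    · rw [h, one_smul]
    · rw [h]
      exact hneg N x
  by_cases hEk : E ∣ k
  · obtain ⟨m, rfl⟩ := hEk
    show (γ₀ ^ (E * m)) • (g : XN N2) = (g : XN N2)
    rw [pow_mul]
    exact (MulAction.stabilizer SL(2, ℤ) (g : XN N2)).pow_mem (hδ N2 _) m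
  · exfalso
    have hcop : Nat.Coprime k E := ((Nat.Prime.coprime_iff_not_dvd hE).2 hEk).symm
    have h1 : γ₀ ^ k ∈ MulAction.stabilizer SL(2, ℤ) (g : XN N1) := h
    have h2 : γ₀ ^ E ∈ MulAction.stabilizer SL(2, ℤ) (g : XN N1) := hδ N1 _
    have h3 : γ₀ ∈ MulAction.stabilizer SL(2, ℤ) (g : XN N1) := by
      have hb := Nat.gcd_eq_gcd_ab k E
      rw [hcop.gcd_eq_one] at hb
      have h4 : γ₀ = (γ₀ ^ k) ^ (Nat.gcdA k E) * (γ₀ ^ E) ^ (Nat.gcdB k E) := by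
        rw [← zpow_natCast γ₀ k, ← zpow_natCast γ₀ E, ← zpow_mul, ← zpow_mul, ← zpow_add, ← hb]
        simp
      rw [h4]
      exact Subgroup.mul_mem _ (Subgroup.zpow_mem _ h1 _) (Subgroup.zpow_mem _ h2 _)
    exact hfree _ h3

variable {K : Type} [Field K] [Algebra K Kb] {N1 N2 : ℕ} [NeZero N1] [NeZero N2]
variable [Algebra (FK K N1) (FK K N2)]
  (hincl : ∀ f : FK K N1, ((algebraMap (FK K N1) (FK K N2) f : FK K N2) : LaurentSeries K)
    = (f : LaurentSeries K))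
variable {B : Type*} [CommRing B] [IsDomain B] [IsDiscreteValuationRing B] [Algebra B (FK K N1)]
  [IsFractionRing B (FK K N1)] [Algebra B (FK K N2)] [IsScalarTower B (FK K N1) (FK K N2)]

include hincl in
theorem core_point (h12 : N1 ∣ N2) (hchar : ∀ n : ℕ, n ≠ 0 → IsUnit (n : B))
    (jB : B) (hjB : algebraMap B (FK K N1) jB = jK K N1)
    (g0 : K[X]) (hmon : g0.Monic) (hirr : Irreducible g0) (b0 : B) (hb0 : b0 ∈ maximalIdeal B)
    (hb0g : algebraMap B (FK K N1) b0 = aeval (algebraMap B (FK K N1) jB) g0)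
    (c0 : Kb) (hroot : (g0.map (algebraMap K Kb)).eval c0 = 0)
    (τ₀ : ℍ) (hτ₀ : jfun τ₀ = algebraMap Kb ℂ c0)
    (γ₀ : SL(2, ℤ)) (hγ₀ : γ₀ • τ₀ = τ₀) (ζ : ℂˣ)
    (hζd : (ζ : ℂ) = denom (γ₀ : GL (Fin 2) ℝ) τ₀ ^ 2) (E : ℕ) (hE : 0 < E)
    (hζ : IsPrimitiveRoot ζ E)
    (hordj : analyticOrderAt ((fun τ => jfun τ - jfun τ₀) ∘ ofComplex) (τ₀ : ℂ) = E)
    (hstab : ∀ (g : SL(2, ℤ)) (k : ℕ), ((γ₀ ^ k * g : SL(2, ℤ)) : XN N1) = (g : XN N1) →
        ((γ₀ ^ k * g : SL(2, ℤ)) : XN N2) = (g : XN N2))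
    (g : B) (hg : Irreducible g) (y w : FK K N2) (hy : IsIntegral B y) (hw : IsIntegral B w)
    (hyw : y ^ 2 = g • w) :
    ∃ y' : FK K N2, IsIntegral B y' ∧ y = g • y' := by
  have hjB2 : algebraMap B (FK K N2) jB = jK K N2 := by
    rw [IsScalarTower.algebraMap_apply B (FK K N1) (FK K N2), hjB]
    apply Subtype.ext
    rw [hincl]
    rfl
  refine core_modular hincl h12 hchar Hol (taylorAt τ₀) (taylorAt_injective τ₀) (hmem_Hol N2)
    jfun_mem_Hol γ₀ ζ E hE hζ (taylor_coeff τ₀ γ₀ hγ₀ ζ hζd) jB (by rw [hjB])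
    (taylorAt τ₀ ⟨jfun, jfun_mem_Hol⟩) ?_ g0 hmon hirr b0 hb0 hb0g c0 hroot ?_
    (fun g' _ _ _ k hk => hstab g' k hk) g hg y w hy hw hyw
  · intro τ hτ
    rw [hjB2, beta_jK, hτ]
  · have h1 : taylorAt τ₀ ⟨jfun, jfun_mem_Hol⟩ - HahnSeries.C (algebraMap Kb ℂ c0) =
        taylorAt τ₀ (⟨jfun, jfun_mem_Hol⟩ - algebraMap ℂ Hol (algebraMap Kb ℂ c0)) := by
      rw [map_sub, AlgHom.commutes, algebraMap_C]
    rw [h1]
    exact taylorAt_order τ₀ _ E (by rw [coe_sub_const, ← hτ₀]; exact hordj)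

include hincl in
/-- **(Unr) at the non-cuspidal points.** -/
theorem core_nonCusp (h12 : N1 ∣ N2) (h49 : 4 ∣ N1 ∨ 9 ∣ N1)
    (hchar : ∀ n : ℕ, n ≠ 0 → IsUnit (n : B))
    (jB : B) (hjB : algebraMap B (FK K N1) jB = jK K N1)
    (g : B) (hg : Irreducible g) (y w : FK K N2) (hy : IsIntegral B y) (hw : IsIntegral B w)
    (hyw : y ^ 2 = g • w) :
    ∃ y' : FK K N2, IsIntegral B y' ∧ y = g • y' := by
  have halg : Algebra.IsAlgebraic K⟮algebraMap B (FK K N1) jB⟯ (FK K N1) := by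
    rw [hjB]
    have := (finrank_F0 K N1).1
    exact Algebra.IsAlgebraic.of_finite _ _
  have hK0 : CharZero K := charZero_K K
  have hKalg : Algebra.IsAlgebraic ℚ K := isAlgebraic_rat K
  obtain ⟨g0, hmon, hirr, b0, hb0, hb0g⟩ :=
    line_exists_g0 (K := K) (F1 := FK K N1) hchar jB
  obtain ⟨c0, hroot⟩ : ∃ c0 : Kb, (g0.map (algebraMap K Kb)).eval c0 = 0 := by
    have hdeg : (g0.map (algebraMap K Kb)).degree ≠ 0 := by
      rw [Polynomial.degree_map]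
      exact (Polynomial.degree_pos_of_irreducible hirr).ne'
    obtain ⟨c0, hc0⟩ := IsAlgClosed.exists_root _ hdeg
    exact ⟨c0, hc0⟩
  by_cases h0 : c0 = 0
  · -- the point `ρ`
    have hord : analyticOrderAt ((fun τ => jfun τ - jfun rhoH) ∘ ofComplex) (rhoH : ℂ)
        = ((3 : ℕ) : ℕ∞) := by
      have h2 : (fun τ => jfun τ - jfun rhoH) = jfun := by
        ext τ
        rw [jfun_rho, sub_zero]
      rw [h2, order_jfun_rho]
      rfl
    have hprim : IsPrimitiveRoot (Units.mk0 (rhoH : ℂ) (rho_prim.ne_zero (by norm_num))) 3 :=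
      IsPrimitiveRoot.coe_units_iff.1 rho_prim
    exact core_point hincl h12 hchar jB hjB g0 hmon hirr b0 hb0 hb0g c0 hroot rhoH
      (by rw [jfun_rho, h0, map_zero]) (ModularGroup.S * ModularGroup.T) ST_smul_rho
      (Units.mk0 (rhoH : ℂ) (rho_prim.ne_zero (by norm_num))) (by rw [denom_ST, rho_sq]; rfl)
      3 (by norm_num) hprim hord
      (stab_of_free _ 3 Nat.prime_three (Or.inr (by decide)) (Mod.Unram.ST_smul_ne h49))
      g hg y w hy hw hyw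
  by_cases h1 : c0 = 1728
  · -- the point `i`
    have hord : analyticOrderAt ((fun τ => jfun τ - jfun UpperHalfPlane.I) ∘ ofComplex)
        ((UpperHalfPlane.I : ℍ) : ℂ) = ((2 : ℕ) : ℕ∞) := by
      rw [jfun_I, order_jfun_sub_I]
      rfl
    have hprim : IsPrimitiveRoot (-1 : ℂˣ) 2 :=
      IsPrimitiveRoot.coe_units_iff.1 (by
        simpa using IsPrimitiveRoot.neg_one (R := ℂ) 0 (by norm_num))
    exact core_point hincl h12 hchar jB hjB g0 hmon hirr b0 hb0 hb0g c0 hroot UpperHalfPlane.I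
      (by rw [jfun_I, h1, map_ofNat]) ModularGroup.S S_smul_I (-1) (by rw [denom_S_I]; simp)
      2 (by norm_num) hprim hord
      (stab_of_free _ 2 Nat.prime_two (Or.inr (by decide)) (Mod.Unram.S_smul_ne h49))
      g hg y w hy hw hyw
  · -- a generic point
    obtain ⟨τ₀, hτ₀⟩ := jfun_surjective (algebraMap Kb ℂ c0)
    have h0' : jfun τ₀ ≠ 0 := by
      rw [hτ₀]
      intro h
      exact h0 ((map_eq_zero (algebraMap Kb ℂ)).mp h)
    have h1' : jfun τ₀ ≠ 1728 := by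
      rw [hτ₀]
      intro h
      apply h1
      apply (algebraMap Kb ℂ).injective
      rw [h]
      exact (map_ofNat (algebraMap Kb ℂ) 1728).symm
    have hord : analyticOrderAt ((fun τ => jfun τ - jfun τ₀) ∘ ofComplex) (τ₀ : ℂ)
        = ((1 : ℕ) : ℕ∞) := by
      rw [order_jfun_sub_generic τ₀ h0' h1']
      rfl
    exact core_point hincl h12 hchar jB hjB g0 hmon hirr b0 hb0 hb0g c0 hroot τ₀ hτ₀
      1 (one_smul _ _) 1 (by rw [ModularGroup.denom_apply]; simp)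
      1 one_pos IsPrimitiveRoot.one hord
      (fun g k _ => by rw [one_pow, one_mul]) g hg y w hy hw hyw

end Fermat.Agent.S36.Unr
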