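import Fermat.Agent.S28.Transfer

/-!
# S36 / Unr / PhiInf : `j(q^p) / j(q)^p` is integral over `ℤ[1/j]`        (helper67)

`sJ A = 1 / j ∈ q A[[q]]`.  The modular equation `Φ(X, j(q^p)) = (X - j(q^{p²})) ∏_b (X - j(ζ^b q))`: all the roots have a pole of order `≤ p²`
(`= p ·` the order of the pole of `j(q^p)`), so the coefficient of `X^i` in `Φ` is a polynomial in `j` of degree `≤ p (p + 1 - i)`.
Scaling the roots by `(1/j)^p` gives a monic polynomial with coefficients in `A[1/j]`.  Descent `ℤ[ζ_p] → ℤ` by `S28.Transfer.exists_monic_descent`.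
-/

set_option autoImplicit false

open ModularCurve Polynomial

noncomputable section

namespace Fermat.Agent.S36.Unr.PhiInf

open Fermat.Agent.S28 Fermat.Agent.S28.Build

section General

variable (A : Type*) [CommRing A]

/-- `1 / j`. -/
def sJ : LaurentSeries A :=
  HahnSeries.single (1 : ℤ) 1 *
    HahnSeries.ofPowerSeries ℤ A ((jNum.invOfUnit 1).map (Int.castRingHom A))

theorem sJ_mul_J : sJ A * J A = 1 := by
  have h : jNum.invOfUnit 1 * jNum = 1 := by
    rw [mul_comm]
    exact PowerSeries.mul_invOfUnit _ _ (by rw [constantCoeff_jNum]; rfl)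
  rw [sJ, J, jqModC, mul_mul_mul_comm, HahnSeries.single_mul_single, ← map_mul, ← map_mul, h]
  simp

theorem sJ_mem_F : sJ A ∈ F 1 := by
  have := mul_mem_F (single_mem_F (1 : ℤ) (1 : A))
    (ofPowerSeries_mem_F ((jNum.invOfUnit 1).map (Int.castRingHom A)))
  simpa [sJ] using this

theorem J_mem_F : J A ∈ F (-1) := by
  have := mul_mem_F (single_mem_F (-1 : ℤ) (1 : A))
    (ofPowerSeries_mem_F (jNum.map (Int.castRingHom A)))
  simpa [J, jqModC] using this

variable {A}

theorem eq_sJ {s : LaurentSeries A} (hs : s * J A = 1) : s = sJ A := by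
  calc s = s * (sJ A * J A) := by rw [sJ_mul_J, mul_one]
    _ = (s * J A) * sJ A := by ring
    _ = sJ A := by rw [hs, one_mul]

theorem coeffMap_sJ {B : Type*} [CommRing B] (f : A →+* B) : coeffMap f (sJ A) = sJ B := by
  apply eq_sJ
  rw [← coeffMap_J f, ← map_mul, sJ_mul_J, map_one]

/-- one more linear factor. -/
theorem coeff_step {k n : ℤ} {G : (LaurentSeries A)[X]} {r : LaurentSeries A} (hr : r ∈ F (-k))
    (hG : ∀ i : ℕ, G.coeff i ∈ F (k * ((i : ℤ) - n))) (i : ℕ) :
    ((X - C r) * G).coeff i ∈ F (k * ((i : ℤ) - (n + 1))) := by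
  have h2 : r * G.coeff i ∈ F (k * ((i : ℤ) - (n + 1))) := by
    have := mul_mem_F hr (hG i)
    have e : -k + k * ((i : ℤ) - n) = k * ((i : ℤ) - (n + 1)) := by ring
    rwa [e] at this
  rw [sub_mul, coeff_sub, Polynomial.coeff_C_mul]
  refine sub_mem ?_ h2
  cases i with
  | zero => rw [coeff_X_mul_zero]; exact zero_mem _
  | succ i =>
    rw [coeff_X_mul]
    have := hG i
    have e : k * ((i : ℤ) - n) = k * (((i + 1 : ℕ) : ℤ) - (n + 1)) := by push_cast; ring
    rwa [e] at this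

theorem coeff_prod {k : ℤ} {ι : Type*} (s : Finset ι) (r : ι → LaurentSeries A)
    (hr : ∀ j ∈ s, r j ∈ F (-k)) (i : ℕ) :
    (∏ j ∈ s, (X - C (r j))).coeff i ∈ F (k * ((i : ℤ) - s.card)) := by
  classical
  induction s using Finset.induction_on generalizing i with
  | empty =>
    rw [Finset.prod_empty, coeff_one]
    split_ifs with h
    · subst h
      simpa using one_mem_F
    · exact zero_mem _
  | insert a s ha ih =>
    rw [Finset.prod_insert ha, Finset.card_insert_of_notMem ha]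
    have := coeff_step (hr a (Finset.mem_insert_self _ _))
      (fun i => ih (fun j hj => hr j (Finset.mem_insert_of_mem hj)) i) i
    push_cast
    exact this

theorem natDegree_le_of_mem_F (p : ℕ) [NeZero p] (Q : A[X]) (m : ℕ)
    (h : evAt (V A p (J A)) Q ∈ F ((p : ℤ) * (-(m : ℤ)))) : Q.natDegree ≤ m := by
  by_contra hlt
  push Not at hlt
  have h1 := coeff_evAt_V_J p Q Q.natDegree le_rfl
  have hp : (0 : ℤ) < p := by exact_mod_cast Nat.pos_of_ne_zero (NeZero.ne p)
  have hd : (m : ℤ) < Q.natDegree := by exact_mod_cast hlt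
  rw [h _ (by nlinarith)] at h1
  have : Q = 0 := Polynomial.leadingCoeff_eq_zero.mp h1.symm
  rw [this, natDegree_zero] at hlt
  omega

/-- `c(j) (1/j)^m ∈ A[1/j]` if `deg c ≤ m`. -/
theorem evAt_mul_pow_mem {s x : LaurentSeries A} (hs : s * x = 1) (c : A[X]) (m : ℕ)
    (hc : c.natDegree ≤ m) : evAt x c * s ^ m ∈ Set.range (evAt s) := by
  refine ⟨∑ k ∈ Finset.range (m + 1), C (c.coeff k) * X ^ (m - k), ?_⟩
  rw [map_sum, evAt_apply x c, eval₂_eq_sum_range' _ (Nat.lt_succ_of_le hc), Finset.sum_mul]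
  refine Finset.sum_congr rfl fun k hk => ?_
  have hk' : k ≤ m := Nat.lt_succ_iff.1 (Finset.mem_range.1 hk)
  have e1 : s ^ m = s ^ k * s ^ (m - k) := by rw [← pow_add, Nat.add_sub_cancel' hk']
  have e2 : x ^ k * s ^ k = 1 := by rw [← mul_pow, mul_comm, hs, one_pow]
  rw [map_mul, map_pow, evAt_C, evAt_X, e1, mul_assoc, ← mul_assoc (x ^ k), e2, one_mul]

theorem main_of_data [Nontrivial A] (p : ℕ) [NeZero p] (D : ModEqData A p) :
    ∃ Q : A[X][X], Q.Monic ∧ (Q.map (evAt (sJ A))).eval (V A p (J A) * sJ A ^ p) = 0 := by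
  classical
  have hp : (0 : ℤ) < p := by exact_mod_cast Nat.pos_of_ne_zero (NeZero.ne p)
  -- the roots
  have hr0 : V A p (V A p (J A)) ∈ F (-((p : ℤ) * p)) := by
    have := V_mem_F p (V_mem_F p (J_mem_F A))
    have e : (p : ℤ) * (p * (-1)) = -((p : ℤ) * p) := by ring
    rwa [e] at this
  have hrb : ∀ b ∈ Finset.range p, scale (D.ζ ^ b) (J A) ∈ F (-((p : ℤ) * p)) := by
    intro b _
    exact F_mono (by nlinarith) (scale_mem_F _ (J_mem_F A))
  have hcoeff : ∀ i : ℕ, (D.Φ.map (evAt (V A p (J A)))).coeff i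
      ∈ F ((p : ℤ) * p * ((i : ℤ) - (p + 1))) := by
    intro i
    rw [D.hΦ]
    have := coeff_step hr0 (fun i => coeff_prod (Finset.range p) _ hrb i) i
    rwa [Finset.card_range] at this
  -- the degree of `Φ`
  have hn : D.Φ.natDegree = p + 1 := by
    rw [← D.hΦmonic.natDegree_map (evAt (V A p (J A))), D.hΦ,
      (monic_X_sub_C _).natDegree_mul (monic_prod_of_monic _ _ fun b _ => monic_X_sub_C _),
      natDegree_X_sub_C, natDegree_prod_of_monic _ _ fun b _ => monic_X_sub_C _]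
    simp [add_comm]
  have hdeg : ∀ i : ℕ, i ≤ p + 1 → (D.Φ.coeff i).natDegree ≤ p * (p + 1 - i) := by
    intro i hi
    apply natDegree_le_of_mem_F p
    have := hcoeff i
    rw [coeff_map] at this
    have e : (p : ℤ) * p * ((i : ℤ) - (p + 1)) = (p : ℤ) * (-((p * (p + 1 - i) : ℕ) : ℤ)) := by
      push_cast [Nat.cast_sub hi]
      ring
    rwa [e] at this
  -- the root
  set pS := D.Φ.map (evAt (J A)) with hpS
  have hpSm : pS.Monic := D.hΦmonic.map _
  have hpSn : pS.natDegree = p + 1 := by rw [hpS, D.hΦmonic.natDegree_map, hn]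
  have hroot : pS.eval (V A p (J A)) = 0 := by
    apply qExpand_injective (R := A) (N := p)
    have h1 : (D.Φ.map (evAt (V A p (J A)))).eval (V A p (V A p (J A))) = 0 := by
      rw [D.hΦ, Polynomial.eval_mul]
      simp
    rw [map_zero, ← h1, ← V_comp_evAt, ← Polynomial.map_map, Polynomial.eval_map,
      Polynomial.eval_map, Polynomial.hom_eval₂, Polynomial.eval₂_map]
  set qS := pS.scaleRoots (sJ A ^ p) with hqS
  have hqSm : qS.Monic := (monic_scaleRoots_iff _).2 hpSm
  have hrootS : eval₂ (RingHom.id _) (V A p (J A)) pS = 0 := by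
    rw [eval₂_id]
    exact hroot
  have hrootq : eval₂ (RingHom.id _) (sJ A ^ p * V A p (J A)) qS = 0 :=
    scaleRoots_eval₂_eq_zero (RingHom.id _) hrootS
  have hlift : qS ∈ lifts (evAt (sJ A)) := by
    rw [lifts_iff_coeff_lifts]
    intro i
    rw [hqS, coeff_scaleRoots, hpSn]
    by_cases hi : i ≤ p + 1
    · rw [hpS, coeff_map, ← pow_mul]
      exact evAt_mul_pow_mem (sJ_mul_J A) _ _ (hdeg i hi)
    · refine ⟨0, ?_⟩
      rw [coeff_eq_zero_of_natDegree_lt (by omega), zero_mul, map_zero]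
  obtain ⟨q, hq, -, hqm⟩ := lifts_and_natDegree_eq_and_monic hlift hqSm
  refine ⟨q, hqm, ?_⟩
  rw [hq, mul_comm, ← eval₂_id]
  exact hrootq

end General

/-- **`j(q^p) / j(q)^p` is integral over `ℤ[1/j]`.** -/
theorem phiInf (p : ℕ) [Fact p.Prime] [NeZero p] :
    ∃ P : ℤ[X][X], P.Monic ∧ (P.map (evAt (sJ ℤ))).eval (V ℤ p (J ℤ) * sJ ℤ ^ p) = 0 := by
  obtain ⟨D⟩ := exists_modEqData_adjoin p
  obtain ⟨Q, hQ, hroot⟩ := main_of_data p D
  refine Transfer.exists_monic_descent p _ _ Q hQ ?_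
  rw [map_mul, map_pow, coeffMap_V, coeffMap_J, coeffMap_sJ]
  exact hroot

end Fermat.Agent.S36.Unr.PhiInf
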