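import Fermat.Agent.S36.Unr.PhiInf

/-!
# S36 / Unr / PhiInf2 : `j(q) / j(q^p)^p` is integral over `ℤ[1/j(q^p)]`        (helper67; the Fricke dual of `PhiInf.phiInf`, for S44 (Br5))

Same proof: ALL the roots `r` of `Φ(X, j(q^p))` (`j(q^{p²})` and `j(ζ^b q)`, in particular `j(q)`) have a pole of order `≤ p²`, so `r / j(q^p)^p` is a root of a monic
polynomial with coefficients in `A[1/j(q^p)]`.
-/

set_option autoImplicit false

open ModularCurve Polynomial

noncomputable section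

namespace Fermat.Agent.S36.Unr.PhiInf

open Fermat.Agent.S28 Fermat.Agent.S28.Build

section General

variable {A : Type*} [CommRing A]

/-- the degree bound for the coefficients of the modular polynomial. -/
theorem natDegree_coeff_le [Nontrivial A] (p : ℕ) [NeZero p] (D : ModEqData A p) :
    D.Φ.natDegree = p + 1 ∧ ∀ i : ℕ, i ≤ p + 1 → (D.Φ.coeff i).natDegree ≤ p * (p + 1 - i) := by
  classical
  have hp : (0 : ℤ) < p := by exact_mod_cast Nat.pos_of_ne_zero (NeZero.ne p)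
  have hr0 : V A p (V A p (J A)) ∈ F (-((p : ℤ) * p)) := by
    have := V_mem_F p (V_mem_F p (J_mem_F A))
    have e : (p : ℤ) * (p * (-1)) = -((p : ℤ) * p) := by ring
    rwa [e] at this
  have hrb : ∀ b ∈ Finset.range p, scale (D.ζ ^ b) (J A) ∈ F (-((p : ℤ) * p)) := by
    intro b _
    exact F_mono (by nlinarith) (scale_mem_F _ (J_mem_F A))
  have hcoeff : ∀ i : ℕ, (D.Φ.map (evAt (V A p (J A)))).coeff i
      ∈ F ((p : ℤ) * p * ((i : ℤ) - (p + 1))) := by
    intro i
    rw [D.hΦ]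
    have := coeff_step hr0 (fun i => coeff_prod (Finset.range p) _ hrb i) i
    rwa [Finset.card_range] at this
  refine ⟨?_, ?_⟩
  · rw [← D.hΦmonic.natDegree_map (evAt (V A p (J A))), D.hΦ,
      (monic_X_sub_C _).natDegree_mul (monic_prod_of_monic _ _ fun b _ => monic_X_sub_C _),
      natDegree_X_sub_C, natDegree_prod_of_monic _ _ fun b _ => monic_X_sub_C _]
    simp [add_comm]
  · intro i hi
    apply natDegree_le_of_mem_F p
    have := hcoeff i
    rw [coeff_map] at this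
    have e : (p : ℤ) * p * ((i : ℤ) - (p + 1)) = (p : ℤ) * (-((p * (p + 1 - i) : ℕ) : ℤ)) := by
      push_cast [Nat.cast_sub hi]
      ring
    rwa [e] at this

theorem main2_of_data [Nontrivial A] (p : ℕ) [NeZero p] (D : ModEqData A p) :
    ∃ Q : A[X][X], Q.Monic ∧
      (Q.map (evAt (V A p (sJ A)))).eval (J A * V A p (sJ A) ^ p) = 0 := by
  classical
  obtain ⟨hn, hdeg⟩ := natDegree_coeff_le p D
  have hs : V A p (sJ A) * V A p (J A) = 1 := by rw [← map_mul, sJ_mul_J, map_one]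
  set pS := D.Φ.map (evAt (V A p (J A))) with hpS
  have hpSm : pS.Monic := D.hΦmonic.map _
  have hpSn : pS.natDegree = p + 1 := by rw [hpS, D.hΦmonic.natDegree_map, hn]
  have hroot : pS.eval (J A) = 0 := by
    rw [hpS, D.hΦ, Polynomial.eval_mul, Polynomial.eval_prod]
    have h0 : 0 ∈ Finset.range p := Finset.mem_range.mpr (Nat.pos_of_ne_zero (NeZero.ne p))
    rw [Finset.prod_eq_zero h0 (by simp), mul_zero]
  set qS := pS.scaleRoots (V A p (sJ A) ^ p) with hqS
  have hqSm : qS.Monic := (monic_scaleRoots_iff _).2 hpSm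
  have hrootS : eval₂ (RingHom.id _) (J A) pS = 0 := by
    rw [eval₂_id]
    exact hroot
  have hrootq : eval₂ (RingHom.id _) (V A p (sJ A) ^ p * J A) qS = 0 :=
    scaleRoots_eval₂_eq_zero (RingHom.id _) hrootS
  have hlift : qS ∈ lifts (evAt (V A p (sJ A))) := by
    rw [lifts_iff_coeff_lifts]
    intro i
    rw [hqS, coeff_scaleRoots, hpSn]
    by_cases hi : i ≤ p + 1
    · rw [hpS, coeff_map, ← pow_mul]
      exact evAt_mul_pow_mem hs _ _ (hdeg i hi)
    · refine ⟨0, ?_⟩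
      rw [coeff_eq_zero_of_natDegree_lt (by omega), zero_mul, map_zero]
  obtain ⟨q, hq, -, hqm⟩ := lifts_and_natDegree_eq_and_monic hlift hqSm
  refine ⟨q, hqm, ?_⟩
  rw [hq, mul_comm, ← eval₂_id]
  exact hrootq

end General

/-- **`j(q) / j(q^p)^p` is integral over `ℤ[1/j(q^p)]`.** -/
theorem phiInf2 (p : ℕ) [Fact p.Prime] [NeZero p] :
    ∃ P : ℤ[X][X], P.Monic ∧
      (P.map (evAt (V ℤ p (sJ ℤ)))).eval (J ℤ * V ℤ p (sJ ℤ) ^ p) = 0 := by
  obtain ⟨D⟩ := exists_modEqData_adjoin p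
  obtain ⟨Q, hQ, hroot⟩ := main2_of_data p D
  refine Transfer.exists_monic_descent p _ _ Q hQ ?_
  rw [map_mul, map_pow, coeffMap_V, coeffMap_J, coeffMap_sJ]
  exact hroot

/-- the same as `RingHom.IsIntegralElem`. -/
theorem isIntegralElem_phiInf2 (p : ℕ) [Fact p.Prime] [NeZero p] :
    (evAt (V ℤ p (sJ ℤ))).IsIntegralElem (J ℤ * V ℤ p (sJ ℤ) ^ p) := by
  obtain ⟨P, hP, h⟩ := phiInf2 p
  exact ⟨P, hP, by rwa [eval_map] at h⟩

theorem isIntegralElem_phiInf (p : ℕ) [Fact p.Prime] [NeZero p] :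
    (evAt (sJ ℤ)).IsIntegralElem (V ℤ p (J ℤ) * sJ ℤ ^ p) := by
  obtain ⟨P, hP, h⟩ := phiInf p
  exact ⟨P, hP, by rwa [eval_map] at h⟩

end Fermat.Agent.S36.Unr.PhiInf
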