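import Mathlib

/-!
# S36 / Unr / Soft : the SOFT LEMMA  (Mathlib only, power series)

`ι : B → 𝕂[[T]]` a ring homomorphism (`char 𝕂 = 0`), `φ = constantCoeff ∘ ι`.  Assume
* `ker φ` is "locally generated by `h`" (`hker`), `H = ι h = a T^e + ...`, `a ≠ 0`, `e > 0`;
* all values `φ r` are algebraic numbers (`halg`);
* some `u ∈ ker φ`, `ι u ≠ 0`, has an expansion invariant under `T ↦ ξ T`, where `ξ^e = 1`.
Then ALL expansions `ι r` are invariant under `T ↦ ξ T`.

(Meaning: `e` = ramification index of the coordinate `T` over the discrete valuation ring `B_(h)`;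
the completion of `B_(h) ⊗ 𝕂` is `𝕂[[H]] = 𝕂[[u^{1/k}]] ⊆ 𝕂[[T^e]]`.)

## PROOF  (`tw := rescale ξ`)
`Fix K := {x | T^K ∣ tw x - x}` is a subring of `𝕂[[T]]` (`fixSub`), contains the constants, and is stable under
inverses of units (`tw y - y = y * tw y * (x - tw x)` if `x y = 1`).
Claim `P K : ∀ r, ι r ∈ Fix K`, by induction on `K`; `P 0` is trivial; then `PowerSeries.ext` (`X_pow_dvd_iff`).
Assume `P K`.
(a) `soft_factor`: `s * u = h^k * r'` with `k ≥ 1`, `φ s ≠ 0`, `φ r' ≠ 0` (strong induction on the order of `ι u`,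
    using `hker`; the order drops by `e` each time).
(b) `soft_H`: `T^(K+e) ∣ tw H - H`.  Write `H = T^e H₀`, `H₀(0) = a ≠ 0`; `tw H = ξ^e T^e tw H₀ = T^e tw H₀`.
    `Z := ι r' * (ι s)⁻¹ ∈ Fix K` is a unit and `ι u = H^k Z`.  `tw (ι u) = ι u` gives `(tw H₀)^k tw Z = H₀^k Z`.
    `ρ := tw H₀ * H₀⁻¹`, `ρ(0) = 1`, `(ρ^k - 1) tw Z = Z - tw Z`, so `T^K ∣ ρ^k - 1 = (ρ - 1) ∑_{i<k} ρ^i`
    and the sum has constant coefficient `k ≠ 0`: `T^K ∣ ρ - 1`, `T^K ∣ tw H₀ - H₀`.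
(c) `soft_step`: let `r : B`, `c = φ r`, `Y = ι r`, `Y₁ = Y - C c`.  Take `G ∈ ℤ[X]` with `G(c) = 0`, `G'(c) ≠ 0`
    (integer multiple of `minpoly ℚ c`, separable).  `Polynomial.binomExpansion` INSIDE THE SUBRING `Fix K`
    (so that the remainder `k` lies in `Fix K`): `G(Y) = Y₁ * W`, `W = C (G'(c)) + k Y₁ ∈ Fix K`, `W(0) ≠ 0`.
    `G(Y) = ι (G(r))` has constant coefficient `0`: `s * G(r) = h * r'` by `hker`.  So `Y₁ = H * Z`,
    `Z = ι r' * (W * ι s)⁻¹ ∈ Fix K`, and `tw Y - Y = (tw H - H) tw Z + H (tw Z - Z)` is divisible by `T^(K+e)`.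
-/

set_option autoImplicit false

open PowerSeries

namespace Fermat.Agent.S36.Unr

variable {𝕂 : Type*} [Field 𝕂]

/-- `{x | T^K ∣ x(ξ T) - x(T)}`. -/
def fixSub (ξ : 𝕂) (K : ℕ) : Subring (PowerSeries 𝕂) where
  carrier := {x | (X : PowerSeries 𝕂) ^ K ∣ rescale ξ x - x}
  mul_mem' := by
    intro x y hx hy
    have e : rescale ξ (x * y) - x * y = (rescale ξ x - x) * rescale ξ y + x * (rescale ξ y - y) := by
      rw [map_mul]; ring
    rw [Set.mem_ofPred_eq]
    rw [e]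
    exact dvd_add (Dvd.dvd.mul_right hx _) (Dvd.dvd.mul_left hy _)
  one_mem' := by
    rw [Set.mem_ofPred_eq]
    rw [map_one, sub_self]; exact dvd_zero _
  add_mem' := by
    intro x y hx hy
    have e : rescale ξ (x + y) - (x + y) = (rescale ξ x - x) + (rescale ξ y - y) := by
      rw [map_add]; ring
    rw [Set.mem_ofPred_eq]
    rw [e]
    exact dvd_add hx hy
  zero_mem' := by
    rw [Set.mem_ofPred_eq]
    rw [map_zero, sub_self]; exact dvd_zero _
  neg_mem' := by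
    intro x hx
    have e : rescale ξ (-x) - (-x) = -(rescale ξ x - x) := by
      rw [map_neg]; ring
    rw [Set.mem_ofPred_eq]
    rw [e]
    exact (dvd_neg).mpr hx

theorem mem_fixSub {ξ : 𝕂} {K : ℕ} {x : PowerSeries 𝕂} :
    x ∈ fixSub ξ K ↔ (X : PowerSeries 𝕂) ^ K ∣ rescale ξ x - x := Iff.rfl

theorem C_mem_fixSub (ξ : 𝕂) (K : ℕ) (c : 𝕂) : C c ∈ fixSub ξ K := by
  have h : rescale ξ (C c : PowerSeries 𝕂) = C c := by
    ext n
    rw [coeff_rescale, coeff_C]
    split_ifs with hn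
    · rw [hn, pow_zero, one_mul]
    · rw [mul_zero]
  rw [mem_fixSub, h, sub_self]
  exact dvd_zero _

theorem inv_mem_fixSub {ξ : 𝕂} {K : ℕ} {x : PowerSeries 𝕂} (hx : x ∈ fixSub ξ K)
    (h0 : constantCoeff x ≠ 0) : x⁻¹ ∈ fixSub ξ K := by
  have h1 : x * x⁻¹ = 1 := PowerSeries.mul_inv_cancel x h0
  have h2 : rescale ξ x * rescale ξ x⁻¹ = 1 := by rw [← map_mul, h1, map_one]
  have e : rescale ξ x⁻¹ - x⁻¹ = -(x⁻¹ * rescale ξ x⁻¹) * (rescale ξ x - x) := by
    linear_combination (-rescale ξ x⁻¹) * h1 + x⁻¹ * h2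
  rw [mem_fixSub, e]
  exact Dvd.dvd.mul_left hx _

variable [CharZero 𝕂] {B : Type*} [CommRing B]

/-- (a) -/
theorem soft_factor (ι : B →+* PowerSeries 𝕂) (h : B) (e : ℕ) (he0 : 0 < e)
    (he : (X : PowerSeries 𝕂) ^ e ∣ ι h)
    (hker : ∀ r : B, constantCoeff (ι r) = 0 →
      ∃ s r' : B, constantCoeff (ι s) ≠ 0 ∧ s * r = h * r')
    (u : B) (hu : ι u ≠ 0) (hu0 : constantCoeff (ι u) = 0) :
    ∃ (k : ℕ) (s r' : B), 0 < k ∧ constantCoeff (ι s) ≠ 0 ∧ constantCoeff (ι r') ≠ 0 ∧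
      s * u = h ^ k * r' := by
  have key : ∀ (n : ℕ) (u : B), constantCoeff (ι u) = 0 → ¬ (X : PowerSeries 𝕂) ^ n ∣ ι u →
      ∃ (k : ℕ) (s r' : B), 0 < k ∧ constantCoeff (ι s) ≠ 0 ∧ constantCoeff (ι r') ≠ 0 ∧
        s * u = h ^ k * r' := by
    intro n
    induction n with
    | zero =>
      intro u _ hn
      exact absurd (by rw [pow_zero]; exact one_dvd _) hn
    | succ n ih =>
      intro u hu0 hn
      obtain ⟨s, r', hs, hsr⟩ := hker u hu0
      by_cases hr' : constantCoeff (ι r') = 0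
      · have hn' : ¬ (X : PowerSeries 𝕂) ^ n ∣ ι r' := by
          intro hdvd
          apply hn
          have h1 : (X : PowerSeries 𝕂) ^ (e + n) ∣ ι s * ι u := by
            rw [← map_mul, hsr, map_mul, pow_add]
            exact mul_dvd_mul he hdvd
          have hunit : IsUnit (ι s) := by
            rw [PowerSeries.isUnit_iff_constantCoeff]
            exact isUnit_iff_ne_zero.mpr hs
          rw [hunit.dvd_mul_left] at h1
          exact (pow_dvd_pow _ (by omega)).trans h1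
        obtain ⟨k, s', r'', hk, hs', hr'', hfac⟩ := ih r' hr' hn'
        refine ⟨k + 1, s' * s, r'', Nat.succ_pos k, ?_, hr'', ?_⟩
        · rw [map_mul, map_mul]
          exact mul_ne_zero hs' hs
        · rw [mul_assoc, hsr, pow_succ']
          linear_combination h * hfac
      · exact ⟨1, s, r', one_pos, hs, hr', by rw [pow_one]; exact hsr⟩
  obtain ⟨m, hm⟩ : ∃ m, coeff m (ι u) ≠ 0 := by
    by_contra hall
    push Not at hall
    exact hu (PowerSeries.ext (by simpa using hall))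
  refine key (m + 1) u hu0 ?_
  intro hdvd
  rw [X_pow_dvd_iff] at hdvd
  exact hm (hdvd m (Nat.lt_succ_self m))

/-- (b) -/
theorem soft_H (ι : B →+* PowerSeries 𝕂) (h : B) (e : ℕ)
    (he : (X : PowerSeries 𝕂) ^ e ∣ ι h) (he' : coeff e (ι h) ≠ 0)
    (u s r' : B) (k : ℕ) (hk : 0 < k) (hs : constantCoeff (ι s) ≠ 0)
    (hr' : constantCoeff (ι r') ≠ 0) (hfac : s * u = h ^ k * r')
    (ξ : 𝕂) (hξ : ξ ^ e = 1) (huξ : rescale ξ (ι u) = ι u)
    (K : ℕ) (hK : ∀ r : B, ι r ∈ fixSub ξ K) :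
    (X : PowerSeries 𝕂) ^ (K + e) ∣ rescale ξ (ι h) - ι h := by
  obtain ⟨H₀, hH₀⟩ := he
  have hunit : ∀ {x : PowerSeries 𝕂}, constantCoeff x ≠ 0 → IsUnit x := fun {x} hx =>
    isUnit_iff_constantCoeff.2 (isUnit_iff_ne_zero.2 hx)
  -- the constant coefficient of `H₀`
  have ha : constantCoeff H₀ ≠ 0 := by
    rw [hH₀] at he'
    have h1 : coeff e ((X : PowerSeries 𝕂) ^ e * H₀) = constantCoeff H₀ := by
      have := coeff_X_pow_mul H₀ e 0
      rwa [zero_add, coeff_zero_eq_constantCoeff_apply] at this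
    rwa [h1] at he'
  have htwX : rescale ξ ((X : PowerSeries 𝕂) ^ e) = X ^ e := by
    rw [map_pow, rescale_X, mul_pow, ← map_pow, hξ, map_one, one_mul]
  have htwH : rescale ξ (ι h) = X ^ e * rescale ξ H₀ := by
    rw [hH₀, map_mul, htwX]
  have hc : constantCoeff (rescale ξ H₀) = constantCoeff H₀ := by
    rw [← coeff_zero_eq_constantCoeff_apply, coeff_rescale, pow_zero, one_mul,
      coeff_zero_eq_constantCoeff_apply]
  -- the two factorisations
  have e1 : ι s * ι u = (X ^ e * H₀) ^ k * ι r' := by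
    rw [← hH₀, ← map_pow, ← map_mul, ← map_mul, hfac]
  have e2 : rescale ξ (ι s) * ι u = (X ^ e * rescale ξ H₀) ^ k * rescale ξ (ι r') := by
    have := congrArg (rescale ξ) e1
    rw [map_mul, map_mul, map_pow, map_mul, htwX, huξ] at this
    exact this
  have e3 : rescale ξ (ι s) * H₀ ^ k * ι r' = ι s * rescale ξ H₀ ^ k * rescale ξ (ι r') := by
    have hX : ((X : PowerSeries 𝕂) ^ e) ^ k ≠ 0 := pow_ne_zero _ (pow_ne_zero _ X_ne_zero)
    apply mul_left_cancel₀ hX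
    have : rescale ξ (ι s) * (ι s * ι u) = ι s * (rescale ξ (ι s) * ι u) := by ring
    rw [e1, e2, mul_pow, mul_pow] at this
    linear_combination this
  have hS := mem_fixSub.1 (hK s)
  have hR := mem_fixSub.1 (hK r')
  have e4 : ι s * ι r' * (rescale ξ H₀ ^ k - H₀ ^ k)
      = (rescale ξ (ι s) - ι s) * (H₀ ^ k * ι r')
        - (rescale ξ (ι r') - ι r') * (ι s * rescale ξ H₀ ^ k) := by
    linear_combination (-1 : PowerSeries 𝕂) * e3
  have d1 : (X : PowerSeries 𝕂) ^ K ∣ rescale ξ H₀ ^ k - H₀ ^ k := by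
    have h1 : (X : PowerSeries 𝕂) ^ K ∣ ι s * ι r' * (rescale ξ H₀ ^ k - H₀ ^ k) := by
      rw [e4]
      exact dvd_sub (Dvd.dvd.mul_right hS _) (Dvd.dvd.mul_right hR _)
    exact (((hunit hs).mul (hunit hr')).dvd_mul_left).1 h1
  have hsum : constantCoeff (∑ i ∈ Finset.range k, rescale ξ H₀ ^ i * H₀ ^ (k - 1 - i)) ≠ 0 := by
    rw [map_sum]
    have h1 : ∀ i ∈ Finset.range k,
        constantCoeff (rescale ξ H₀ ^ i * H₀ ^ (k - 1 - i)) = constantCoeff H₀ ^ (k - 1) := by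
      intro i hi
      rw [map_mul, map_pow, map_pow, hc, ← pow_add]
      congr 1
      have := Finset.mem_range.1 hi
      omega
    rw [Finset.sum_congr rfl h1, Finset.sum_const, Finset.card_range, nsmul_eq_mul]
    exact mul_ne_zero (Nat.cast_ne_zero.2 hk.ne') (pow_ne_zero _ ha)
  have d2 : (X : PowerSeries 𝕂) ^ K ∣ rescale ξ H₀ - H₀ := by
    rw [← geom_sum₂_mul] at d1
    exact ((hunit hsum).dvd_mul_left).1 d1
  rw [htwH, hH₀, ← mul_sub, add_comm, pow_add]
  exact mul_dvd_mul_left _ d2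

/-- an integral polynomial with the algebraic number `c` as a simple root. -/
theorem exists_int_poly_simple_root (c : 𝕂) (hc : IsAlgebraic ℚ c) :
    ∃ G : Polynomial ℤ, Polynomial.aeval c G = 0 ∧ Polynomial.aeval c (Polynomial.derivative G) ≠ 0 := by
  have hsep : (minpoly ℚ c).Separable := (minpoly.irreducible hc.isIntegral).separable
  have hd : Polynomial.aeval c (Polynomial.derivative (minpoly ℚ c)) ≠ 0 :=
    hsep.aeval_derivative_ne_zero (minpoly.aeval ℚ c)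
  obtain ⟨b, hbM, hb⟩ := IsLocalization.integerNormalization_spec (nonZeroDivisors ℤ)
    (minpoly ℚ c)
  have hb0 : ((b : ℤ) : 𝕂) ≠ 0 := by
    exact_mod_cast nonZeroDivisors.ne_zero hbM
  refine ⟨IsLocalization.integerNormalization (nonZeroDivisors ℤ) (minpoly ℚ c), ?_, ?_⟩
  · rw [← Polynomial.aeval_map_algebraMap ℚ, hb, map_zsmul, minpoly.aeval, smul_zero]
  · rw [← Polynomial.aeval_map_algebraMap ℚ, ← Polynomial.derivative_map, hb,
      Polynomial.derivative_smul, map_zsmul, zsmul_eq_mul]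
    exact mul_ne_zero hb0 hd

/-- (c) -/
theorem soft_step (ι : B →+* PowerSeries 𝕂) (h : B) (e : ℕ)
    (he : (X : PowerSeries 𝕂) ^ e ∣ ι h)
    (hker : ∀ r : B, constantCoeff (ι r) = 0 →
      ∃ s r' : B, constantCoeff (ι s) ≠ 0 ∧ s * r = h * r')
    (halg : ∀ r : B, IsAlgebraic ℚ (constantCoeff (ι r)))
    (ξ : 𝕂) (K : ℕ) (hK : ∀ r : B, ι r ∈ fixSub ξ K)
    (hH : (X : PowerSeries 𝕂) ^ (K + e) ∣ rescale ξ (ι h) - ι h) (r : B) :
    ι r ∈ fixSub ξ (K + e) := by
  obtain ⟨G, hG0, hG1⟩ := exists_int_poly_simple_root _ (halg r)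
  set c : 𝕂 := constantCoeff (ι r) with hc
  set S := fixSub ξ K with hS
  let Ys : S := ⟨ι r, hK r⟩
  let Cs : S := ⟨C c, C_mem_fixSub ξ K c⟩
  obtain ⟨k, hk⟩ := Polynomial.binomExpansion (G.map (Int.castRingHom S)) Cs (Ys - Cs)
  rw [add_sub_cancel, Polynomial.derivative_map] at hk
  have hk' := congrArg (S.subtype) hk
  simp only [map_add, map_mul, map_pow, map_sub, Polynomial.eval_map] at hk'
  have e1 : ∀ (P : Polynomial ℤ) (x : S), S.subtype (Polynomial.eval₂ (Int.castRingHom S) x P)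
      = Polynomial.aeval (x : PowerSeries 𝕂) P := by
    intro P x
    rw [Polynomial.hom_eval₂, Polynomial.aeval_def]
    congr 1
    exact RingHom.ext_int _ _
  have e2 : ∀ (P : Polynomial ℤ), Polynomial.aeval (C c : PowerSeries 𝕂) P = C (Polynomial.aeval c P) := by
    intro P
    rw [Polynomial.aeval_def, Polynomial.aeval_def, Polynomial.hom_eval₂]
    congr 1
    exact RingHom.ext_int _ _
  have e3 : ∀ (P : Polynomial ℤ), Polynomial.aeval (ι r) P = ι (Polynomial.aeval r P) := by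
    intro P
    rw [Polynomial.aeval_def, Polynomial.aeval_def, Polynomial.hom_eval₂]
    congr 1
    exact RingHom.ext_int _ _
  rw [e1, e1, e1] at hk'
  change Polynomial.aeval (ι r) G = Polynomial.aeval (C c : PowerSeries 𝕂) G
    + Polynomial.aeval (C c : PowerSeries 𝕂) (Polynomial.derivative G) * (ι r - C c)
    + (k : PowerSeries 𝕂) * (ι r - C c) ^ 2 at hk'
  rw [e2, e2, e3, hG0, map_zero, zero_add] at hk'
  set Y₁ : PowerSeries 𝕂 := ι r - C c with hY₁
  set W : PowerSeries 𝕂 := C (Polynomial.aeval c (Polynomial.derivative G)) + (k : PowerSeries 𝕂) * Y₁ with hW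
  have hY₁0 : constantCoeff Y₁ = 0 := by
    rw [hY₁, map_sub, constantCoeff_C, hc, sub_self]
  have hGW : ι (Polynomial.aeval r G) = Y₁ * W := by
    rw [hk', hW]; ring
  have hY₁S : Y₁ ∈ S := S.sub_mem (hK r) (C_mem_fixSub ξ K c)
  have hWS : W ∈ S := S.add_mem (C_mem_fixSub ξ K _) (S.mul_mem k.2 hY₁S)
  have hW0 : constantCoeff W ≠ 0 := by
    rw [hW, map_add, map_mul, hY₁0, mul_zero, add_zero, constantCoeff_C]
    exact hG1
  obtain ⟨s, r', hs, hsr⟩ := hker (Polynomial.aeval r G) (by rw [hGW, map_mul, hY₁0, zero_mul])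
  have hWs0 : constantCoeff (W * ι s) ≠ 0 := by
    rw [map_mul]; exact mul_ne_zero hW0 hs
  set Z : PowerSeries 𝕂 := ι r' * (W * ι s)⁻¹ with hZ
  have hZS : Z ∈ S := S.mul_mem (hK r') (inv_mem_fixSub (S.mul_mem hWS (hK s)) hWs0)
  have hY₁Z : Y₁ = ι h * Z := by
    have h1 : ι s * (Y₁ * W) = ι h * ι r' := by
      rw [← hGW, ← map_mul, hsr, map_mul]
    have h2 : (W * ι s) * (W * ι s)⁻¹ = 1 := PowerSeries.mul_inv_cancel _ hWs0
    calc Y₁ = Y₁ * ((W * ι s) * (W * ι s)⁻¹) := by rw [h2, mul_one]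
      _ = (ι s * (Y₁ * W)) * (W * ι s)⁻¹ := by ring
      _ = ι h * Z := by rw [h1, hZ]; ring
  rw [mem_fixSub]
  have hfin : rescale ξ (ι r) - ι r
      = (rescale ξ (ι h) - ι h) * rescale ξ Z + ι h * (rescale ξ Z - Z) := by
    have h3 : ι r = Y₁ + C c := by rw [hY₁]; ring
    have h4 : rescale ξ (C c : PowerSeries 𝕂) = C c := by
      ext n
      rw [coeff_rescale, coeff_C]
      split_ifs with hn
      · rw [hn, pow_zero, one_mul]
      · rw [mul_zero]
    rw [h3, map_add, h4, hY₁Z, map_mul]; ring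
  rw [hfin]
  refine dvd_add (Dvd.dvd.mul_right hH _) ?_
  rw [add_comm K e, pow_add]
  exact mul_dvd_mul he (mem_fixSub.mp hZS)

/-- **SOFT LEMMA.** -/
theorem soft (ι : B →+* PowerSeries 𝕂) (h : B) (e : ℕ) (he0 : 0 < e)
    (he : (X : PowerSeries 𝕂) ^ e ∣ ι h) (he' : coeff e (ι h) ≠ 0)
    (hker : ∀ r : B, constantCoeff (ι r) = 0 →
      ∃ s r' : B, constantCoeff (ι s) ≠ 0 ∧ s * r = h * r')
    (halg : ∀ r : B, IsAlgebraic ℚ (constantCoeff (ι r)))
    (u : B) (hu : ι u ≠ 0) (hu0 : constantCoeff (ι u) = 0)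
    (ξ : 𝕂) (hξ : ξ ^ e = 1) (huξ : rescale ξ (ι u) = ι u) (r : B) :
    rescale ξ (ι r) = ι r := by
  obtain ⟨k, s, r', hk, hs, hr', hfac⟩ := soft_factor ι h e he0 he hker u hu hu0
  have key : ∀ n : ℕ, ∀ r : B, ι r ∈ fixSub ξ (n * e) := by
    intro n
    induction n with
    | zero =>
      intro r
      rw [mem_fixSub, zero_mul, pow_zero]
      exact one_dvd _
    | succ n ih =>
      intro r
      rw [Nat.succ_mul]
      exact soft_step ι h e he hker halg ξ (n * e) ih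
        (soft_H ι h e he he' u s r' k hk hs hr' hfac ξ hξ huξ (n * e) ih) r
  rw [← sub_eq_zero]
  ext n
  have h1 := key (n + 1) r
  rw [mem_fixSub, X_pow_dvd_iff] at h1
  rw [h1 n (by nlinarith), map_zero]

end Fermat.Agent.S36.Unr
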